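import Mathlib
import Fermat.Prelude.Def_GaloisRep_DeformationRingData
import Fermat.Prelude.Def_GaloisRep_DeformationCondition

set_option autoImplicit false

namespace Fermat.Agent.S53.Defs

open GaloisRep

/-- `2 × 2` matrices. -/
abbrev M2 (A : Type) : Type := Matrix (Fin 2) (Fin 2) A

section basic

variable {G : Type} [Monoid G]

/-- Pushforward of a matrix representation along a ring homomorphism. -/
def mapRep {A B : Type} [CommRing A] [CommRing B] (u : A →+* B) (ρ : G →* M2 A) : G →* M2 B :=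
  (u.mapMatrix : M2 A →+* M2 B).toMonoidHom.comp ρ

theorem mapRep_apply {A B : Type} [CommRing A] [CommRing B] (u : A →+* B) (ρ : G →* M2 A)
    (g : G) : mapRep u ρ g = (ρ g).map u := rfl

/-- Strict equivalence of matrix representations over a local ring. -/
def SEq (A : Type) [CommRing A] [IsLocalRing A] (ρ ρ' : G →* M2 A) : Prop :=
  ∃ X : M2 A, (∀ i j, (X - 1) i j ∈ IsLocalRing.maximalIdeal A) ∧ ∀ g, X * ρ g = ρ' g * X

end basic

section fibre

variable {𝒪 A B C : Type} [CommRing 𝒪] [CommRing A] [CommRing B] [CommRing C]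
  [Algebra 𝒪 A] [Algebra 𝒪 B] [Algebra 𝒪 C]

/-- The fibre product `A ×_C B` as a subalgebra of `A × B`. -/
def FP (f : A →ₐ[𝒪] C) (g : B →ₐ[𝒪] C) : Subalgebra 𝒪 (A × B) :=
  AlgHom.equalizer (f.comp (AlgHom.fst 𝒪 A B)) (g.comp (AlgHom.snd 𝒪 A B))

theorem mem_FP (f : A →ₐ[𝒪] C) (g : B →ₐ[𝒪] C) (x : A × B) :
    x ∈ FP f g ↔ f x.1 = g x.2 := Iff.rfl

/-- First projection of the fibre product. -/
def FP.fst (f : A →ₐ[𝒪] C) (g : B →ₐ[𝒪] C) : ↥(FP f g) →ₐ[𝒪] A :=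
  (AlgHom.fst 𝒪 A B).comp (FP f g).val

/-- Second projection of the fibre product. -/
def FP.snd (f : A →ₐ[𝒪] C) (g : B →ₐ[𝒪] C) : ↥(FP f g) →ₐ[𝒪] B :=
  (AlgHom.snd 𝒪 A B).comp (FP f g).val

variable {G : Type} [Monoid G]

/-- Gluing two matrix representations that agree over `C`. -/
def pairRep (f : A →ₐ[𝒪] C) (g : B →ₐ[𝒪] C) (ρA : G →* M2 A) (ρB : G →* M2 B)
    (h : mapRep (f : A →+* C) ρA = mapRep (g : B →+* C) ρB) : G →* M2 ↥(FP f g) where
  toFun σ := Matrix.of fun i j =>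
    ⟨(ρA σ i j, ρB σ i j), by
      have := congrArg (fun ρ => ρ σ i j) h
      simpa [mem_FP, mapRep_apply] using this⟩
  map_one' := by
    ext i j <;> simp [Matrix.one_apply] <;> split_ifs <;> simp
  map_mul' σ τ := by
    ext i j <;> simp [Matrix.mul_apply, map_mul]

end fibre

section dual

variable (𝒪 : Type) [CommRing 𝒪] [IsLocalRing 𝒪]

/-- The dual numbers over the residue field, with the `𝒪`-algebra structure used by
`GaloisRep.TangentFinite`. -/
def Dk : Type := DualNumber (IsLocalRing.ResidueField 𝒪)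

noncomputable instance : CommRing (Dk 𝒪) :=
  inferInstanceAs (CommRing (DualNumber (IsLocalRing.ResidueField 𝒪)))

instance : IsLocalRing (Dk 𝒪) :=
  inferInstanceAs (IsLocalRing (DualNumber (IsLocalRing.ResidueField 𝒪)))

noncomputable instance : Algebra 𝒪 (Dk 𝒪) :=
  ((algebraMap (IsLocalRing.ResidueField 𝒪) (DualNumber (IsLocalRing.ResidueField 𝒪))).comp
    (algebraMap 𝒪 (IsLocalRing.ResidueField 𝒪))).toAlgebra

end dual

/-- Abstract deformation problem for `2 × 2` matrix representations of a monoid `G`. -/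
structure DefProblem (𝒪 : Type) [CommRing 𝒪] [IsLocalRing 𝒪] (G : Type) [Monoid G] : Type 1 where
  r : G → M2 𝒪
  IsDef : ∀ (A : Type) [CommRing A] [IsLocalRing A] [Algebra 𝒪 A], (G →* M2 A) → Prop
  lifts : ∀ {A : Type} [CommRing A] [IsLocalRing A] [Algebra 𝒪 A], IsArtinianTestAlgebra 𝒪 A →
    ∀ (ρ : G →* M2 A), IsDef A ρ →
      ∀ g i j, ρ g i j - algebraMap 𝒪 A (r g i j) ∈ IsLocalRing.maximalIdeal A
  map : ∀ {A B : Type} [CommRing A] [IsLocalRing A] [Algebra 𝒪 A]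
    [CommRing B] [IsLocalRing B] [Algebra 𝒪 B],
    IsArtinianTestAlgebra 𝒪 A → IsArtinianTestAlgebra 𝒪 B →
    ∀ (u : A →ₐ[𝒪] B) (ρ : G →* M2 A), IsDef A ρ → IsDef B (mapRep (u : A →+* B) ρ)
  conj : ∀ {A : Type} [CommRing A] [IsLocalRing A] [Algebra 𝒪 A], IsArtinianTestAlgebra 𝒪 A →
    ∀ (ρ ρ' : G →* M2 A), IsDef A ρ → SEq A ρ ρ' → IsDef A ρ'
  cent : ∀ {A : Type} [CommRing A] [IsLocalRing A] [Algebra 𝒪 A], IsArtinianTestAlgebra 𝒪 A →
    ∀ (ρ : G →* M2 A), IsDef A ρ → ∀ X : M2 A, (∀ g, X * ρ g = ρ g * X) →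
      ∃ c : A, X = Matrix.scalar (Fin 2) c
  glue : ∀ {A B C : Type} [CommRing A] [IsLocalRing A] [Algebra 𝒪 A]
    [CommRing B] [IsLocalRing B] [Algebra 𝒪 B] [CommRing C] [IsLocalRing C] [Algebra 𝒪 C]
    (f : A →ₐ[𝒪] C) (g : B →ₐ[𝒪] C) [IsLocalRing ↥(FP f g)],
    IsArtinianTestAlgebra 𝒪 A → IsArtinianTestAlgebra 𝒪 B → IsArtinianTestAlgebra 𝒪 C →
    IsArtinianTestAlgebra 𝒪 ↥(FP f g) → Function.Surjective g →
    ∀ (ρA : G →* M2 A) (ρB : G →* M2 B)
      (h : mapRep (f : A →+* C) ρA = mapRep (g : B →+* C) ρB),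
      IsDef A ρA → IsDef B ρB → IsDef ↥(FP f g) (pairRep f g ρA ρB h)
  fin : ∃ N : ℕ, ∀ (n : ℕ) (F : Fin n → (G →* M2 (Dk 𝒪))), (∀ i, IsDef (Dk 𝒪) (F i)) →
    (∀ i j, SEq (Dk 𝒪) (F i) (F j) → i = j) → n ≤ N
  base : ∃ ρ0 : G →* M2 (IsLocalRing.ResidueField 𝒪), IsDef (IsLocalRing.ResidueField 𝒪) ρ0

/-- The output of the abstract existence theorem: a universal object. -/
structure UnivData {𝒪 : Type} [CommRing 𝒪] [IsLocalRing 𝒪] {G : Type} [Monoid G]
    (P : DefProblem 𝒪 G) : Type 1 where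
  R : Type
  [instCommRing : CommRing R]
  [instIsLocalRing : IsLocalRing R]
  [instIsNoetherianRing : IsNoetherianRing R]
  [instIsAdicComplete : IsAdicComplete (IsLocalRing.maximalIdeal R) R]
  [instAlgebra : Algebra 𝒪 R]
  [instIsLocalHom : IsLocalHom (algebraMap 𝒪 R)]
  residue_surjective : Function.Surjective (IsLocalRing.residue R ∘ algebraMap 𝒪 R)
  ρ : G →* M2 R
  lifts : ∀ g i j, ρ g i j - algebraMap 𝒪 R (P.r g i j) ∈ IsLocalRing.maximalIdeal R
  isDef_map : ∀ (B : Type) [CommRing B] [IsLocalRing B] [Algebra 𝒪 B],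
    IsArtinianTestAlgebra 𝒪 B → ∀ u : R →ₐ[𝒪] B, P.IsDef B (mapRep (u : R →+* B) ρ)
  univ : ∀ (B : Type) [CommRing B] [IsLocalRing B] [Algebra 𝒪 B],
    IsArtinianTestAlgebra 𝒪 B → ∀ η : G →* M2 B, P.IsDef B η →
      ∃! u : R →ₐ[𝒪] B, SEq B (mapRep (u : R →+* B) ρ) η

attribute [instance] UnivData.instCommRing UnivData.instIsLocalRing
  UnivData.instIsNoetherianRing UnivData.instIsAdicComplete UnivData.instAlgebra
  UnivData.instIsLocalHom

section galois

/-- The absolute Galois group of `ℚ`. -/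
abbrev Γ : Type := AlgebraicClosure ℚ ≃ₐ[ℚ] AlgebraicClosure ℚ

/-- `m`-adic continuity of a matrix-valued representation of `Γ`. -/
def IsContMat (A : Type) [CommRing A] [IsLocalRing A] (ρ : Γ →* M2 A) : Prop :=
  ∀ n : ℕ, ∃ L : IntermediateField ℚ (AlgebraicClosure ℚ), FiniteDimensional ℚ L ∧
    ∀ σ : Γ, (∀ x ∈ L, σ x = x) → ∀ i j, (ρ σ - 1) i j ∈ IsLocalRing.maximalIdeal A ^ n

theorem pi_mem_smul_top {A : Type} [CommRing A] (I : Ideal A) (w : Fin 2 → A)
    (h : ∀ i, w i ∈ I) : w ∈ I • (⊤ : Submodule A (Fin 2 → A)) := by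
  have hw : w = ∑ i, w i • (Pi.single i (1 : A) : Fin 2 → A) := by
    ext j
    simp [Finset.sum_apply, Pi.single_apply]
  rw [hw]
  exact Submodule.sum_mem _ fun i _ => Submodule.smul_mem_smul (h i) Submodule.mem_top

/-- The `GaloisRepAdic` attached to a continuous matrix representation. -/
noncomputable def ofMat {A : Type} [CommRing A] [IsLocalRing A] (ρ : Γ →* M2 A)
    (hc : IsContMat A ρ) : GaloisRepAdic A where
  V := Fin 2 → A
  finrank_eq := by simp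
  ρ := (Matrix.toLinAlgEquiv' : M2 A ≃ₐ[A] Module.End A (Fin 2 → A)).toAlgHom.toRingHom.toMonoidHom.comp ρ
  isAdicContinuous := by
    intro n
    obtain ⟨L, hL, h1⟩ := hc n
    refine ⟨L, hL, fun σ hσ v => ?_⟩
    have : (ρ σ).mulVec v - v = (ρ σ - 1).mulVec v := by
      rw [Matrix.sub_mulVec, Matrix.one_mulVec]
    show (ρ σ).mulVec v - v ∈ _
    rw [this]
    refine pi_mem_smul_top _ _ fun i => ?_
    rw [Matrix.mulVec, dotProduct]
    exact Ideal.sum_mem _ fun j _ => Ideal.mul_mem_right _ _ (h1 σ hσ i j)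

theorem ofMat_V {A : Type} [CommRing A] [IsLocalRing A] (ρ : Γ →* M2 A)
    (hc : IsContMat A ρ) : (ofMat ρ hc).V = (Fin 2 → A) := rfl

theorem ofMat_ρ_apply {A : Type} [CommRing A] [IsLocalRing A] (ρ : Γ →* M2 A)
    (hc : IsContMat A ρ) (σ : Γ) (v : Fin 2 → A) :
    (ofMat ρ hc).ρ σ v = (ρ σ).mulVec v := rfl

section concrete

variable (𝒪 : Type) [CommRing 𝒪] [IsLocalRing 𝒪]

/-- The concrete deformation predicate in matrix form. -/
def ConcIsDef (𝒟 : ∀ ⦃A : Type⦄ [CommRing A] [IsLocalRing A] [Algebra 𝒪 A], GaloisRepAdic A → Prop)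
    (r : Γ → M2 𝒪) (A : Type) [CommRing A] [IsLocalRing A] [Algebra 𝒪 A] (ρ : Γ →* M2 A) : Prop :=
  (∀ g i j, ρ g i j - algebraMap 𝒪 A (r g i j) ∈ IsLocalRing.maximalIdeal A) ∧
    ∃ hc : IsContMat A ρ, 𝒟 (ofMat ρ hc)

variable {𝒪}

/-- A chosen basis of the residual representation. -/
noncomputable def rbarBasis (ρbar : ResidualGaloisRep (IsLocalRing.ResidueField 𝒪)) :
    Module.Basis (Fin 2) (IsLocalRing.ResidueField 𝒪) ρbar.V :=
  Module.finBasisOfFinrankEq (IsLocalRing.ResidueField 𝒪) ρbar.V ρbar.finrank_eq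

/-- The matrix form of the residual representation. -/
noncomputable def rbarMat (ρbar : ResidualGaloisRep (IsLocalRing.ResidueField 𝒪)) :
    Γ →* M2 (IsLocalRing.ResidueField 𝒪) :=
  (LinearMap.toMatrixAlgEquiv (rbarBasis ρbar)).toAlgHom.toRingHom.toMonoidHom.comp ρbar.ρ

theorem rbarMat_apply (ρbar : ResidualGaloisRep (IsLocalRing.ResidueField 𝒪)) (σ : Γ) :
    rbarMat ρbar σ = LinearMap.toMatrix (rbarBasis ρbar) (rbarBasis ρbar) (ρbar.ρ σ) := rfl

/-- A set-theoretic lift of the residual matrices to `𝒪`. -/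
noncomputable def rtilde (ρbar : ResidualGaloisRep (IsLocalRing.ResidueField 𝒪)) : Γ → M2 𝒪 :=
  fun σ => Matrix.of fun i j =>
    Classical.choose (IsLocalRing.residue_surjective (rbarMat ρbar σ i j))

theorem residue_rtilde (ρbar : ResidualGaloisRep (IsLocalRing.ResidueField 𝒪)) (σ : Γ)
    (i j : Fin 2) : IsLocalRing.residue 𝒪 (rtilde ρbar σ i j) = rbarMat ρbar σ i j :=
  Classical.choose_spec (IsLocalRing.residue_surjective (rbarMat ρbar σ i j))

end concrete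

end galois

end Fermat.Agent.S53.Defs
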