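import Fermat.Agent.S53.RigidBasic

/-!
# S53, package R2a: kernels of evaluations are legit ideals

Exact Skeleton-2 statements `Legit.le_NN`, `Legit.exists_pow_le`, `legit_ker_ev`,
`pow_le_ker_ev`, `legit_NN` (namespace `Fermat.Agent.S53.LegitKer`), on top of
`Fermat.Agent.S53.Rigid` and `Fermat.Agent.S53.RigidBasic`.
-/

set_option autoImplicit false

open GaloisRep Fermat.Agent.S53.Defs Fermat.Agent.S53.Rigid Fermat.Agent.Lib.DefNormRep


namespace Fermat.Agent.S53.LegitKer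

/-! ### Generic ring-theoretic helpers -/

/-- The maximal ideal of an Artinian local ring is nilpotent. -/
theorem isNilpotent_maximalIdeal (R : Type) [CommRing R] [IsLocalRing R] [IsArtinianRing R] :
    IsNilpotent (IsLocalRing.maximalIdeal R) := by
  have := IsArtinianRing.isNilpotent_jacobson_bot (R := R)
  rwa [IsLocalRing.jacobson_eq_maximalIdeal ⊥ bot_ne_top] at this

/-- In a finite commutative ring, an element whose image under an injective ring hom is a unit
is a unit. -/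
theorem isUnit_of_isUnit_map_of_finite {R S : Type} [CommRing R] [CommRing S] [Finite R]
    (f : R →+* S) (hf : Function.Injective f) {x : R} (hx : IsUnit (f x)) : IsUnit x := by
  rw [isUnit_iff_mem_nonZeroDivisors_of_finite]
  refine mem_nonZeroDivisors_iff_right.mpr fun y hy => ?_
  apply hf
  have h1 : f y * f x = 0 := by rw [← map_mul, hy, map_zero]
  rw [map_zero]
  exact hx.mul_left_eq_zero.mp h1

/-- A finite commutative ring embedding into a local ring is local. -/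
theorem isLocalRing_of_finite_of_injective {R S : Type} [CommRing R] [CommRing S] [Finite R]
    [IsLocalRing S] (f : R →+* S) (hf : Function.Injective f) : IsLocalRing R := by
  haveI : Nontrivial R := ⟨⟨0, 1, fun h => zero_ne_one (α := S) (by
    rw [← map_zero f, ← map_one f, h])⟩⟩
  refine IsLocalRing.of_isUnit_or_isUnit_one_sub_self fun x => ?_
  rcases IsLocalRing.isUnit_or_isUnit_one_sub_self (f x) with h | h
  · exact Or.inl (isUnit_of_isUnit_map_of_finite f hf h)
  · refine Or.inr (isUnit_of_isUnit_map_of_finite f hf ?_)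
    rwa [map_sub, map_one]


/-- An Artinian test algebra over a local ring with finite residue field is a finite set. -/
theorem finite_of_isArtinianTestAlgebra {𝒪 : Type} [CommRing 𝒪] [IsLocalRing 𝒪]
    [Finite (IsLocalRing.ResidueField 𝒪)] {B : Type} [CommRing B] [IsLocalRing B] [Algebra 𝒪 B]
    (hB : IsArtinianTestAlgebra 𝒪 B) : Finite B := by
  have iArt := hB.isArtinian
  have iLoc := hB.isLocalHom
  -- the residue field of `B` is finite
  have hsurj : Function.Surjective (IsLocalRing.ResidueField.map (algebraMap 𝒪 B)) := by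
    intro y
    obtain ⟨o, ho⟩ := hB.residue_surjective y
    exact ⟨IsLocalRing.residue 𝒪 o, by rw [IsLocalRing.ResidueField.map_residue]; exact ho⟩
  have hfin : Finite (IsLocalRing.ResidueField B) := Finite.of_surjective _ hsurj
  have hfin' : Finite (B ⧸ IsLocalRing.maximalIdeal B) := hfin
  obtain ⟨n, hn⟩ := isNilpotent_maximalIdeal B
  have hq : Finite (B ⧸ IsLocalRing.maximalIdeal B ^ n) :=
    Ideal.finite_quotient_pow (IsNoetherian.noetherian (IsLocalRing.maximalIdeal B)) n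
  refine Finite.of_injective (Ideal.Quotient.mk (IsLocalRing.maximalIdeal B ^ n)) ?_
  rw [injective_iff_map_eq_zero]
  intro x hx
  rw [Ideal.Quotient.eq_zero_iff_mem, hn] at hx
  simpa using hx

/-! ### The residual evaluation -/

section

set_option linter.unusedSectionVars false

variable {𝒪 : Type} [CommRing 𝒪] [IsDomain 𝒪] [IsDiscreteValuationRing 𝒪]
  [IsAdicComplete (IsLocalRing.maximalIdeal 𝒪) 𝒪] [Finite (IsLocalRing.ResidueField 𝒪)]
  {ρbar : ResidualGaloisRep (IsLocalRing.ResidueField 𝒪)} (S : Setup ρbar)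
  (𝒟 : ∀ ⦃A : Type⦄ [CommRing A] [IsLocalRing A] [Algebra 𝒪 A], GaloisRepAdic A → Prop)

/-- Evaluation at a lift of the residual matrices reduces to the residual evaluation. -/
theorem residue_ev {B : Type} [CommRing B] [IsLocalRing B] [Algebra 𝒪 B]
    [IsLocalHom (algebraMap 𝒪 B)] (η : Γ → M2 B)
    (hη : ∀ g a b, η g a b - algebraMap 𝒪 B (S.rt g a b) ∈ IsLocalRing.maximalIdeal B)
    (x : P 𝒪) :
    IsLocalRing.residue B (ev η x) = IsLocalRing.ResidueField.map (algebraMap 𝒪 B)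
      (ev (𝒪 := 𝒪) (A := IsLocalRing.ResidueField 𝒪) S.D.mat x) := by
  have key : (IsLocalRing.residue B).comp ((ev (𝒪 := 𝒪) η : P 𝒪 →ₐ[𝒪] B) : P 𝒪 →+* B) =
      (IsLocalRing.ResidueField.map (algebraMap 𝒪 B)).comp
        ((ev (𝒪 := 𝒪) (A := IsLocalRing.ResidueField 𝒪) S.D.mat :
          P 𝒪 →ₐ[𝒪] IsLocalRing.ResidueField 𝒪) : P 𝒪 →+* IsLocalRing.ResidueField 𝒪) := by
    apply MvPolynomial.ringHom_ext
    · intro o
      simp only [RingHom.comp_apply, RingHom.coe_coe]
      rw [← MvPolynomial.algebraMap_eq, AlgHom.commutes, AlgHom.commutes,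
        IsLocalRing.ResidueField.algebraMap_eq, IsLocalRing.ResidueField.map_residue]
    · rintro ⟨g, a, b⟩
      simp only [RingHom.comp_apply, RingHom.coe_coe]
      rw [ev_X, ev_X, ← S.hrt g a b, IsLocalRing.ResidueField.map_residue, ← sub_eq_zero,
        ← map_sub, IsLocalRing.residue_eq_zero_iff]
      exact hη g a b
  exact RingHom.congr_fun key x

/-- `NN S` is the preimage of the maximal ideal under evaluation at any lift. -/
theorem mem_NN_iff {B : Type} [CommRing B] [IsLocalRing B] [Algebra 𝒪 B]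
    [IsLocalHom (algebraMap 𝒪 B)] (η : Γ → M2 B)
    (hη : ∀ g a b, η g a b - algebraMap 𝒪 B (S.rt g a b) ∈ IsLocalRing.maximalIdeal B)
    (x : P 𝒪) : x ∈ NN S ↔ ev η x ∈ IsLocalRing.maximalIdeal B := by
  rw [← IsLocalRing.residue_eq_zero_iff, residue_ev S η hη x, NN, RingHom.mem_ker,
    map_eq_zero_iff _ (RingHom.injective _)]

/-- Evaluation at the tautological matrices is the quotient map. -/
theorem ev_tautFun (I : Ideal (P 𝒪)) (x : P 𝒪) :
    ev (𝒪 := 𝒪) (tautFun I) x = Ideal.Quotient.mk I x := by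
  have key : ev (𝒪 := 𝒪) (tautFun I) = Ideal.Quotient.mkₐ 𝒪 I := by
    apply MvPolynomial.algHom_ext
    rintro ⟨g, a, b⟩
    rw [ev_X]
    rfl
  rw [key]
  rfl

/-! ### R2a -/

variable {I I' : Ideal (P 𝒪)}

theorem Legit.le_NN (h : Legit S 𝒟 I) : I ≤ NN S := by
  obtain ⟨iL, ρ, hρ, hA, hN, -⟩ := h
  have iLoc := hA.isLocalHom
  intro x hx
  have hη : ∀ g a b, tautFun I g a b - algebraMap 𝒪 (P 𝒪 ⧸ I) (S.rt g a b) ∈
      IsLocalRing.maximalIdeal (P 𝒪 ⧸ I) := fun g a b => by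
    rw [← hρ g]; exact hN.res g a b
  rw [mem_NN_iff S (tautFun I) hη, ev_tautFun, Ideal.Quotient.eq_zero_iff_mem.mpr hx]
  exact Ideal.zero_mem _

theorem Legit.exists_pow_le (h : Legit S 𝒟 I) : ∃ n, NN S ^ n ≤ I := by
  obtain ⟨iL, ρ, hρ, hA, hN, -⟩ := h
  have iLoc := hA.isLocalHom
  have iArt := hA.isArtinian
  have hη : ∀ g a b, tautFun I g a b - algebraMap 𝒪 (P 𝒪 ⧸ I) (S.rt g a b) ∈
      IsLocalRing.maximalIdeal (P 𝒪 ⧸ I) := fun g a b => by
    rw [← hρ g]; exact hN.res g a b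
  obtain ⟨n, hn⟩ := isNilpotent_maximalIdeal (P 𝒪 ⧸ I)
  refine ⟨n, ?_⟩
  have h1 : NN S ≤ (IsLocalRing.maximalIdeal (P 𝒪 ⧸ I)).comap (Ideal.Quotient.mk I) := by
    intro x hx
    rw [Ideal.mem_comap, ← ev_tautFun]
    exact (mem_NN_iff S (tautFun I) hη x).mp hx
  calc NN S ^ n ≤ ((IsLocalRing.maximalIdeal (P 𝒪 ⧸ I)).comap (Ideal.Quotient.mk I)) ^ n :=
        Ideal.pow_right_mono h1 n
    _ ≤ (IsLocalRing.maximalIdeal (P 𝒪 ⧸ I) ^ n).comap (Ideal.Quotient.mk I) :=
        Ideal.le_comap_pow _ n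
    _ = I := by rw [hn, Ideal.zero_eq_bot, ← RingHom.ker_eq_comap_bot, Ideal.mk_ker]

theorem pow_le_ker_ev {B : Type} [CommRing B] [IsLocalRing B] [Algebra 𝒪 B]
    (hB : IsArtinianTestAlgebra 𝒪 B) (η : Γ →* M2 B) (h : IsNLift S B η) (n : ℕ)
    (hn : IsLocalRing.maximalIdeal B ^ n = ⊥) :
    NN S ^ n ≤ RingHom.ker (ev (𝒪 := 𝒪) (fun g => η g)) := by
  have iLoc := hB.isLocalHom
  have h1 : NN S ≤ (IsLocalRing.maximalIdeal B).comap (ev (𝒪 := 𝒪) (fun g => η g)) := by
    intro x hx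
    rw [Ideal.mem_comap]
    exact (mem_NN_iff S (fun g => η g) h.res x).mp hx
  calc NN S ^ n ≤ ((IsLocalRing.maximalIdeal B).comap (ev (𝒪 := 𝒪) (fun g => η g))) ^ n :=
        Ideal.pow_right_mono h1 n
    _ ≤ (IsLocalRing.maximalIdeal B ^ n).comap (ev (𝒪 := 𝒪) (fun g => η g)) :=
        Ideal.le_comap_pow _ n
    _ = RingHom.ker (ev (𝒪 := 𝒪) (fun g => η g)) := by rw [hn, ← RingHom.ker_eq_comap_bot]

/-- kernel of the evaluation at a normalised deformation is legit (of_baseChangeAlong_injective) -/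
theorem legit_ker_ev (h𝒟 : GaloisRep.IsDeformationCondition 𝒪 𝒟)
    {B : Type} [CommRing B] [IsLocalRing B] [Algebra 𝒪 B] (hB : IsArtinianTestAlgebra 𝒪 B)
    (η : Γ →* M2 B) (h : IsND S 𝒟 B η) :
    Legit S 𝒟 (RingHom.ker (ev (𝒪 := 𝒪) (fun g => η g))) := by
  have iLocB := hB.isLocalHom
  have hfinB : Finite B := finite_of_isArtinianTestAlgebra hB
  -- the embedding `P ⧸ J ↪ B`
  set f : P 𝒪 →ₐ[𝒪] B := ev (𝒪 := 𝒪) (fun g => η g) with hf
  let u : (P 𝒪 ⧸ RingHom.ker f) →ₐ[𝒪] B := Ideal.kerLiftAlg f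
  have hu : Function.Injective u := Ideal.kerLiftAlg_injective f
  have hu_mk : ∀ x : P 𝒪, u (Ideal.Quotient.mk (RingHom.ker f) x) = f x := fun x =>
    Ideal.kerLiftAlg_mk f x
  have hfin : Finite (P 𝒪 ⧸ RingHom.ker f) := Finite.of_injective u hu
  have iL : IsLocalRing (P 𝒪 ⧸ RingHom.ker f) :=
    isLocalRing_of_finite_of_injective (u : (P 𝒪 ⧸ RingHom.ker f) →+* B) hu
  have hunit : ∀ x : P 𝒪 ⧸ RingHom.ker f, IsUnit (u x) → IsUnit x := fun x hx =>
    isUnit_of_isUnit_map_of_finite (u : (P 𝒪 ⧸ RingHom.ker f) →+* B) hu hx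
  -- the tautological matrices
  have htaut : ∀ g, (tautFun (RingHom.ker f) g).map u = η g := by
    intro g
    ext a b
    rw [Matrix.map_apply]
    show u (Ideal.Quotient.mk (RingHom.ker f) (MvPolynomial.X (g, a, b))) = η g a b
    rw [hu_mk, hf, ev_X]
  have hinjM : Function.Injective
      (fun M : M2 (P 𝒪 ⧸ RingHom.ker f) => M.map u) := Matrix.map_injective hu
  let ρ : Γ →* M2 (P 𝒪 ⧸ RingHom.ker f) :=
    { toFun := tautFun (RingHom.ker f)
      map_one' := by
        apply hinjM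
        show (tautFun (RingHom.ker f) 1).map u = (1 : M2 (P 𝒪 ⧸ RingHom.ker f)).map u
        rw [htaut, map_one, Matrix.map_one _ (map_zero u) (map_one u)]
      map_mul' := fun g g' => by
        apply hinjM
        show (tautFun (RingHom.ker f) (g * g')).map u =
          (tautFun (RingHom.ker f) g * tautFun (RingHom.ker f) g').map u
        rw [htaut, Matrix.map_mul, htaut, htaut, map_mul] }
  have hρ : ∀ g, ρ g = tautFun (RingHom.ker f) g := fun g => rfl
  have hmap : mapRep ((u : (P 𝒪 ⧸ RingHom.ker f) →ₐ[𝒪] B) : (P 𝒪 ⧸ RingHom.ker f) →+* B) ρ = η := by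
    ext g : 1
    rw [mapRep_apply]
    exact htaut g
  have hA : IsArtinianTestAlgebra 𝒪 (P 𝒪 ⧸ RingHom.ker f) := by
    refine ⟨⟨fun o ho => ?_⟩, fun y => ?_, inferInstance⟩
    · have : IsUnit (u (algebraMap 𝒪 (P 𝒪 ⧸ RingHom.ker f) o)) := ho.map u
      rw [AlgHom.commutes] at this
      exact isUnit_of_map_unit (algebraMap 𝒪 B) o this
    · obtain ⟨x, rfl⟩ := IsLocalRing.residue_surjective y
      obtain ⟨o, ho⟩ := hB.residue_surjective (IsLocalRing.residue B (u x))
      refine ⟨o, ?_⟩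
      show IsLocalRing.residue _ (algebraMap 𝒪 (P 𝒪 ⧸ RingHom.ker f) o) = IsLocalRing.residue _ x
      rw [← sub_eq_zero, ← map_sub, IsLocalRing.residue_eq_zero_iff, IsLocalRing.mem_maximalIdeal,
        mem_nonunits_iff]
      intro hcon
      have h1 : IsUnit (u (algebraMap 𝒪 (P 𝒪 ⧸ RingHom.ker f) o - x)) := hcon.map u
      rw [map_sub, AlgHom.commutes] at h1
      have h2 : IsLocalRing.residue B (algebraMap 𝒪 B o - u x) = 0 := by
        rw [map_sub, sub_eq_zero]
        exact ho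
      rw [IsLocalRing.residue_eq_zero_iff, IsLocalRing.mem_maximalIdeal, mem_nonunits_iff] at h2
      exact h2 h1
  refine ⟨iL, ρ, hρ, hA, ?_⟩
  refine Fermat.Agent.S53.RigidBasic.IsND.of_map_injective S 𝒟 h𝒟 hA hB u hu ?_
  rw [hmap]
  exact h

theorem legit_NN (h𝒟 : GaloisRep.IsDeformationCondition 𝒪 𝒟)
    (hbar : 𝒟 (GaloisRepAdic.ofResidualGaloisRep ρbar)) : Legit S 𝒟 (NN S) := by
  obtain ⟨ρ0, h0, hND⟩ := Fermat.Agent.S53.RigidBasic.exists_isND_residue S 𝒟 h𝒟 hbar
  have hk : IsArtinianTestAlgebra 𝒪 (IsLocalRing.ResidueField 𝒪) := by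
    refine ⟨?_, fun y => ?_, inferInstance⟩
    · rw [IsLocalRing.ResidueField.algebraMap_eq]
      infer_instance
    · obtain ⟨x, rfl⟩ := IsLocalRing.residue_surjective y
      obtain ⟨o, rfl⟩ := IsLocalRing.residue_surjective x
      exact ⟨o, rfl⟩
  have key := legit_ker_ev S 𝒟 h𝒟 hk ρ0 hND
  have hfun : (fun g => ρ0 g) = S.D.mat := funext h0
  rw [hfun] at key
  exact key

end

end Fermat.Agent.S53.LegitKer
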