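import Mathlib

set_option autoImplicit false

namespace Fermat.Agent.S53.AbstractRep

open Ideal

section MinChain

variable {P : Type*} [CommRing P]

/-- If `I₀` maximises the cardinality of the quotient among the "legit" ideals of a given level,
it is contained in every legit ideal of that level. -/
theorem le_of_card_max (Legit : Ideal P → Prop) (K : Ideal P)
    (hinf : ∀ I I', Legit I → Legit I' → Legit (I ⊓ I'))
    (hfin : ∀ I, Legit I → K ≤ I → Finite (P ⧸ I))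
    {I₀ : Ideal P} (h₀ : Legit I₀) (hK₀ : K ≤ I₀)
    (hmax : ∀ I, Legit I → K ≤ I → Nat.card (P ⧸ I) ≤ Nat.card (P ⧸ I₀))
    {J : Ideal P} (hJ : Legit J) (hKJ : K ≤ J) : I₀ ≤ J := by
  have hL : Legit (I₀ ⊓ J) := hinf _ _ h₀ hJ
  have hKL : K ≤ I₀ ⊓ J := le_inf hK₀ hKJ
  have : Finite (P ⧸ (I₀ ⊓ J)) := hfin _ hL hKL
  have hsurj : Function.Surjective (Ideal.Quotient.factor (inf_le_left : I₀ ⊓ J ≤ I₀)) :=
    Ideal.Quotient.factor_surjective _
  have hbij := hsurj.bijective_of_nat_card_le (hmax _ hL hKL)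
  intro x hx
  have h1 : Ideal.Quotient.factor (inf_le_left : I₀ ⊓ J ≤ I₀)
      (Ideal.Quotient.mk (I₀ ⊓ J) x) = Ideal.Quotient.factor (inf_le_left : I₀ ⊓ J ≤ I₀) 0 := by
    rw [Ideal.Quotient.factor_mk, map_zero]
    exact Ideal.Quotient.eq_zero_iff_mem.mpr hx
  have h2 := hbij.1 h1
  exact (Ideal.Quotient.eq_zero_iff_mem.mp h2).2

/-- Existence of a legit ideal of maximal quotient cardinality at a given level. -/
theorem exists_card_max (Legit : Ideal P → Prop) (K : Ideal P)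
    (hne : ∃ I, Legit I ∧ K ≤ I)
    (hbd : ∃ C : ℕ, ∀ I, Legit I → K ≤ I → Nat.card (P ⧸ I) ≤ C) :
    ∃ I₀, Legit I₀ ∧ K ≤ I₀ ∧ ∀ I, Legit I → K ≤ I → Nat.card (P ⧸ I) ≤ Nat.card (P ⧸ I₀) := by
  classical
  let s : Set ℕ := {m | ∃ I, Legit I ∧ K ≤ I ∧ Nat.card (P ⧸ I) = m}
  have hs : s.Nonempty := by
    obtain ⟨I, hI, hKI⟩ := hne
    exact ⟨_, I, hI, hKI, rfl⟩
  have hb : BddAbove s := by
    obtain ⟨C, hC⟩ := hbd
    refine ⟨C, ?_⟩
    rintro m ⟨I, hI, hKI, rfl⟩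
    exact hC I hI hKI
  obtain ⟨I₀, hI₀, hKI₀, hcard⟩ := Nat.sSup_mem hs hb
  refine ⟨I₀, hI₀, hKI₀, fun I hI hKI => ?_⟩
  rw [hcard]
  exact le_csSup hb ⟨I, hI, hKI, rfl⟩

/-- **Minimal legit chain.** For a predicate `Legit` on ideals of `P` which is upward closed below
`NN`, closed under binary intersection, and with uniformly bounded finite quotients at each level
`NN ^ n ≤ I`, there is for every `n` a smallest legit ideal `I n` containing `NN ^ (n + 1)`, and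
these form a compatible chain. -/
theorem exists_min_chain (NN : Ideal P) (Legit : Ideal P → Prop)
    (h0 : Legit NN)
    (hle : ∀ I, Legit I → I ≤ NN)
    (hup : ∀ I I', Legit I → I ≤ I' → I' ≤ NN → Legit I')
    (hinf : ∀ I I', Legit I → Legit I' → Legit (I ⊓ I'))
    (hfin : ∀ n : ℕ, ∃ C : ℕ, ∀ I, Legit I → NN ^ n ≤ I →
      Finite (P ⧸ I) ∧ Nat.card (P ⧸ I) ≤ C) :
    ∃ I : ℕ → Ideal P,
      (∀ n, Legit (I n) ∧ NN ^ (n + 1) ≤ I n ∧ Finite (P ⧸ I n)) ∧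
      (∀ n J, Legit J → NN ^ (n + 1) ≤ J → I n ≤ J) ∧
      I 0 = NN ∧ Antitone I ∧
      ∀ n N, n ≤ N → I n = I N ⊔ NN ^ (n + 1) := by
  classical
  have key : ∀ n : ℕ, ∃ I₀, Legit I₀ ∧ NN ^ (n + 1) ≤ I₀ ∧ Finite (P ⧸ I₀) ∧
      ∀ J, Legit J → NN ^ (n + 1) ≤ J → I₀ ≤ J := by
    intro n
    obtain ⟨C, hC⟩ := hfin (n + 1)
    have hNN : NN ^ (n + 1) ≤ NN := Ideal.pow_le_self (Nat.succ_ne_zero n)
    obtain ⟨I₀, hI₀, hKI₀, hmax⟩ := exists_card_max Legit (NN ^ (n + 1)) ⟨NN, h0, hNN⟩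
      ⟨C, fun I hI hKI => (hC I hI hKI).2⟩
    exact ⟨I₀, hI₀, hKI₀, (hC I₀ hI₀ hKI₀).1, fun J hJ hKJ =>
      le_of_card_max Legit (NN ^ (n + 1)) hinf (fun I hI hKI => (hC I hI hKI).1)
        hI₀ hKI₀ hmax hJ hKJ⟩
  choose I hI1 hI2 hI3 hI4 using key
  have hanti : ∀ n N, n ≤ N → I N ≤ I n := fun n N hnN =>
    hI4 N (I n) (hI1 n) ((Ideal.pow_le_pow_right (Nat.succ_le_succ hnN)).trans (hI2 n))
  refine ⟨I, fun n => ⟨hI1 n, hI2 n, hI3 n⟩, hI4, ?_, fun n N hnN => hanti n N hnN, ?_⟩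
  · exact le_antisymm (hle _ (hI1 0)) (by simpa using hI2 0)
  · intro n N hnN
    have hNN : NN ^ (n + 1) ≤ NN := Ideal.pow_le_self (Nat.succ_ne_zero n)
    apply le_antisymm
    · exact hI4 n _ (hup (I N) _ (hI1 N) le_sup_left (sup_le (hle _ (hI1 N)) hNN)) le_sup_right
    · exact sup_le (hanti n N hnN) (hI2 n)

end MinChain

section Nilpotent

variable {𝒪 : Type*} [CommRing 𝒪]

/-- Surjectivity criterion: an `𝒪`-subalgebra `B` of a ring `Q` with a nilpotent ideal `𝔫` such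
that `Q = B + 𝔫` and `𝔫 ⊆ (B ∩ 𝔫) + 𝔫 ^ 2` is everything. -/
theorem subalgebra_eq_top_of_nilpotent {Q : Type*} [CommRing Q] [Algebra 𝒪 Q]
    (B : Subalgebra 𝒪 Q) (𝔫 : Ideal Q) (n : ℕ) (hn : 𝔫 ^ n = ⊥)
    (h1 : ∀ y : Q, ∃ b ∈ B, y - b ∈ 𝔫)
    (h2 : ∀ y ∈ 𝔫, ∃ b ∈ B, b ∈ 𝔫 ∧ y - b ∈ 𝔫 ^ 2) : B = ⊤ := by
  have hQ : ∀ j : ℕ, ∀ y ∈ 𝔫 ^ j, ∃ b ∈ B, b ∈ 𝔫 ^ j ∧ y - b ∈ 𝔫 ^ (j + 1) := by
    intro j
    induction j with
    | zero =>
      intro y _
      obtain ⟨b, hb, hyb⟩ := h1 y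
      exact ⟨b, hb, by simp, by simpa using hyb⟩
    | succ j ih =>
      intro y hy
      rw [pow_succ] at hy
      refine Submodule.mul_induction_on hy ?_ ?_
      · intro u hu v hv
        obtain ⟨bu, hbu, hbu', hzu⟩ := ih u hu
        obtain ⟨bv, hbv, hbv', hzv⟩ := h2 v hv
        refine ⟨bu * bv, B.mul_mem hbu hbv, ?_, ?_⟩
        · rw [pow_succ]; exact Ideal.mul_mem_mul hbu' hbv'
        · have e : u * v - bu * bv = bu * (v - bv) + (u - bu) * bv + (u - bu) * (v - bv) := by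
            ring
          rw [e]
          have hpow : 𝔫 ^ (j + 1 + 1) = 𝔫 ^ j * 𝔫 ^ 2 := by rw [← pow_add]
          have hpow' : 𝔫 ^ (j + 1 + 1) = 𝔫 ^ (j + 1) * 𝔫 := by rw [pow_succ]
          refine Ideal.add_mem _ (Ideal.add_mem _ ?_ ?_) ?_
          · rw [hpow]; exact Ideal.mul_mem_mul hbu' hzv
          · rw [hpow']; exact Ideal.mul_mem_mul hzu hbv'
          · rw [hpow']
            exact Ideal.mul_mem_mul hzu (Ideal.pow_le_self two_ne_zero hzv)
      · rintro x y ⟨bx, hbx, hbx', hzx⟩ ⟨b_y, hby, hby', hzy⟩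
        refine ⟨bx + b_y, B.add_mem hbx hby, Ideal.add_mem _ hbx' hby', ?_⟩
        have e : x + y - (bx + b_y) = (x - bx) + (y - b_y) := by ring
        rw [e]
        exact Ideal.add_mem _ hzx hzy
  have hall : ∀ m : ℕ, ∀ y : Q, ∃ b ∈ B, y - b ∈ 𝔫 ^ m := by
    intro m
    induction m with
    | zero => intro y; exact ⟨0, B.zero_mem, by simp⟩
    | succ m ih =>
      intro y
      obtain ⟨b, hb, hyb⟩ := ih y
      obtain ⟨b', hb', -, hz⟩ := hQ m _ hyb
      refine ⟨b + b', B.add_mem hb hb', ?_⟩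
      have e : y - (b + b') = y - b - b' := by ring
      rw [e]; exact hz
  rw [eq_top_iff]
  intro y _
  obtain ⟨b, hb, hyb⟩ := hall n y
  rw [hn, Ideal.mem_bot, sub_eq_zero] at hyb
  rw [hyb]; exact hb

end Nilpotent

section CardBound

variable (𝒪 : Type*) [CommRing 𝒪] [IsLocalRing 𝒪]

/-- The "maximal ideal" `(𝔪_𝒪, X_1, …, X_d)` of the polynomial ring. -/
noncomputable def MM (d : ℕ) : Ideal (MvPolynomial (Fin d) 𝒪) :=
  (IsLocalRing.maximalIdeal 𝒪).map (MvPolynomial.C : 𝒪 →+* MvPolynomial (Fin d) 𝒪) ⊔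
    Ideal.span (Set.range (MvPolynomial.X : Fin d → MvPolynomial (Fin d) 𝒪))

theorem exists_sub_C_mem_MM (d : ℕ) (f : MvPolynomial (Fin d) 𝒪) :
    ∃ c : 𝒪, f - MvPolynomial.C c ∈ MM 𝒪 d := by
  induction f using MvPolynomial.induction_on with
  | C a => exact ⟨a, by simp⟩
  | add p q hp hq =>
    obtain ⟨a, ha⟩ := hp
    obtain ⟨b, hb⟩ := hq
    refine ⟨a + b, ?_⟩
    have : p + q - MvPolynomial.C (a + b) = (p - MvPolynomial.C a) + (q - MvPolynomial.C b) := by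
      rw [map_add]; ring
    rw [this]
    exact (MM 𝒪 d).add_mem ha hb
  | mul_X p i _ =>
    refine ⟨0, ?_⟩
    rw [map_zero, sub_zero]
    exact (MM 𝒪 d).mul_mem_left _ (Ideal.mem_sup_right (Ideal.subset_span ⟨i, rfl⟩))

theorem finite_quot_MM [Finite (IsLocalRing.ResidueField 𝒪)] (d : ℕ) :
    Finite (MvPolynomial (Fin d) 𝒪 ⧸ MM 𝒪 d) := by
  have hker : ∀ a ∈ IsLocalRing.maximalIdeal 𝒪,
      ((Ideal.Quotient.mk (MM 𝒪 d)).comp (MvPolynomial.C : 𝒪 →+* MvPolynomial (Fin d) 𝒪)) a = 0 := by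
    intro a ha
    rw [RingHom.comp_apply]
    exact Ideal.Quotient.eq_zero_iff_mem.mpr
      (Ideal.mem_sup_left (Ideal.mem_map_of_mem _ ha))
  let ψ : 𝒪 ⧸ IsLocalRing.maximalIdeal 𝒪 →+* MvPolynomial (Fin d) 𝒪 ⧸ MM 𝒪 d :=
    Ideal.Quotient.lift _ _ hker
  have hψ : Function.Surjective ψ := by
    intro y
    obtain ⟨f, rfl⟩ := Ideal.Quotient.mk_surjective y
    obtain ⟨c, hc⟩ := exists_sub_C_mem_MM 𝒪 d f
    refine ⟨Ideal.Quotient.mk _ c, ?_⟩
    show ψ (Ideal.Quotient.mk _ c) = _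
    rw [Ideal.Quotient.lift_mk, RingHom.comp_apply]
    exact ((Ideal.Quotient.mk_eq_mk_iff_sub_mem _ _).mpr hc).symm
  have : Finite (𝒪 ⧸ IsLocalRing.maximalIdeal 𝒪) :=
    inferInstanceAs (Finite (IsLocalRing.ResidueField 𝒪))
  exact Finite.of_surjective ψ hψ

theorem finite_quot_MM_pow [IsNoetherianRing 𝒪] [Finite (IsLocalRing.ResidueField 𝒪)]
    (d n : ℕ) : Finite (MvPolynomial (Fin d) 𝒪 ⧸ MM 𝒪 d ^ n) :=
  have := finite_quot_MM 𝒪 d
  Ideal.finite_quotient_pow (IsNoetherian.noetherian _) n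


variable {𝒪}
variable {P : Type*} [CommRing P] [Algebra 𝒪 P]

/-- **Cardinality bound.** If `𝒪 → P ⧸ NN` is surjective and `𝔪_𝒪 P ≤ NN`, then for every `n`
and `τ` there is a uniform bound on the cardinality of `P ⧸ I` over all ideals `I` with
`NN ^ n ≤ I` whose "tangent quotient" `P ⧸ (I ⊔ NN ^ 2 ⊔ 𝔪_𝒪 P)` has at most `τ` elements. -/
theorem card_bound [IsNoetherianRing 𝒪] [Finite (IsLocalRing.ResidueField 𝒪)]
    (NN : Ideal P)
    (hsurj : ∀ x : P, ∃ c : 𝒪, x - algebraMap 𝒪 P c ∈ NN)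
    (h𝔪 : (IsLocalRing.maximalIdeal 𝒪).map (algebraMap 𝒪 P) ≤ NN)
    (n τ : ℕ) :
    ∃ C : ℕ, ∀ I : Ideal P, NN ^ n ≤ I →
      Finite (P ⧸ (I ⊔ NN ^ 2 ⊔ (IsLocalRing.maximalIdeal 𝒪).map (algebraMap 𝒪 P))) →
      Nat.card (P ⧸ (I ⊔ NN ^ 2 ⊔ (IsLocalRing.maximalIdeal 𝒪).map (algebraMap 𝒪 P))) ≤ τ →
      Finite (P ⧸ I) ∧ Nat.card (P ⧸ I) ≤ C := by
  classical
  refine ⟨Nat.card (MvPolynomial (Fin τ) 𝒪 ⧸ MM 𝒪 τ ^ n), ?_⟩
  intro I hI hfin hcard
  set 𝔪P : Ideal P := (IsLocalRing.maximalIdeal 𝒪).map (algebraMap 𝒪 P) with h𝔪P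
  set J : Ideal P := I ⊔ NN ^ 2 ⊔ 𝔪P with hJ
  -- enumerate the tangent quotient
  have hne : Nonempty (P ⧸ J) := ⟨0⟩
  let _ : Fintype (P ⧸ J) := Fintype.ofFinite _
  have hcard' : Fintype.card (P ⧸ J) ≤ Fintype.card (Fin τ) := by
    rw [← Nat.card_eq_fintype_card, Fintype.card_fin]; exact hcard
  obtain ⟨emb⟩ := Function.Embedding.nonempty_of_card_le hcard'
  let e : Fin τ → P ⧸ J := Function.invFun emb
  have he : Function.Surjective e := Function.invFun_surjective emb.injective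
  -- representatives in `NN`
  have hs : ∀ c : P ⧸ J, ∃ x : P, x ∈ NN ∧ ((∃ x' ∈ NN, Ideal.Quotient.mk J x' = c) →
      Ideal.Quotient.mk J x = c) := by
    intro c
    by_cases h : ∃ x' ∈ NN, Ideal.Quotient.mk J x' = c
    · obtain ⟨x', hx', hx'c⟩ := h
      exact ⟨x', hx', fun _ => hx'c⟩
    · exact ⟨0, NN.zero_mem, fun h' => absurd h' h⟩
  choose s hsNN hsmk using hs
  let t : Fin τ → P := fun i => s (e i)
  let φ : MvPolynomial (Fin τ) 𝒪 →ₐ[𝒪] P ⧸ I :=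
    MvPolynomial.aeval (fun i => Ideal.Quotient.mk I (t i))
  set 𝔫 : Ideal (P ⧸ I) := NN.map (Ideal.Quotient.mk I) with h𝔫
  have h𝔫pow : 𝔫 ^ n = ⊥ := by
    rw [h𝔫, ← Ideal.map_pow]
    exact Ideal.map_mk_eq_bot_of_le hI
  have halg : ∀ c : 𝒪, algebraMap 𝒪 (P ⧸ I) c = Ideal.Quotient.mk I (algebraMap 𝒪 P c) :=
    fun c => rfl
  have halg𝔫 : ∀ c ∈ IsLocalRing.maximalIdeal 𝒪, algebraMap 𝒪 (P ⧸ I) c ∈ 𝔫 := by
    intro c hc
    rw [halg]
    exact Ideal.mem_map_of_mem _ (h𝔪 (Ideal.mem_map_of_mem _ hc))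
  -- `MM ^ n` is killed
  have hMM : (MM 𝒪 τ).map (φ : MvPolynomial (Fin τ) 𝒪 →+* P ⧸ I) ≤ 𝔫 := by
    rw [MM, Ideal.map_sup, Ideal.map_map, Ideal.map_span]
    refine sup_le ?_ ?_
    · rw [Ideal.map_le_iff_le_comap]
      intro c hc
      rw [Ideal.mem_comap, RingHom.comp_apply]
      have : (φ : MvPolynomial (Fin τ) 𝒪 →+* P ⧸ I) (MvPolynomial.C c) =
          algebraMap 𝒪 (P ⧸ I) c := MvPolynomial.aeval_C _ c
      rw [this]
      exact halg𝔫 c hc
    · rw [Ideal.span_le]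
      rintro _ ⟨_, ⟨i, rfl⟩, rfl⟩
      have : (φ : MvPolynomial (Fin τ) 𝒪 →+* P ⧸ I) (MvPolynomial.X i) =
          Ideal.Quotient.mk I (t i) := MvPolynomial.aeval_X _ i
      rw [this]
      exact Ideal.mem_map_of_mem _ (hsNN _)
  have hker : ∀ f ∈ MM 𝒪 τ ^ n, (φ : MvPolynomial (Fin τ) 𝒪 →+* P ⧸ I) f = 0 := by
    intro f hf
    have h1 : (φ : MvPolynomial (Fin τ) 𝒪 →+* P ⧸ I) f ∈
        ((MM 𝒪 τ) ^ n).map (φ : MvPolynomial (Fin τ) 𝒪 →+* P ⧸ I) :=
      Ideal.mem_map_of_mem _ hf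
    rw [Ideal.map_pow] at h1
    have h2 := Ideal.pow_right_mono hMM n h1
    rwa [h𝔫pow, Ideal.mem_bot] at h2
  -- surjectivity
  have hsurjφ : Function.Surjective φ := by
    have hB : φ.range = ⊤ := by
      refine subalgebra_eq_top_of_nilpotent φ.range 𝔫 n h𝔫pow ?_ ?_
      · intro y
        obtain ⟨x, rfl⟩ := Ideal.Quotient.mk_surjective y
        obtain ⟨c, hc⟩ := hsurj x
        refine ⟨algebraMap 𝒪 (P ⧸ I) c, Subalgebra.algebraMap_mem _ c, ?_⟩
        rw [halg, ← map_sub]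
        exact Ideal.mem_map_of_mem _ hc
      · -- first the claim for elements of `𝔪P`
        have h2a : ∀ c ∈ 𝔪P, ∃ b ∈ φ.range, b ∈ 𝔫 ∧ Ideal.Quotient.mk I c - b ∈ 𝔫 ^ 2 := by
          intro c hc
          rw [h𝔪P, Ideal.map] at hc
          refine Submodule.span_induction ?_ ?_ ?_ ?_ hc
          · rintro _ ⟨m, hm, rfl⟩
            exact ⟨algebraMap 𝒪 (P ⧸ I) m, Subalgebra.algebraMap_mem _ m, halg𝔫 m hm,
              by rw [halg, sub_self]; exact Ideal.zero_mem _⟩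
          · exact ⟨0, Subalgebra.zero_mem _, Ideal.zero_mem _, by simp⟩
          · rintro x y _ _ ⟨bx, hbx, hbx', hzx⟩ ⟨b_y, hby, hby', hzy⟩
            refine ⟨bx + b_y, Subalgebra.add_mem _ hbx hby, Ideal.add_mem _ hbx' hby', ?_⟩
            have e : Ideal.Quotient.mk I (x + y) - (bx + b_y) =
                (Ideal.Quotient.mk I x - bx) + (Ideal.Quotient.mk I y - b_y) := by
              rw [map_add]; ring
            rw [e]; exact Ideal.add_mem _ hzx hzy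
          · rintro p x _ ⟨bx, hbx, hbx', hzx⟩
            obtain ⟨c, hc⟩ := hsurj p
            refine ⟨algebraMap 𝒪 (P ⧸ I) c * bx,
              Subalgebra.mul_mem _ (Subalgebra.algebraMap_mem _ c) hbx,
              Ideal.mul_mem_left _ _ hbx', ?_⟩
            have hpc : Ideal.Quotient.mk I p - algebraMap 𝒪 (P ⧸ I) c ∈ 𝔫 := by
              rw [halg, ← map_sub]; exact Ideal.mem_map_of_mem _ hc
            have e : Ideal.Quotient.mk I (p • x) - algebraMap 𝒪 (P ⧸ I) c * bx =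
                Ideal.Quotient.mk I p * (Ideal.Quotient.mk I x - bx) +
                  (Ideal.Quotient.mk I p - algebraMap 𝒪 (P ⧸ I) c) * bx := by
              rw [smul_eq_mul, map_mul]; ring
            rw [e]
            refine Ideal.add_mem _ (Ideal.mul_mem_left _ _ hzx) ?_
            rw [pow_two]; exact Ideal.mul_mem_mul hpc hbx'
        intro y hy
        rw [h𝔫] at hy
        obtain ⟨x, hx, rfl⟩ :=
          (Ideal.mem_map_iff_of_surjective _ Ideal.Quotient.mk_surjective).mp hy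
        obtain ⟨i, hi⟩ := he (Ideal.Quotient.mk J x)
        have hti : Ideal.Quotient.mk J (t i) = Ideal.Quotient.mk J x := by
          have := hsmk (e i) ⟨x, hx, hi.symm⟩
          rw [this, hi]
        have hmem : x - t i ∈ J := by
          rw [← Ideal.Quotient.eq_zero_iff_mem, map_sub, hti, sub_self]
        rw [hJ] at hmem
        obtain ⟨ab, hab, c, hc, habc⟩ := Submodule.mem_sup.mp hmem
        obtain ⟨a, ha, b, hb, hab'⟩ := Submodule.mem_sup.mp hab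
        obtain ⟨bc, hbc, hbc', hzc⟩ := h2a c hc
        refine ⟨Ideal.Quotient.mk I (t i) + bc, Subalgebra.add_mem _ ⟨MvPolynomial.X i, ?_⟩ hbc,
          Ideal.add_mem _ (Ideal.mem_map_of_mem _ (hsNN _)) hbc', ?_⟩
        · exact MvPolynomial.aeval_X _ i
        · have e : Ideal.Quotient.mk I x - (Ideal.Quotient.mk I (t i) + bc) =
              Ideal.Quotient.mk I b + (Ideal.Quotient.mk I c - bc) := by
            have h0 : Ideal.Quotient.mk I a = 0 := Ideal.Quotient.eq_zero_iff_mem.mpr ha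
            have h1 : Ideal.Quotient.mk I x - Ideal.Quotient.mk I (t i) =
                Ideal.Quotient.mk I a + Ideal.Quotient.mk I b + Ideal.Quotient.mk I c := by
              rw [← map_sub, ← habc, ← hab', map_add, map_add]
            rw [h0, zero_add] at h1
            rw [sub_add_eq_sub_sub, h1]; ring
          rw [e]
          refine Ideal.add_mem _ ?_ hzc
          rw [h𝔫, ← Ideal.map_pow]
          exact Ideal.mem_map_of_mem _ hb
    intro y
    have : y ∈ φ.range := by rw [hB]; exact Algebra.mem_top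
    exact this
  let ψ : MvPolynomial (Fin τ) 𝒪 ⧸ MM 𝒪 τ ^ n →+* P ⧸ I :=
    Ideal.Quotient.lift _ (φ : MvPolynomial (Fin τ) 𝒪 →+* P ⧸ I) hker
  have hψ : Function.Surjective ψ :=
    Ideal.Quotient.lift_surjective_of_surjective _ hker hsurjφ
  have := finite_quot_MM_pow 𝒪 τ n
  exact ⟨Finite.of_surjective ψ hψ, Nat.card_le_card_of_surjective ψ hψ⟩

/-- **Minimal legit chain from a tangent bound.** Combination of `exists_min_chain` and
`card_bound`. -/
theorem exists_min_chain_of_tangent_bound [IsNoetherianRing 𝒪]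
    [Finite (IsLocalRing.ResidueField 𝒪)]
    (NN : Ideal P)
    (hsurj : ∀ x : P, ∃ c : 𝒪, x - algebraMap 𝒪 P c ∈ NN)
    (h𝔪 : (IsLocalRing.maximalIdeal 𝒪).map (algebraMap 𝒪 P) ≤ NN)
    (Legit : Ideal P → Prop)
    (h0 : Legit NN)
    (hle : ∀ I, Legit I → I ≤ NN)
    (hup : ∀ I I', Legit I → I ≤ I' → I' ≤ NN → Legit I')
    (hinf : ∀ I I', Legit I → Legit I' → Legit (I ⊓ I'))
    (hfinL : ∀ I, Legit I → Finite (P ⧸ I))
    (htan : ∃ τ : ℕ, ∀ I, Legit I →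
      Nat.card (P ⧸ (I ⊔ NN ^ 2 ⊔ (IsLocalRing.maximalIdeal 𝒪).map (algebraMap 𝒪 P))) ≤ τ) :
    ∃ I : ℕ → Ideal P,
      (∀ n, Legit (I n) ∧ NN ^ (n + 1) ≤ I n ∧ Finite (P ⧸ I n)) ∧
      (∀ n J, Legit J → NN ^ (n + 1) ≤ J → I n ≤ J) ∧
      I 0 = NN ∧ Antitone I ∧
      ∀ n N, n ≤ N → I n = I N ⊔ NN ^ (n + 1) := by
  obtain ⟨τ, hτ⟩ := htan
  refine exists_min_chain NN Legit h0 hle hup hinf (fun n => ?_)
  obtain ⟨C, hC⟩ := card_bound NN hsurj h𝔪 n τ
  refine ⟨C, fun I hI hnI => hC I hnI ?_ (hτ I hI)⟩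
  have := hfinL I hI
  exact Finite.of_surjective _
    (Ideal.Quotient.factor_surjective (le_sup_of_le_left le_sup_left :
      I ≤ I ⊔ NN ^ 2 ⊔ (IsLocalRing.maximalIdeal 𝒪).map (algebraMap 𝒪 P)))

end CardBound
section Tangent

variable {𝒪 : Type*} [CommRing 𝒪] [IsLocalRing 𝒪]
variable {P : Type*} [CommRing P] [Algebra 𝒪 P]

/-- **Tangent count.** The cardinality of the "tangent quotient" `P ⧸ (I ⊔ NN ^ 2 ⊔ 𝔪_𝒪 P)` is
bounded by `|k|` times the number of `𝒪`-algebra homomorphisms `P ⧸ I → k[ε]`. -/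
theorem card_tangent_le [Finite (IsLocalRing.ResidueField 𝒪)]
    [algD : Algebra 𝒪 (DualNumber (IsLocalRing.ResidueField 𝒪))]
    (hD : ∀ c : 𝒪, algebraMap 𝒪 (DualNumber (IsLocalRing.ResidueField 𝒪)) c =
      TrivSqZeroExt.inl (IsLocalRing.residue 𝒪 c))
    (NN : Ideal P) (hNN : NN ≠ ⊤)
    (hsurj : ∀ x : P, ∃ c : 𝒪, x - algebraMap 𝒪 P c ∈ NN)
    (h𝔪 : (IsLocalRing.maximalIdeal 𝒪).map (algebraMap 𝒪 P) ≤ NN)
    (I : Ideal P) (hI : I ≤ NN) [Finite (P ⧸ I)] :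
    Nat.card (P ⧸ (I ⊔ NN ^ 2 ⊔ (IsLocalRing.maximalIdeal 𝒪).map (algebraMap 𝒪 P))) ≤
      Nat.card (IsLocalRing.ResidueField 𝒪) *
        Nat.card (P ⧸ I →ₐ[𝒪] DualNumber (IsLocalRing.ResidueField 𝒪)) := by
  classical
  set 𝔪P : Ideal P := (IsLocalRing.maximalIdeal 𝒪).map (algebraMap 𝒪 P) with h𝔪P
  set J : Ideal P := I ⊔ NN ^ 2 ⊔ 𝔪P with hJ
  have hJNN : J ≤ NN := sup_le (sup_le hI (Ideal.pow_le_self two_ne_zero)) h𝔪
  have hIJ : I ≤ J := le_sup_of_le_left le_sup_left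
  have hsqJ : NN ^ 2 ≤ J := le_sup_of_le_left le_sup_right
  have h𝔪J : 𝔪P ≤ J := le_sup_right
  have hfinA : Finite (P ⧸ J) := Finite.of_surjective _ (Ideal.Quotient.factor_surjective hIJ)
  -- the residue field maps isomorphically onto `P ⧸ NN`
  have hκ0 : ∀ a ∈ IsLocalRing.maximalIdeal 𝒪,
      ((Ideal.Quotient.mk NN).comp (algebraMap 𝒪 P)) a = 0 := fun a ha =>
    Ideal.Quotient.eq_zero_iff_mem.mpr (h𝔪 (Ideal.mem_map_of_mem _ ha))
  let κ : IsLocalRing.ResidueField 𝒪 →+* P ⧸ NN := Ideal.Quotient.lift _ _ hκ0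
  have hκmk : ∀ c : 𝒪, κ (IsLocalRing.residue 𝒪 c) = Ideal.Quotient.mk NN (algebraMap 𝒪 P c) :=
    fun c => rfl
  have hnt : Nontrivial (P ⧸ NN) := Ideal.Quotient.nontrivial_iff.mpr hNN
  have hκinj : Function.Injective κ := RingHom.injective κ
  have hκsurj : Function.Surjective κ := by
    intro y
    obtain ⟨x, rfl⟩ := Ideal.Quotient.mk_surjective y
    obtain ⟨c, hc⟩ := hsurj x
    exact ⟨IsLocalRing.residue 𝒪 c, by
      rw [hκmk]; exact ((Ideal.Quotient.mk_eq_mk_iff_sub_mem _ _).mpr hc).symm⟩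
  let e : IsLocalRing.ResidueField 𝒪 ≃+* P ⧸ NN := RingEquiv.ofBijective κ ⟨hκinj, hκsurj⟩
  let augP : P →+* IsLocalRing.ResidueField 𝒪 :=
    (e.symm : P ⧸ NN →+* IsLocalRing.ResidueField 𝒪).comp (Ideal.Quotient.mk NN)
  have haugP_alg : ∀ c : 𝒪, augP (algebraMap 𝒪 P c) = IsLocalRing.residue 𝒪 c := by
    intro c
    show e.symm (Ideal.Quotient.mk NN (algebraMap 𝒪 P c)) = _
    rw [← hκmk]
    exact e.symm_apply_apply (IsLocalRing.residue 𝒪 c)
  have haugP_ker : ∀ x : P, augP x = 0 ↔ x ∈ NN := by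
    intro x
    show e.symm (Ideal.Quotient.mk NN x) = 0 ↔ _
    rw [map_eq_zero_iff _ e.symm.injective, Ideal.Quotient.eq_zero_iff_mem]
  -- augmentation on `A = P ⧸ J`
  let aug : P ⧸ J →+* IsLocalRing.ResidueField 𝒪 :=
    Ideal.Quotient.lift J augP (fun x hx => (haugP_ker x).2 (hJNN hx))
  have haug_mk : ∀ x : P, aug (Ideal.Quotient.mk J x) = augP x := fun x => rfl
  have hι0 : ∀ a ∈ IsLocalRing.maximalIdeal 𝒪,
      ((Ideal.Quotient.mk J).comp (algebraMap 𝒪 P)) a = 0 := fun a ha =>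
    Ideal.Quotient.eq_zero_iff_mem.mpr (h𝔪J (Ideal.mem_map_of_mem _ ha))
  let ι : IsLocalRing.ResidueField 𝒪 →+* P ⧸ J := Ideal.Quotient.lift _ _ hι0
  have hιmk : ∀ c : 𝒪, ι (IsLocalRing.residue 𝒪 c) = Ideal.Quotient.mk J (algebraMap 𝒪 P c) :=
    fun c => rfl
  have haugι : ∀ c, aug (ι c) = c := by
    intro c
    obtain ⟨c, rfl⟩ := IsLocalRing.residue_surjective c
    rw [hιmk, haug_mk, haugP_alg]
  have hsq : ∀ w w' : P ⧸ J, aug w = 0 → aug w' = 0 → w * w' = 0 := by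
    intro w w' hw hw'
    obtain ⟨x, rfl⟩ := Ideal.Quotient.mk_surjective w
    obtain ⟨y, rfl⟩ := Ideal.Quotient.mk_surjective w'
    rw [haug_mk, haugP_ker] at hw hw'
    rw [← map_mul, Ideal.Quotient.eq_zero_iff_mem]
    apply hsqJ
    rw [pow_two]
    exact Ideal.mul_mem_mul hw hw'
  have hdiff : ∀ a : P ⧸ J, aug (a - ι (aug a)) = 0 := by
    intro a; rw [map_sub, haugι, sub_self]
  -- the `k`-vector space `W = ker aug`
  let _ : Algebra (IsLocalRing.ResidueField 𝒪) (P ⧸ J) := ι.toAlgebra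
  have hsmul : ∀ (c : IsLocalRing.ResidueField 𝒪) (a : P ⧸ J), c • a = ι c * a := fun c a => rfl
  let W : Submodule (IsLocalRing.ResidueField 𝒪) (P ⧸ J) :=
    { carrier := {w | aug w = 0}
      add_mem' := fun {a b} ha hb => by
        show aug (a + b) = 0
        rw [map_add, show aug a = 0 from ha, show aug b = 0 from hb, add_zero]
      zero_mem' := map_zero aug
      smul_mem' := fun c w hw => by
        show aug (c • w) = 0
        rw [hsmul, map_mul, show aug w = 0 from hw, mul_zero] }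
  have hWmem : ∀ w : P ⧸ J, w ∈ W ↔ aug w = 0 := fun w => Iff.rfl
  let g : P ⧸ J → W := fun a => ⟨a - ι (aug a), hdiff a⟩
  have hg_coe : ∀ a, ((g a : W) : P ⧸ J) = a - ι (aug a) := fun a => rfl
  have hg_add : ∀ a b, g (a + b) = g a + g b := by
    intro a b
    apply Subtype.ext
    rw [Submodule.coe_add, hg_coe, hg_coe, hg_coe, map_add, map_add]; ring
  have hg_mul : ∀ a b, g (a * b) = aug a • g b + aug b • g a := by
    intro a b
    apply Subtype.ext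
    rw [Submodule.coe_add, Submodule.coe_smul, Submodule.coe_smul, hg_coe, hg_coe, hg_coe,
      hsmul, hsmul, map_mul, map_mul]
    have h0 := hsq _ _ (hdiff a) (hdiff b)
    linear_combination h0
  have hg_alg : ∀ c : 𝒪, g (Ideal.Quotient.mk J (algebraMap 𝒪 P c)) = 0 := by
    intro c
    apply Subtype.ext
    rw [hg_coe, haug_mk, haugP_alg, hιmk, sub_self]; rfl
  have hg_W : ∀ w : W, g (w : P ⧸ J) = w := by
    intro w
    apply Subtype.ext
    rw [hg_coe, (hWmem _).1 w.2, map_zero, sub_zero]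
  -- cardinality of `A`
  have hfinW : Finite W := Finite.of_injective (fun w : W => (w : P ⧸ J)) Subtype.val_injective
  have hcardA : Nat.card (P ⧸ J) ≤ Nat.card (IsLocalRing.ResidueField 𝒪) * Nat.card W := by
    rw [← Nat.card_prod]
    refine Nat.card_le_card_of_injective (fun a => (aug a, g a)) ?_
    intro a b hab
    have h1 : aug a = aug b := congrArg Prod.fst hab
    have h2 : g a = g b := congrArg Prod.snd hab
    have h3 := congrArg (fun w : W => (w : P ⧸ J)) h2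
    simp only [hg_coe] at h3
    rw [h1] at h3
    exact sub_left_injective h3
  -- dual space
  have hcardW : Nat.card W = Nat.card (Module.Dual (IsLocalRing.ResidueField 𝒪) W) := by
    rw [Module.natCard_eq_pow_finrank (K := IsLocalRing.ResidueField 𝒪) (V := W),
      Module.natCard_eq_pow_finrank (K := IsLocalRing.ResidueField 𝒪)
        (V := Module.Dual (IsLocalRing.ResidueField 𝒪) W), Subspace.dual_finrank_eq]
  -- homomorphisms from functionals
  have hfinD : Finite (DualNumber (IsLocalRing.ResidueField 𝒪)) :=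
    Finite.of_injective (fun x : DualNumber (IsLocalRing.ResidueField 𝒪) => (x.fst, x.snd))
      (fun x y h => TrivSqZeroExt.ext (congrArg Prod.fst h) (congrArg Prod.snd h))
  have hfinHom : Finite (P ⧸ I →ₐ[𝒪] DualNumber (IsLocalRing.ResidueField 𝒪)) :=
    Finite.of_injective (fun f => (f : P ⧸ I → DualNumber (IsLocalRing.ResidueField 𝒪)))
      DFunLike.coe_injective
  let F : Module.Dual (IsLocalRing.ResidueField 𝒪) W →
      (P ⧸ J →ₐ[𝒪] DualNumber (IsLocalRing.ResidueField 𝒪)) := fun l =>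
    { toFun := fun a => TrivSqZeroExt.inl (aug a) + TrivSqZeroExt.inr (l (g a))
      map_one' := by
        have h1 : g (1 : P ⧸ J) = 0 := by
          have := hg_alg 1
          rwa [map_one, map_one] at this
        rw [h1, map_zero, map_one, TrivSqZeroExt.inr_zero, add_zero]; rfl
      map_mul' := fun a b => by
        apply TrivSqZeroExt.ext
        · simp
        · simp only [TrivSqZeroExt.snd_add, TrivSqZeroExt.snd_inl, TrivSqZeroExt.snd_inr,
            zero_add, TrivSqZeroExt.snd_mul, TrivSqZeroExt.fst_add, TrivSqZeroExt.fst_inl,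
            TrivSqZeroExt.fst_inr, add_zero, hg_mul, map_add, map_smul, smul_eq_mul,
            MulOpposite.smul_eq_mul_unop, MulOpposite.unop_op]
          ring
      map_zero' := by
        have h0 : g (0 : P ⧸ J) = 0 := by
          have := hg_alg 0
          rwa [map_zero, map_zero] at this
        rw [h0, map_zero, map_zero, TrivSqZeroExt.inr_zero, add_zero, TrivSqZeroExt.inl_zero]
      map_add' := fun a b => by
        rw [hg_add, map_add, map_add, TrivSqZeroExt.inl_add, TrivSqZeroExt.inr_add]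
        abel
      commutes' := fun c => by
        show TrivSqZeroExt.inl (aug (Ideal.Quotient.mk J (algebraMap 𝒪 P c))) +
          TrivSqZeroExt.inr (l (g (Ideal.Quotient.mk J (algebraMap 𝒪 P c)))) = _
        rw [hg_alg, map_zero, TrivSqZeroExt.inr_zero, add_zero, haug_mk, haugP_alg, hD] }
  have hF_snd : ∀ (l : Module.Dual (IsLocalRing.ResidueField 𝒪) W) (w : W),
      (F l (w : P ⧸ J)).snd = l w := by
    intro l w
    show (TrivSqZeroExt.inl (aug (w : P ⧸ J)) + TrivSqZeroExt.inr (l (g (w : P ⧸ J)))).snd = _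
    rw [hg_W]; simp
  have hcardDual : Nat.card (Module.Dual (IsLocalRing.ResidueField 𝒪) W) ≤
      Nat.card (P ⧸ I →ₐ[𝒪] DualNumber (IsLocalRing.ResidueField 𝒪)) := by
    refine Nat.card_le_card_of_injective
      (fun l => (F l).comp (Ideal.Quotient.factorₐ 𝒪 hIJ)) ?_
    intro l l' hll'
    apply LinearMap.ext
    intro w
    obtain ⟨y, hy⟩ := Ideal.Quotient.factor_surjective hIJ (w : P ⧸ J)
    have h1 := congrArg (fun f : P ⧸ I →ₐ[𝒪] DualNumber (IsLocalRing.ResidueField 𝒪) => f y) hll'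
    simp only [AlgHom.comp_apply] at h1
    have hy' : Ideal.Quotient.factorₐ 𝒪 hIJ y = (w : P ⧸ J) := hy
    rw [hy'] at h1
    rw [← hF_snd l w, ← hF_snd l' w, h1]
  calc Nat.card (P ⧸ J) ≤ Nat.card (IsLocalRing.ResidueField 𝒪) * Nat.card W := hcardA
    _ = Nat.card (IsLocalRing.ResidueField 𝒪) *
          Nat.card (Module.Dual (IsLocalRing.ResidueField 𝒪) W) := by rw [hcardW]
    _ ≤ _ := Nat.mul_le_mul_left _ hcardDual


/-- **Minimal legit chain from a bound on dual-number points.** Combination of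
`exists_min_chain_of_tangent_bound` and `card_tangent_le`. -/
theorem exists_min_chain_of_dualNumber_bound [IsNoetherianRing 𝒪]
    [Finite (IsLocalRing.ResidueField 𝒪)]
    [algD : Algebra 𝒪 (DualNumber (IsLocalRing.ResidueField 𝒪))]
    (hD : ∀ c : 𝒪, algebraMap 𝒪 (DualNumber (IsLocalRing.ResidueField 𝒪)) c =
      TrivSqZeroExt.inl (IsLocalRing.residue 𝒪 c))
    (NN : Ideal P) (hNN : NN ≠ ⊤)
    (hsurj : ∀ x : P, ∃ c : 𝒪, x - algebraMap 𝒪 P c ∈ NN)
    (h𝔪 : (IsLocalRing.maximalIdeal 𝒪).map (algebraMap 𝒪 P) ≤ NN)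
    (Legit : Ideal P → Prop)
    (h0 : Legit NN)
    (hle : ∀ I, Legit I → I ≤ NN)
    (hup : ∀ I I', Legit I → I ≤ I' → I' ≤ NN → Legit I')
    (hinf : ∀ I I', Legit I → Legit I' → Legit (I ⊓ I'))
    (hfinL : ∀ I, Legit I → Finite (P ⧸ I))
    (htan : ∃ τ : ℕ, ∀ I, Legit I →
      Nat.card (P ⧸ I →ₐ[𝒪] DualNumber (IsLocalRing.ResidueField 𝒪)) ≤ τ) :
    ∃ I : ℕ → Ideal P,
      (∀ n, Legit (I n) ∧ NN ^ (n + 1) ≤ I n ∧ Finite (P ⧸ I n)) ∧
      (∀ n J, Legit J → NN ^ (n + 1) ≤ J → I n ≤ J) ∧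
      I 0 = NN ∧ Antitone I ∧
      ∀ n N, n ≤ N → I n = I N ⊔ NN ^ (n + 1) := by
  obtain ⟨τ, hτ⟩ := htan
  refine exists_min_chain_of_tangent_bound NN hsurj h𝔪 Legit h0 hle hup hinf hfinL
    ⟨Nat.card (IsLocalRing.ResidueField 𝒪) * τ, fun I hI => ?_⟩
  have := hfinL I hI
  exact (card_tangent_le hD NN hNN hsurj h𝔪 I (hle I hI)).trans
    (Nat.mul_le_mul_left _ (hτ I hI))

end Tangent

end Fermat.Agent.S53.AbstractRep
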