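import Fermat.Agent.S53.Defs
import Fermat.Agent.Lib.DefNormRep

set_option autoImplicit false

namespace Fermat.Agent.S53.Rigid

open GaloisRep Fermat.Agent.S53.Defs Fermat.Agent.Lib.DefNormRep

variable {𝒪 : Type} [CommRing 𝒪] [IsLocalRing 𝒪]

/-- Rigidifying setup: rigid data for `ρbar`, a lift `c0 ∈ 𝒪` of the distinguished entry and a
set-theoretic lift `rt` of all the matrices of `ρbar` in the rigid basis. -/
structure Setup (ρbar : ResidualGaloisRep (IsLocalRing.ResidueField 𝒪)) where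
  D : RigidData ρbar
  c0 : 𝒪
  hc0 : IsLocalRing.residue 𝒪 c0 = D.mat D.τ D.i D.j
  rt : Γ → M2 𝒪
  hrt : ∀ g a b, IsLocalRing.residue 𝒪 (rt g a b) = D.mat g a b

theorem nonempty_setup (ρbar : ResidualGaloisRep (IsLocalRing.ResidueField 𝒪))
    (habs : ρbar.IsAbsolutelyIrreducible) : Nonempty (Setup ρbar) := by
  obtain ⟨D⟩ := nonempty_rigidData ρbar habs
  obtain ⟨c0, hc0⟩ := IsLocalRing.residue_surjective (D.mat D.τ D.i D.j)
  have h : ∀ g a b, ∃ o : 𝒪, IsLocalRing.residue 𝒪 o = D.mat g a b :=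
    fun g a b => IsLocalRing.residue_surjective _
  choose rt hrt using h
  exact ⟨⟨D, c0, hc0, fun g => Matrix.of (rt g), hrt⟩⟩

variable {ρbar : ResidualGaloisRep (IsLocalRing.ResidueField 𝒪)}

/-- `ρ` is a normalised lift of `ρbar` to the local `𝒪`-algebra `A`. -/
structure IsNLift (S : Setup ρbar) (A : Type) [CommRing A] [IsLocalRing A] [Algebra 𝒪 A]
    (ρ : Γ →* M2 A) : Prop where
  res : ∀ g a b, ρ g a b - algebraMap 𝒪 A (S.rt g a b) ∈ IsLocalRing.maximalIdeal A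
  col0 : ρ S.D.σ 0 0 = 0
  col1 : ρ S.D.σ 1 0 = 1
  entry : ρ S.D.τ S.D.i S.D.j = algebraMap 𝒪 A S.c0

/-- `ρ` is a normalised deformation of type `𝒟` of `ρbar` to `A`. -/
def IsND (S : Setup ρbar)
    (𝒟 : ∀ ⦃A : Type⦄ [CommRing A] [IsLocalRing A] [Algebra 𝒪 A], GaloisRepAdic A → Prop)
    (A : Type) [CommRing A] [IsLocalRing A] [Algebra 𝒪 A] (ρ : Γ →* M2 A) : Prop :=
  IsNLift S A ρ ∧ ∃ hc : IsContMat A ρ, 𝒟 (ofMat ρ hc)

variable (𝒪) in
/-- The polynomial ring on the matrix entries. -/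
abbrev P : Type := MvPolynomial (Γ × Fin 2 × Fin 2) 𝒪

/-- Evaluation of the polynomial ring at a family of matrices. -/
noncomputable def ev {A : Type} [CommRing A] [Algebra 𝒪 A] (ρ : Γ → M2 A) : P 𝒪 →ₐ[𝒪] A :=
  MvPolynomial.aeval (fun x : Γ × Fin 2 × Fin 2 => ρ x.1 x.2.1 x.2.2)

omit [IsLocalRing 𝒪] in
theorem ev_X {A : Type} [CommRing A] [Algebra 𝒪 A] (ρ : Γ → M2 A) (g : Γ) (a b : Fin 2) :
    ev ρ (MvPolynomial.X (g, a, b) : P 𝒪) = ρ g a b := by
  simp [ev]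

/-- The maximal ideal of `P` cut out by the residual matrices. -/
noncomputable def NN (S : Setup ρbar) : Ideal (P 𝒪) :=
  RingHom.ker (ev (𝒪 := 𝒪) (A := IsLocalRing.ResidueField 𝒪) S.D.mat)

/-- The tautological matrices over `P ⧸ I`. -/
noncomputable def tautFun (I : Ideal (P 𝒪)) (g : Γ) : M2 (P 𝒪 ⧸ I) :=
  Matrix.of fun a b => Ideal.Quotient.mk I (MvPolynomial.X (g, a, b))

/-- `I` is a legitimate ideal: `P ⧸ I` is an Artinian test algebra over which the tautological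
matrices form a normalised deformation of type `𝒟`. -/
def Legit (S : Setup ρbar)
    (𝒟 : ∀ ⦃A : Type⦄ [CommRing A] [IsLocalRing A] [Algebra 𝒪 A], GaloisRepAdic A → Prop)
    (I : Ideal (P 𝒪)) : Prop :=
  ∃ (_ : IsLocalRing (P 𝒪 ⧸ I)) (ρ : Γ →* M2 (P 𝒪 ⧸ I)), (∀ g, ρ g = tautFun I g) ∧
    IsArtinianTestAlgebra 𝒪 (P 𝒪 ⧸ I) ∧ IsND S 𝒟 (P 𝒪 ⧸ I) ρ

/-- The data of a complete Noetherian local limit of the quotients `P ⧸ I n`. -/
structure LimData (I : ℕ → Ideal (P 𝒪)) : Type 1 where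
  R : Type
  [instCommRing : CommRing R]
  [instIsLocalRing : IsLocalRing R]
  [instIsNoetherianRing : IsNoetherianRing R]
  [instIsAdicComplete : IsAdicComplete (IsLocalRing.maximalIdeal R) R]
  [instAlgebra : Algebra 𝒪 R]
  [instIsLocalHom : IsLocalHom (algebraMap 𝒪 R)]
  residue_surjective : Function.Surjective (IsLocalRing.residue R ∘ algebraMap 𝒪 R)
  ι : P 𝒪 →ₐ[𝒪] R
  π : ∀ n, R →ₐ[𝒪] P 𝒪 ⧸ I n
  π_surjective : ∀ n, Function.Surjective (π n)
  π_ι : ∀ n x, π n (ι x) = Ideal.Quotient.mk (I n) x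
  ker_π : ∀ n, RingHom.ker (π n) = IsLocalRing.maximalIdeal R ^ (n + 1)
  ext : ∀ r r' : R, (∀ n, π n r = π n r') → r = r'

attribute [instance] LimData.instCommRing LimData.instIsLocalRing LimData.instIsNoetherianRing
  LimData.instIsAdicComplete LimData.instAlgebra LimData.instIsLocalHom

end Fermat.Agent.S53.Rigid
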