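import Fermat.Agent.S53.Rigid
import Fermat.Agent.Lib.DefMat

set_option autoImplicit false
open GaloisRep Fermat.Agent.S53.Defs Fermat.Agent.S53.Rigid Fermat.Agent.Lib.DefNormRep

namespace Fermat.Agent.S53.RigidBasic

/-! ### General helpers (no deformation-theoretic input) -/

section helpers

/-- A ring homomorphism out of an Artinian local ring into a nontrivial ring is local:
the maximal ideal consists of nilpotent elements. -/
theorem isLocalHom_of_isArtinianRing {A B : Type} [CommRing A] [IsLocalRing A] [IsArtinianRing A]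
    [CommRing B] [Nontrivial B] (u : A →+* B) : IsLocalHom u := by
  refine ⟨fun x hx => ?_⟩
  by_contra hnu
  have hm : x ∈ IsLocalRing.maximalIdeal A := (IsLocalRing.mem_maximalIdeal x).2 hnu
  have h := IsArtinianRing.isNilpotent_jacobson_bot (R := A)
  rw [IsLocalRing.jacobson_eq_maximalIdeal ⊥ bot_ne_top] at h
  obtain ⟨n, hn⟩ := h
  have hx0 : x ^ n = 0 := by
    have := Ideal.pow_mem_pow hm n
    rw [hn] at this
    simpa using this
  have hu0 : (u x) ^ n = 0 := by rw [← map_pow, hx0, map_zero]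
  exact not_isUnit_zero (hu0 ▸ hx.pow n)

/-- In an Artinian local ring some power of the maximal ideal vanishes. -/
theorem exists_maximalIdeal_pow_eq_bot (A : Type) [CommRing A] [IsLocalRing A]
    [IsArtinianRing A] : ∃ n : ℕ, IsLocalRing.maximalIdeal A ^ n = ⊥ := by
  have h := IsArtinianRing.isNilpotent_jacobson_bot (R := A)
  rw [IsLocalRing.jacobson_eq_maximalIdeal ⊥ bot_ne_top] at h
  obtain ⟨n, hn⟩ := h
  exact ⟨n, hn⟩

/-- The residue field of a local ring is an Artinian test algebra. -/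
theorem isArtinianTestAlgebra_residueField (𝒪 : Type) [CommRing 𝒪] [IsLocalRing 𝒪] :
    IsArtinianTestAlgebra 𝒪 (IsLocalRing.ResidueField 𝒪) where
  isLocalHom := by
    refine ⟨fun x hx => ?_⟩
    rw [IsLocalRing.ResidueField.algebraMap_eq] at hx
    by_contra hnu
    have h0 : IsLocalRing.residue 𝒪 x = 0 :=
      (IsLocalRing.residue_eq_zero_iff x).2 ((IsLocalRing.mem_maximalIdeal x).2 hnu)
    rw [h0] at hx
    exact not_isUnit_zero hx
  residue_surjective := by
    intro y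
    obtain ⟨z, rfl⟩ := IsLocalRing.residue_surjective y
    obtain ⟨x, rfl⟩ := IsLocalRing.residue_surjective z
    exact ⟨x, rfl⟩
  isArtinian := inferInstance

end helpers

variable {𝒪 : Type} [CommRing 𝒪] [IsDomain 𝒪] [IsDiscreteValuationRing 𝒪]
  [IsAdicComplete (IsLocalRing.maximalIdeal 𝒪) 𝒪] [Finite (IsLocalRing.ResidueField 𝒪)]
  {ρbar : ResidualGaloisRep (IsLocalRing.ResidueField 𝒪)} (S : Setup ρbar)
  (𝒟 : ∀ ⦃A : Type⦄ [CommRing A] [IsLocalRing A] [Algebra 𝒪 A], GaloisRepAdic A → Prop)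

section R1
variable {A B : Type} [CommRing A] [IsLocalRing A] [Algebra 𝒪 A]
  [CommRing B] [IsLocalRing B] [Algebra 𝒪 B]

theorem isNLift_iff [IsLocalHom (algebraMap 𝒪 A)] (ρ : Γ →* M2 A) :
    IsNLift S A ρ ↔ IsNormalized S.D (IsLocalRing.ResidueField.map (algebraMap 𝒪 A))
      (algebraMap 𝒪 A S.c0) (fun g => ρ g) := by
  have key : ∀ g a b, (ρ g a b - algebraMap 𝒪 A (S.rt g a b) ∈ IsLocalRing.maximalIdeal A) ↔
      IsLocalRing.residue A (ρ g a b)
        = IsLocalRing.ResidueField.map (algebraMap 𝒪 A) (S.D.mat g a b) := by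
    intro g a b
    rw [← S.hrt g a b, IsLocalRing.ResidueField.map_residue, ← IsLocalRing.residue_eq_zero_iff,
      map_sub, sub_eq_zero]
  constructor
  · intro h
    refine ⟨fun g => ?_, h.col0, h.col1, h.entry⟩
    ext a b
    simp only [RingHom.mapMatrix_apply, Matrix.map_apply]
    exact (key g a b).1 (h.res g a b)
  · intro h
    refine ⟨fun g a b => (key g a b).2 ?_, h.col0, h.col1, h.entry⟩
    have := congrFun (congrFun (h.res g) a) b
    simpa only [RingHom.mapMatrix_apply, Matrix.map_apply] using this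

theorem IsNLift.map (u : A →ₐ[𝒪] B) (hu : IsLocalHom (u : A →+* B)) {ρ : Γ →* M2 A}
    (h : IsNLift S A ρ) : IsNLift S B (mapRep (u : A →+* B) ρ) := by
  refine ⟨fun g a b => ?_, ?_, ?_, ?_⟩
  · have h1 : mapRep (u : A →+* B) ρ g a b - algebraMap 𝒪 B (S.rt g a b)
        = u (ρ g a b - algebraMap 𝒪 A (S.rt g a b)) := by
      rw [map_sub, AlgHom.commutes]
      rfl
    rw [h1]
    haveI := hu
    exact map_nonunit (u : A →+* B) _ (h.res g a b)
  · show (u : A →+* B) (ρ S.D.σ 0 0) = 0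
    rw [h.col0, map_zero]
  · show (u : A →+* B) (ρ S.D.σ 1 0) = 1
    rw [h.col1, map_one]
  · show (u : A →+* B) (ρ S.D.τ S.D.i S.D.j) = algebraMap 𝒪 B S.c0
    rw [h.entry]
    exact u.commutes _

theorem IsNLift.of_map_injective (u : A →ₐ[𝒪] B) (hu : IsLocalHom (u : A →+* B))
    (hinj : Function.Injective u) {ρ : Γ →* M2 A}
    (h : IsNLift S B (mapRep (u : A →+* B) ρ)) : IsNLift S A ρ := by
  refine ⟨fun g a b => ?_, ?_, ?_, ?_⟩
  · have h1 : mapRep (u : A →+* B) ρ g a b - algebraMap 𝒪 B (S.rt g a b)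
        = u (ρ g a b - algebraMap 𝒪 A (S.rt g a b)) := by
      rw [map_sub, AlgHom.commutes]
      rfl
    have h2 := h.res g a b
    rw [h1] at h2
    rw [IsLocalRing.mem_maximalIdeal, mem_nonunits_iff] at h2 ⊢
    exact fun hunit => h2 (hunit.map u)
  · apply hinj
    rw [map_zero]
    exact h.col0
  · apply hinj
    rw [map_one]
    exact h.col1
  · apply hinj
    rw [AlgHom.commutes]
    exact h.entry

/-- conjugate normalised lifts are EQUAL -/
theorem IsNLift.eq_of_conj (habs : ρbar.IsAbsolutelyIrreducible)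
    (hloc : IsLocalHom (algebraMap 𝒪 A))
    (hres : Function.Surjective (IsLocalRing.residue A ∘ algebraMap 𝒪 A))
    {ρ ρ' : Γ →* M2 A} (h : IsNLift S A ρ) (h' : IsNLift S A ρ')
    (X : M2 A) (hX : IsUnit X.det) (hc : ∀ g, X * ρ g = ρ' g * X) : ρ = ρ' := by
  haveI := hloc
  have hι : Function.Surjective (IsLocalRing.ResidueField.map (algebraMap 𝒪 A)) := by
    intro y
    obtain ⟨x, hx⟩ := hres y
    exact ⟨IsLocalRing.residue 𝒪 x, by rw [IsLocalRing.ResidueField.map_residue]; exact hx⟩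
  have hfun := IsNormalized.unique S.D (IsLocalRing.ResidueField.map (algebraMap 𝒪 A)) habs hι
    ((isNLift_iff S ρ).1 h) ((isNLift_iff S ρ').1 h') X hX hc
  ext g : 1
  exact congrFun hfun g

/-- every deformation over a complete local ring has a normalised matrix form -/
theorem exists_isNLift [IsAdicComplete (IsLocalRing.maximalIdeal A) A]
    [IsLocalHom (algebraMap 𝒪 A)]
    (ρA : GaloisRepAdic A)
    (he : ρA.residual.IsEquiv
      (ρbar.baseChangeAlong (IsLocalRing.ResidueField.map (algebraMap 𝒪 A)))) :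
    ∃ (ρ : Γ →* M2 A) (hc : IsContMat A ρ), IsNLift S A ρ ∧ ρA.IsEquiv (ofMat ρ hc) := by
  have hc0 : IsLocalRing.residue A (algebraMap 𝒪 A S.c0)
      = IsLocalRing.ResidueField.map (algebraMap 𝒪 A) (S.D.mat S.D.τ S.D.i S.D.j) := by
    rw [← S.hc0, IsLocalRing.ResidueField.map_residue]
  obtain ⟨b, hb⟩ := exists_normalized_basis S.D
    (IsLocalRing.ResidueField.map (algebraMap 𝒪 A)) (algebraMap 𝒪 A S.c0) hc0 ρA he
  obtain ⟨r, hc, hequiv, hr⟩ := Fermat.Agent.Lib.DefMat.exists_ofMat ρA b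
  refine ⟨r, hc, ?_, hequiv⟩
  rw [isNLift_iff]
  have : (fun g => r g) = fun g => LinearMap.toMatrix b b (ρA.ρ g) := funext hr
  rw [this]
  exact hb

theorem IsND.map (h𝒟 : GaloisRep.IsDeformationCondition 𝒪 𝒟)
    (hA : IsArtinianTestAlgebra 𝒪 A) (hB : IsArtinianTestAlgebra 𝒪 B) (u : A →ₐ[𝒪] B)
    {ρ : Γ →* M2 A} (h : IsND S 𝒟 A ρ) : IsND S 𝒟 B (mapRep (u : A →+* B) ρ) := by
  haveI := hA.isArtinian
  have hu : IsLocalHom (u : A →+* B) := isLocalHom_of_isArtinianRing _
  obtain ⟨hN, hc, hD⟩ := h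
  have hc' : IsContMat B (mapRep (u : A →+* B) ρ) :=
    Fermat.Agent.Lib.DefMat.isContMat_mapRep (u : A →+* B) hu hc
  refine ⟨IsNLift.map S u hu hN, hc', ?_⟩
  exact h𝒟.of_isEquiv hB
    (Fermat.Agent.Lib.DefMat.ofMat_baseChangeAlong (u : A →+* B) hu ρ hc hc')
    (h𝒟.baseChangeAlong hA hB u hu hD)

theorem IsND.of_map_injective (h𝒟 : GaloisRep.IsDeformationCondition 𝒪 𝒟)
    (hA : IsArtinianTestAlgebra 𝒪 A) (hB : IsArtinianTestAlgebra 𝒪 B) (u : A →ₐ[𝒪] B)
    (hinj : Function.Injective u) {ρ : Γ →* M2 A}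
    (h : IsND S 𝒟 B (mapRep (u : A →+* B) ρ)) : IsND S 𝒟 A ρ := by
  haveI := hA.isArtinian
  haveI := hB.isArtinian
  have hu : IsLocalHom (u : A →+* B) := isLocalHom_of_isArtinianRing _
  obtain ⟨hN, hc', hD⟩ := h
  -- continuity descends along the injection: the kernel of `ρ` is of finite level
  have hc : IsContMat A ρ := by
    obtain ⟨N, hN0⟩ := exists_maximalIdeal_pow_eq_bot B
    obtain ⟨L, hL, h1⟩ := hc' N
    intro n
    refine ⟨L, hL, fun σ hσ i j => ?_⟩
    have h2 := h1 σ hσ i j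
    rw [hN0, Ideal.mem_bot] at h2
    have h3 : (mapRep (u : A →+* B) ρ σ - 1) i j = u ((ρ σ - 1) i j) := by
      rw [mapRep_apply, Matrix.sub_apply, Matrix.sub_apply, Matrix.map_apply, map_sub,
        Matrix.one_apply, Matrix.one_apply]
      split_ifs <;> simp
    rw [h3] at h2
    have h4 : (ρ σ - 1) i j = 0 := hinj (h2.trans (map_zero u).symm)
    rw [h4]
    exact Ideal.zero_mem _
  refine ⟨IsNLift.of_map_injective S u hu hinj hN, hc, ?_⟩
  obtain ⟨e⟩ := Fermat.Agent.Lib.DefMat.ofMat_baseChangeAlong (u : A →+* B) hu ρ hc hc'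
  exact h𝒟.of_baseChangeAlong_injective hA hB u hu hinj (h𝒟.of_isEquiv hB ⟨e.symm⟩ hD)

/-- the residual representation itself, in the rigid basis -/
theorem exists_isND_residue (h𝒟 : GaloisRep.IsDeformationCondition 𝒪 𝒟)
    (hbar : 𝒟 (GaloisRepAdic.ofResidualGaloisRep ρbar)) :
    ∃ ρ0 : Γ →* M2 (IsLocalRing.ResidueField 𝒪),
      (∀ g, ρ0 g = S.D.mat g) ∧ IsND S 𝒟 (IsLocalRing.ResidueField 𝒪) ρ0 := by
  obtain ⟨r, hc, hequiv, hr⟩ :=
    Fermat.Agent.Lib.DefMat.exists_ofMat (GaloisRepAdic.ofResidualGaloisRep ρbar) S.D.b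
  have hr' : ∀ g, r g = S.D.mat g := fun g => hr g
  refine ⟨r, hr', ⟨fun g a b => ?_, ?_, ?_, ?_⟩, hc, ?_⟩
  · rw [hr', IsLocalRing.ResidueField.algebraMap_eq, S.hrt, sub_self]
    exact Ideal.zero_mem _
  · rw [hr']
    exact S.D.mat_col.1
  · rw [hr']
    exact S.D.mat_col.2
  · rw [hr', IsLocalRing.ResidueField.algebraMap_eq, S.hc0]
  · exact h𝒟.of_isEquiv (isArtinianTestAlgebra_residueField 𝒪) hequiv hbar

end R1

end Fermat.Agent.S53.RigidBasic
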