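import Fermat.Agent.S53.Assembly
import Fermat.Agent.S53.Rigid
import Fermat.Agent.S53.RigidBasic
import Fermat.Agent.S53.LegitKer
import Fermat.Agent.Lib.DefMat

set_option autoImplicit false
set_option linter.unusedSectionVars false

open GaloisRep Fermat.Agent.S53.Defs Fermat.Agent.S53.Rigid Fermat.Agent.Lib.DefNormRep
open Fermat.Agent.S53.Assembly IsLocalRing

namespace Fermat.Agent.S53.Final

/-! ## General lemmas -/

section general

theorem map_mem_maximalIdeal_iff {R B : Type} [CommRing R] [IsLocalRing R] [CommRing B]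
    [IsLocalRing B] (f : R →+* B) (hf : IsLocalHom f) (r : R) :
    f r ∈ maximalIdeal B ↔ r ∈ maximalIdeal R := by
  rw [mem_maximalIdeal, mem_maximalIdeal, mem_nonunits_iff, mem_nonunits_iff, isUnit_map_iff f]

theorem maximalIdeal_pow_eq_bot_of_surjective {R B : Type} [CommRing R] [IsLocalRing R]
    [CommRing B] [IsLocalRing B] (f : R →+* B) (hf : Function.Surjective f) (n : ℕ)
    (hker : maximalIdeal R ^ n ≤ RingHom.ker f) : maximalIdeal B ^ n = ⊥ := by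
  have hloc : IsLocalHom f := IsLocalHom.of_surjective f hf
  have hmap : (maximalIdeal R).map f = maximalIdeal B := by
    apply le_antisymm
    · rw [Ideal.map_le_iff_le_comap]
      intro r hr
      exact (map_mem_maximalIdeal_iff f hloc r).mpr hr
    · intro b hb
      obtain ⟨r, rfl⟩ := hf b
      exact Ideal.mem_map_of_mem _ ((map_mem_maximalIdeal_iff f hloc r).mp hb)
  rw [← hmap, ← Ideal.map_pow, Ideal.map_eq_bot_iff_le_ker]
  exact hker

theorem ofMat_congr {A : Type} [CommRing A] [IsLocalRing A] {ρ ρ' : Γ →* M2 A} (h : ρ = ρ')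
    (hc : IsContMat A ρ) (hc' : IsContMat A ρ') : (ofMat ρ hc).IsEquiv (ofMat ρ' hc') := by
  subst h
  exact ⟨GaloisRepAdic.Equiv.refl _⟩

variable {𝒪 : Type} [CommRing 𝒪] [IsLocalRing 𝒪]
  {ρbar : ResidualGaloisRep (IsLocalRing.ResidueField 𝒪)} (S : Setup ρbar)

theorem isNLift_map {A B : Type} [CommRing A] [IsLocalRing A] [Algebra 𝒪 A]
    [CommRing B] [IsLocalRing B] [Algebra 𝒪 B] (u : A →ₐ[𝒪] B)
    (hu : IsLocalHom (u : A →+* B)) {ρ : Γ →* M2 A} (h : IsNLift S A ρ) :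
    IsNLift S B (mapRep (u : A →+* B) ρ) where
  res g a b := by
    have h1 := (map_mem_maximalIdeal_iff (u : A →+* B) hu _).mpr (h.res g a b)
    simpa [mapRep_apply] using h1
  col0 := by simp [mapRep_apply, h.col0]
  col1 := by simp [mapRep_apply, h.col1]
  entry := by simp [mapRep_apply, h.entry]

end general

/-! ## The representation over the limit ring -/

section rhoR

variable {𝒪 : Type} [CommRing 𝒪] [IsLocalRing 𝒪]
  {ρbar : ResidualGaloisRep (IsLocalRing.ResidueField 𝒪)} (S : Setup ρbar)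
  {I : ℕ → Ideal (P 𝒪)} (L : LimData I)

/-- The generic matrices over the limit ring. -/
noncomputable def matR (g : Γ) : M2 L.R :=
  Matrix.of fun a b => L.ι (MvPolynomial.X (g, a, b))

theorem matR_map (n : ℕ) (g : Γ) : (matR L g).map (L.π n) = tautFun (I n) g := by
  ext a b
  simp [matR, tautFun, L.π_ι]

theorem mat_ext {X Y : M2 L.R} (h : ∀ n, X.map (L.π n) = Y.map (L.π n)) : X = Y := by
  ext a b
  refine L.ext _ _ fun n => ?_
  have := congrFun (congrFun (h n) a) b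
  simpa using this

/-- The universal representation. -/
noncomputable def rhoR (ρn : ∀ n, Γ →* M2 (P 𝒪 ⧸ I n))
    (hρn : ∀ n g, ρn n g = tautFun (I n) g) : Γ →* M2 L.R where
  toFun := matR L
  map_one' := by
    refine mat_ext L fun n => ?_
    rw [matR_map, ← hρn n 1, map_one, Matrix.map_one _ (map_zero _) (map_one _)]
  map_mul' g h := by
    refine mat_ext L fun n => ?_
    rw [Matrix.map_mul, matR_map, matR_map, matR_map, ← hρn, ← hρn, ← hρn, map_mul]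

variable (ρn : ∀ n, Γ →* M2 (P 𝒪 ⧸ I n)) (hρn : ∀ n g, ρn n g = tautFun (I n) g)

theorem rhoR_apply (g : Γ) (a b : Fin 2) :
    rhoR L ρn hρn g a b = L.ι (MvPolynomial.X (g, a, b)) := rfl

theorem mapRep_π_rhoR (n : ℕ) :
    mapRep (L.π n : L.R →+* P 𝒪 ⧸ I n) (rhoR L ρn hρn) = ρn n := by
  ext g a b
  rw [mapRep_apply, hρn]
  exact congrFun (congrFun (matR_map L n g) a) b

theorem π_rhoR (n : ℕ) (g : Γ) (a b : Fin 2) :
    L.π n (rhoR L ρn hρn g a b) = ρn n g a b := by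
  have := congrArg (fun ρ : Γ →* M2 (P 𝒪 ⧸ I n) => ρ g a b) (mapRep_π_rhoR L ρn hρn n)
  simpa [mapRep_apply] using this

variable [instLoc : ∀ n, IsLocalRing (P 𝒪 ⧸ I n)]

theorem isLocalHom_π (n : ℕ) : IsLocalHom (L.π n : L.R →+* P 𝒪 ⧸ I n) :=
  IsLocalHom.of_surjective _ (L.π_surjective n)

include L in
theorem maximalIdeal_level_pow (n : ℕ) : maximalIdeal (P 𝒪 ⧸ I n) ^ (n + 1) = ⊥ :=
  maximalIdeal_pow_eq_bot_of_surjective (L.π n : L.R →+* P 𝒪 ⧸ I n) (L.π_surjective n) (n + 1)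
    (L.ker_π n).ge

theorem isNLift_rhoR (hNL : ∀ n, IsNLift S (P 𝒪 ⧸ I n) (ρn n)) :
    IsNLift S L.R (rhoR L ρn hρn) where
  res g a b := by
    rw [← map_mem_maximalIdeal_iff (L.π 0 : L.R →+* P 𝒪 ⧸ I 0) (isLocalHom_π L 0)]
    have h1 := (hNL 0).res g a b
    rw [← π_rhoR L ρn hρn 0 g a b] at h1
    simpa using h1
  col0 := by
    refine L.ext _ _ fun n => ?_
    rw [π_rhoR, (hNL n).col0, map_zero]
  col1 := by
    refine L.ext _ _ fun n => ?_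
    rw [π_rhoR, (hNL n).col1, map_one]
  entry := by
    refine L.ext _ _ fun n => ?_
    rw [π_rhoR, (hNL n).entry, AlgHom.commutes]

theorem isContMat_rhoR (hcn : ∀ n, IsContMat (P 𝒪 ⧸ I n) (ρn n)) :
    IsContMat L.R (rhoR L ρn hρn) := by
  intro n
  cases n with
  | zero =>
    refine ⟨⊥, inferInstance, fun σ _ i j => ?_⟩
    simp
  | succ k =>
    obtain ⟨L', hL', h⟩ := hcn k (k + 1)
    refine ⟨L', hL', fun σ hσ i j => ?_⟩
    have h1 := h σ hσ i j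
    rw [maximalIdeal_level_pow L k, Ideal.mem_bot] at h1
    rw [← L.ker_π k, RingHom.mem_ker]
    rw [← h1]
    by_cases hij : i = j
    · subst hij
      simp [Matrix.sub_apply, π_rhoR]
    · simp [Matrix.sub_apply, hij, π_rhoR]

end rhoR

/-! ## Density and the type of the universal representation -/

section density

variable {𝒪 : Type} [CommRing 𝒪] [IsLocalRing 𝒪]
  {ρbar : ResidualGaloisRep (IsLocalRing.ResidueField 𝒪)} (S : Setup ρbar)
  (𝒟 : ∀ ⦃A : Type⦄ [CommRing A] [IsLocalRing A] [Algebra 𝒪 A], GaloisRepAdic A → Prop)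
  {I : ℕ → Ideal (P 𝒪)} (L : LimData I)

theorem exists_pow_eq_bot {B : Type} [CommRing B] [IsLocalRing B] [Algebra 𝒪 B]
    (hB : IsArtinianTestAlgebra 𝒪 B) : ∃ N : ℕ, maximalIdeal B ^ (N + 1) = ⊥ := by
  have := hB.isArtinian
  obtain ⟨N, hN⟩ := (isArtinianRing_iff_isNilpotent_maximalIdeal B).mp inferInstance
  refine ⟨N, ?_⟩
  rw [pow_succ, hN]
  simp

theorem map_pow_eq_zero {B : Type} [CommRing B] [IsLocalRing B] [Algebra 𝒪 B]
    (hB : IsArtinianTestAlgebra 𝒪 B) {N : ℕ} (hN : maximalIdeal B ^ (N + 1) = ⊥)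
    (u : L.R →ₐ[𝒪] B) (r : L.R) (hr : r ∈ maximalIdeal L.R ^ (N + 1)) : u r = 0 := by
  have hu := isLocalHom_of_algHom hB.isLocalHom hB.residue_surjective u
  have h1 : (u : L.R →+* B) r ∈ maximalIdeal B ^ (N + 1) :=
    Fermat.Agent.Lib.DefMat.map_maximalIdeal_pow_le _ hu (N + 1) (Ideal.mem_map_of_mem _ hr)
  rw [hN] at h1
  exact h1

/-- Two algebra homomorphisms from the limit ring to an Artinian test algebra which agree on
the generic matrix entries are equal. -/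
theorem algHom_ext_of_ι {B : Type} [CommRing B] [IsLocalRing B] [Algebra 𝒪 B]
    (hB : IsArtinianTestAlgebra 𝒪 B) (f g : L.R →ₐ[𝒪] B)
    (h : ∀ x : Γ × Fin 2 × Fin 2, f (L.ι (MvPolynomial.X x)) = g (L.ι (MvPolynomial.X x))) :
    f = g := by
  obtain ⟨N, hN⟩ := exists_pow_eq_bot hB
  have hfι : f.comp L.ι = g.comp L.ι := MvPolynomial.algHom_ext (fun x => h x)
  ext r
  obtain ⟨p, hp⟩ := Ideal.Quotient.mk_surjective (L.π N r)
  have hr : r - L.ι p ∈ maximalIdeal L.R ^ (N + 1) := by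
    rw [← L.ker_π N, RingHom.mem_ker, map_sub, L.π_ι, hp, sub_self]
  have e1 := map_pow_eq_zero L hB hN f _ hr
  have e2 := map_pow_eq_zero L hB hN g _ hr
  rw [map_sub, sub_eq_zero] at e1 e2
  rw [e1, e2]
  exact congrArg (fun ψ : P 𝒪 →ₐ[𝒪] B => ψ p) hfι

theorem isND_map (h𝒟 : GaloisRep.IsDeformationCondition 𝒪 𝒟)
    {A B : Type} [CommRing A] [IsLocalRing A] [Algebra 𝒪 A]
    [CommRing B] [IsLocalRing B] [Algebra 𝒪 B]
    (hA : IsArtinianTestAlgebra 𝒪 A) (hB : IsArtinianTestAlgebra 𝒪 B) (u : A →ₐ[𝒪] B)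
    {ρ : Γ →* M2 A} (h : IsND S 𝒟 A ρ) : IsND S 𝒟 B (mapRep (u : A →+* B) ρ) := by
  have hu : IsLocalHom (u : A →+* B) :=
    isLocalHom_of_algHom hB.isLocalHom hB.residue_surjective u
  obtain ⟨hNL, hc, hD⟩ := h
  have hc' := Fermat.Agent.Lib.DefMat.isContMat_mapRep (u : A →+* B) hu hc
  refine ⟨isNLift_map S u hu hNL, hc', ?_⟩
  obtain ⟨e⟩ := Fermat.Agent.Lib.DefMat.ofMat_baseChangeAlong (u : A →+* B) hu ρ hc hc'
  exact h𝒟.of_isEquiv hB ⟨e⟩ (h𝒟.baseChangeAlong hA hB u hu hD)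

variable (ρn : ∀ n, Γ →* M2 (P 𝒪 ⧸ I n)) (hρn : ∀ n g, ρn n g = tautFun (I n) g)
  [instLoc : ∀ n, IsLocalRing (P 𝒪 ⧸ I n)]

theorem isOfType_rhoR (h𝒟 : GaloisRep.IsDeformationCondition 𝒪 𝒟)
    (hT : ∀ n, IsArtinianTestAlgebra 𝒪 (P 𝒪 ⧸ I n))
    (hND : ∀ n, IsND S 𝒟 (P 𝒪 ⧸ I n) (ρn n))
    (hcR : IsContMat L.R (rhoR L ρn hρn)) : 𝒟 (ofMat (rhoR L ρn hρn) hcR) := by
  rw [h𝒟.iff_forall_surjective inferInstance L.residue_surjective]
  intro B _ _ _ hB q hq hsurj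
  obtain ⟨N, hN⟩ := exists_pow_eq_bot hB
  have hker : RingHom.ker (L.π N).toRingHom ≤ RingHom.ker q.toRingHom := by
    intro r hr
    have hr' : r ∈ maximalIdeal L.R ^ (N + 1) := by
      rw [← L.ker_π N]
      exact hr
    exact map_pow_eq_zero L hB hN q r hr'
  let qbar : P 𝒪 ⧸ I N →ₐ[𝒪] B := AlgHom.liftOfSurjective (L.π N) (L.π_surjective N) q hker
  have hq2 : mapRep (qbar : P 𝒪 ⧸ I N →+* B) (ρn N) = mapRep (q : L.R →+* B) (rhoR L ρn hρn) := by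
    ext g a b
    rw [mapRep_apply, mapRep_apply, Matrix.map_apply, Matrix.map_apply, ← π_rhoR L ρn hρn N g a b]
    exact AlgHom.liftOfSurjective_apply (L.π N) (L.π_surjective N) q hker _
  obtain ⟨-, hc, hD⟩ := isND_map S 𝒟 h𝒟 (hT N) hB qbar (hND N)
  have h2 : ∃ hc' : IsContMat B (mapRep (q : L.R →+* B) (rhoR L ρn hρn)),
      𝒟 (ofMat (mapRep (q : L.R →+* B) (rhoR L ρn hρn)) hc') := by
    rw [← hq2]
    exact ⟨hc, hD⟩
  obtain ⟨hc', hD'⟩ := h2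
  obtain ⟨e⟩ := Fermat.Agent.Lib.DefMat.ofMat_baseChangeAlong (q : L.R →+* B) hq
    (rhoR L ρn hρn) hcR hc'
  exact h𝒟.of_isEquiv hB ⟨e.symm⟩ hD'

theorem residual_rhoR (hNL : ∀ n, IsNLift S (P 𝒪 ⧸ I n) (ρn n))
    (hcR : IsContMat L.R (rhoR L ρn hρn)) :
    (ofMat (rhoR L ρn hρn) hcR).residual.IsEquiv
      (ρbar.baseChangeAlong (IsLocalRing.ResidueField.map (algebraMap 𝒪 L.R))) := by
  refine Fermat.Agent.Lib.DefMat.ofMat_residual_isEquiv _ hcR ρbar S.D.b _ fun σ i j => ?_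
  have h1 := (isNLift_rhoR S L ρn hρn hNL).res σ i j
  have h2 : S.D.mat σ i j = LinearMap.toMatrix S.D.b S.D.b (ρbar.ρ σ) i j := rfl
  rw [← h2, ← S.hrt σ i j, IsLocalRing.ResidueField.map_residue]
  exact Ideal.Quotient.eq.mpr h1

end density

/-! ## The universal property and the final theorem -/

section final

variable {𝒪 : Type} [CommRing 𝒪] [IsDomain 𝒪] [IsDiscreteValuationRing 𝒪]
  [IsAdicComplete (IsLocalRing.maximalIdeal 𝒪) 𝒪] [Finite (IsLocalRing.ResidueField 𝒪)]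
  {ρbar : ResidualGaloisRep (IsLocalRing.ResidueField 𝒪)} (S : Setup ρbar)
  (𝒟 : ∀ ⦃A : Type⦄ [CommRing A] [IsLocalRing A] [Algebra 𝒪 A], GaloisRepAdic A → Prop)

theorem universal_rhoR (habs : ρbar.IsAbsolutelyIrreducible)
    (h𝒟 : GaloisRep.IsDeformationCondition 𝒪 𝒟)
    (I : ℕ → Ideal (P 𝒪))
    (hmin : ∀ n J, Legit S 𝒟 J → NN S ^ (n + 1) ≤ J → I n ≤ J)
    (L : LimData I) (ρn : ∀ n, Γ →* M2 (P 𝒪 ⧸ I n)) (hρn : ∀ n g, ρn n g = tautFun (I n) g)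
    (hNLR : IsNLift S L.R (rhoR L ρn hρn)) (hcR : IsContMat L.R (rhoR L ρn hρn))
    {A : Type} [CommRing A] [IsLocalRing A] [IsNoetherianRing A]
    [IsAdicComplete (IsLocalRing.maximalIdeal A) A] [Algebra 𝒪 A] [IsLocalHom (algebraMap 𝒪 A)]
    (hresA : Function.Surjective (IsLocalRing.residue A ∘ algebraMap 𝒪 A))
    (ρA : GaloisRepAdic A) (hDA : 𝒟 ρA)
    (hresidA : ρA.residual.IsEquiv
      (ρbar.baseChangeAlong (IsLocalRing.ResidueField.map (algebraMap 𝒪 A)))) :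
    ∃! φ : L.R →ₐ[𝒪] A, ∃ hφ : IsLocalHom (φ : L.R →+* A),
      ((ofMat (rhoR L ρn hρn) hcR).baseChangeAlong (φ : L.R →+* A) hφ).IsEquiv ρA := by
  have hlocA : IsLocalHom (algebraMap 𝒪 A) := inferInstance
  obtain ⟨ρ, hc, hNLA, ⟨eA⟩⟩ := Fermat.Agent.S53.RigidBasic.exists_isNLift S ρA hresidA
  have hB : ∀ n, IsArtinianTestAlgebra 𝒪 (A ⧸ J A n) := fun n => testAlg hlocA hresA n
  have hmkloc : ∀ n, IsLocalHom (Ideal.Quotient.mk (J A n)) := fun n => inferInstance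
  have hNLη : ∀ n, IsNLift S (A ⧸ J A n) (mapRep (Ideal.Quotient.mk (J A n)) ρ) := fun n =>
    isNLift_map S (Ideal.Quotient.mkₐ 𝒪 (J A n)) (hmkloc n) hNLA
  have hcη : ∀ n, IsContMat (A ⧸ J A n) (mapRep (Ideal.Quotient.mk (J A n)) ρ) := fun n =>
    Fermat.Agent.Lib.DefMat.isContMat_mapRep _ (hmkloc n) hc
  have hDη : ∀ n, 𝒟 (ofMat (mapRep (Ideal.Quotient.mk (J A n)) ρ) (hcη n)) := by
    intro n
    have h1 := (h𝒟.iff_forall_surjective hlocA hresA ρA).mp hDA (hB n)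
      (Ideal.Quotient.mkₐ 𝒪 (J A n)) (hmkloc n) Ideal.Quotient.mk_surjective
    obtain ⟨e2⟩ := Fermat.Agent.Lib.DefMat.ofMat_baseChangeAlong (Ideal.Quotient.mk (J A n))
      (hmkloc n) ρ hc (hcη n)
    exact h𝒟.of_isEquiv (hB n) ⟨(GaloisRepAdic.Equiv.baseChangeAlong _ _ eA).trans e2⟩ h1
  have hle : ∀ n, I n ≤
      RingHom.ker (ev (𝒪 := 𝒪) (fun g => mapRep (Ideal.Quotient.mk (J A n)) ρ g)) := fun n =>
    hmin n _ (Fermat.Agent.S53.LegitKer.legit_ker_ev S 𝒟 h𝒟 (hB n) _ ⟨hNLη n, hcη n, hDη n⟩)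
      (Fermat.Agent.S53.LegitKer.pow_le_ker_ev S (hB n) _ (hNLη n) (n + 1)
        (maximalIdeal_quot_pow n))
  let φn : ∀ n, P 𝒪 ⧸ I n →ₐ[𝒪] A ⧸ J A n := fun n =>
    Ideal.Quotient.liftₐ (I n) (ev (𝒪 := 𝒪) (fun g => mapRep (Ideal.Quotient.mk (J A n)) ρ g))
      (fun a ha => hle n ha)
  let ψ : ∀ n, L.R →ₐ[𝒪] A ⧸ J A n := fun n => (φn n).comp (L.π n)
  have hψ : ∀ n g a b, ψ n (rhoR L ρn hρn g a b) = Ideal.Quotient.mk (J A n) (ρ g a b) := by
    intro n g a b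
    show φn n (L.π n (L.ι (MvPolynomial.X (g, a, b)))) = _
    rw [L.π_ι]
    show ev (𝒪 := 𝒪) (fun g => mapRep (Ideal.Quotient.mk (J A n)) ρ g)
      (MvPolynomial.X (g, a, b)) = _
    rw [ev_X]
    rfl
  have hcompat : ∀ m n (hmn : m ≤ n),
      (Ideal.Quotient.factorₐ 𝒪 (J_mono hmn)).comp (ψ n) = ψ m := by
    intro m n hmn
    refine algHom_ext_of_ι L (hB m) _ _ fun x => ?_
    obtain ⟨g, a, b⟩ := x
    have h1 := hψ n g a b
    have h2 := hψ m g a b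
    rw [rhoR_apply] at h1 h2
    rw [AlgHom.comp_apply, h1, h2]
    rfl
  obtain ⟨Φ, hΦ⟩ := exists_lift_algHom ψ hcompat
  have hΦρ : mapRep (Φ : L.R →+* A) (rhoR L ρn hρn) = ρ := by
    ext g a b
    refine eq_of_forall_mk_eq fun n => ?_
    have h1 := congrArg (fun χ : L.R →ₐ[𝒪] A ⧸ J A n => χ (rhoR L ρn hρn g a b)) (hΦ n)
    rw [mapRep_apply, Matrix.map_apply]
    exact h1.trans (hψ n g a b)
  have hloc : ∀ χ : L.R →ₐ[𝒪] A, IsLocalHom (χ : L.R →+* A) :=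
    fun χ => isLocalHom_of_algHom hlocA hresA χ
  refine ⟨Φ, ⟨hloc Φ, ?_⟩, ?_⟩
  · have hc' : IsContMat A (mapRep (Φ : L.R →+* A) (rhoR L ρn hρn)) :=
      Fermat.Agent.Lib.DefMat.isContMat_mapRep _ (hloc Φ) hcR
    obtain ⟨e1⟩ := Fermat.Agent.Lib.DefMat.ofMat_baseChangeAlong (Φ : L.R →+* A) (hloc Φ) _
      hcR hc'
    obtain ⟨e2⟩ := ofMat_congr hΦρ hc' hc
    exact ⟨e1.trans (e2.trans eA.symm)⟩
  · rintro Φ' ⟨hΦ', ⟨e⟩⟩
    have hc'' := Fermat.Agent.Lib.DefMat.isContMat_mapRep (Φ' : L.R →+* A) hΦ' hcR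
    obtain ⟨e1⟩ := Fermat.Agent.Lib.DefMat.ofMat_baseChangeAlong (Φ' : L.R →+* A) hΦ' _
      hcR hc''
    obtain ⟨X, hX, hXc⟩ := (Fermat.Agent.Lib.DefMat.ofMat_isEquiv_iff _ _ hc'' hc).mp
      ⟨e1.symm.trans (e.trans eA)⟩
    have hΦ'ρ : mapRep (Φ' : L.R →+* A) (rhoR L ρn hρn) = ρ :=
      Fermat.Agent.S53.RigidBasic.IsNLift.eq_of_conj S habs hlocA hresA
        (isNLift_map S Φ' hΦ' hNLR) hNLA X hX hXc
    have hagree : ∀ n, (Ideal.Quotient.mkₐ 𝒪 (J A n)).comp Φ'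
        = (Ideal.Quotient.mkₐ 𝒪 (J A n)).comp Φ := by
      intro n
      refine algHom_ext_of_ι L (hB n) _ _ fun x => ?_
      obtain ⟨g, a, b⟩ := x
      have h1 := congrArg (fun r : Γ →* M2 A => r g a b) hΦ'ρ
      have h2 := congrArg (fun r : Γ →* M2 A => r g a b) hΦρ
      simp only [mapRep_apply, Matrix.map_apply, rhoR_apply] at h1 h2
      rw [AlgHom.comp_apply, AlgHom.comp_apply]
      exact congrArg (Ideal.Quotient.mkₐ 𝒪 (J A n)) (h1.trans h2.symm)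
    ext r
    exact eq_of_forall_mk_eq fun n =>
      congrArg (fun χ : L.R →ₐ[𝒪] A ⧸ J A n => χ r) (hagree n)

/-- **R5**: the limit ring of a minimal chain of legit ideals is a universal deformation ring. -/
theorem final (habs : ρbar.IsAbsolutelyIrreducible)
    (h𝒟 : GaloisRep.IsDeformationCondition 𝒪 𝒟)
    (I : ℕ → Ideal (P 𝒪))
    (hI : ∀ n, Legit S 𝒟 (I n) ∧ NN S ^ (n + 1) ≤ I n)
    (hmin : ∀ n J, Legit S 𝒟 J → NN S ^ (n + 1) ≤ J → I n ≤ J)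
    (L : LimData I) : Nonempty (GaloisRep.DeformationRingData 𝒪 ρbar 𝒟) := by
  have hI' : ∀ n, ∃ (_ : IsLocalRing (P 𝒪 ⧸ I n)) (ρ : Γ →* M2 (P 𝒪 ⧸ I n)),
      (∀ g, ρ g = tautFun (I n) g) ∧ IsArtinianTestAlgebra 𝒪 (P 𝒪 ⧸ I n) ∧
        IsND S 𝒟 (P 𝒪 ⧸ I n) ρ := fun n => (hI n).1
  choose instLoc ρn hρn hT hND using hI'
  have hNL : ∀ n, IsNLift S (P 𝒪 ⧸ I n) (ρn n) := fun n => (hND n).1
  have hcn : ∀ n, IsContMat (P 𝒪 ⧸ I n) (ρn n) := fun n => (hND n).2.choose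
  have hcR := isContMat_rhoR L ρn hρn hcn
  have hNLR := isNLift_rhoR S L ρn hρn hNL
  refine ⟨{ R := L.R, residue_surjective := L.residue_surjective, absIrr := habs,
            ρ := ofMat (rhoR L ρn hρn) hcR,
            isOfType := isOfType_rhoR S 𝒟 L ρn hρn h𝒟 hT hND hcR,
            residual_isEquiv := residual_rhoR S L ρn hρn hNL hcR,
            universal := ?_ }⟩
  intro A _ _ _ _ _ hlocA hresA ρA hDA hresidA
  exact universal_rhoR S 𝒟 habs h𝒟 I hmin L ρn hρn hNLR hcR hresA ρA hDA hresidA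

end final

end Fermat.Agent.S53.Final
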