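import Mathlib
import Fermat.Agent.S53.Rigid
import Fermat.Agent.Lib.DefMat

set_option autoImplicit false

namespace Fermat.Agent.S53.LegitLattice

open GaloisRep Fermat.Agent.S53.Defs Fermat.Agent.S53.Rigid Fermat.Agent.Lib.DefNormRep

variable {𝒪 : Type} [CommRing 𝒪] [IsDomain 𝒪] [IsDiscreteValuationRing 𝒪]
  [IsAdicComplete (IsLocalRing.maximalIdeal 𝒪) 𝒪] [Finite (IsLocalRing.ResidueField 𝒪)]
  {ρbar : ResidualGaloisRep (IsLocalRing.ResidueField 𝒪)} (S : Setup ρbar)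
  (𝒟 : ∀ ⦃A : Type⦄ [CommRing A] [IsLocalRing A] [Algebra 𝒪 A], GaloisRepAdic A → Prop)

section aux

variable {J J' : Ideal (P 𝒪)}

theorem NN_ne_top : NN S ≠ ⊤ := RingHom.ker_ne_top _

theorem mem_NN_iff (x : P 𝒪) :
    x ∈ NN S ↔ ev (𝒪 := 𝒪) (A := IsLocalRing.ResidueField 𝒪) S.D.mat x = 0 := Iff.rfl

theorem algebraMap_mem_NN {c : 𝒪} (hc : c ∈ IsLocalRing.maximalIdeal 𝒪) :
    algebraMap 𝒪 (P 𝒪) c ∈ NN S := by
  rw [mem_NN_iff, AlgHom.commutes, IsLocalRing.ResidueField.algebraMap_eq,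
    IsLocalRing.residue_eq_zero_iff]
  exact hc

theorem exists_sub_mem_NN (x : P 𝒪) : ∃ c : 𝒪, x - algebraMap 𝒪 (P 𝒪) c ∈ NN S := by
  obtain ⟨c, hc⟩ := IsLocalRing.residue_surjective
    (ev (𝒪 := 𝒪) (A := IsLocalRing.ResidueField 𝒪) S.D.mat x)
  refine ⟨c, ?_⟩
  rw [mem_NN_iff, map_sub, AlgHom.commutes, IsLocalRing.ResidueField.algebraMap_eq, hc, sub_self]

theorem X_sub_mem_NN (g : Γ) (a b : Fin 2) :
    (MvPolynomial.X (g, a, b) : P 𝒪) - algebraMap 𝒪 (P 𝒪) (S.rt g a b) ∈ NN S := by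
  rw [mem_NN_iff, map_sub, AlgHom.commutes, IsLocalRing.ResidueField.algebraMap_eq, ev_X,
    S.hrt, sub_self]

theorem not_isUnit_mk (hJ : J ≤ NN S) {x : P 𝒪} (hx : x ∈ NN S) :
    ¬ IsUnit (Ideal.Quotient.mk J x) := by
  intro hu
  obtain ⟨q, hq⟩ := hu.exists_right_inv
  obtain ⟨y, rfl⟩ := Ideal.Quotient.mk_surjective q
  have h1 : x * y - 1 ∈ J := by
    rw [← Ideal.Quotient.eq, map_mul, hq, map_one]
  have h2 : (1 : P 𝒪) ∈ NN S := by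
    have h3 := (NN S).sub_mem ((NN S).mul_mem_right y hx) (hJ h1)
    simpa using h3
  exact NN_ne_top S ((Ideal.eq_top_iff_one _).mpr h2)

theorem nontrivial_quot (hJ : J ≤ NN S) : Nontrivial (P 𝒪 ⧸ J) :=
  Ideal.Quotient.nontrivial_iff.mpr fun h => NN_ne_top S (top_le_iff.mp (h ▸ hJ))

theorem mk_mem_maximalIdeal_iff [IsLocalRing (P 𝒪 ⧸ J)] (hJ : J ≤ NN S) (x : P 𝒪) :
    Ideal.Quotient.mk J x ∈ IsLocalRing.maximalIdeal (P 𝒪 ⧸ J) ↔ x ∈ NN S := by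
  let e : P 𝒪 ⧸ J →+* IsLocalRing.ResidueField 𝒪 :=
    Ideal.Quotient.lift J (ev (𝒪 := 𝒪) (A := IsLocalRing.ResidueField 𝒪) S.D.mat).toRingHom
      (fun a ha => hJ ha)
  have he : Function.Surjective e := by
    intro y
    obtain ⟨c, rfl⟩ := IsLocalRing.residue_surjective y
    refine ⟨Ideal.Quotient.mk J (algebraMap 𝒪 (P 𝒪) c), ?_⟩
    show (ev (𝒪 := 𝒪) (A := IsLocalRing.ResidueField 𝒪) S.D.mat) (algebraMap 𝒪 (P 𝒪) c) = _
    rw [AlgHom.commutes, IsLocalRing.ResidueField.algebraMap_eq]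
  have hker : RingHom.ker e = IsLocalRing.maximalIdeal (P 𝒪 ⧸ J) :=
    IsLocalRing.eq_maximalIdeal (RingHom.ker_isMaximal_of_surjective e he)
  rw [← hker, RingHom.mem_ker]
  exact Iff.rfl

theorem isLocalHom_algebraMap (hJ : J ≤ NN S) : IsLocalHom (algebraMap 𝒪 (P 𝒪 ⧸ J)) := by
  refine ⟨fun c hc => ?_⟩
  by_contra hcu
  have h1 : c ∈ IsLocalRing.maximalIdeal 𝒪 := (IsLocalRing.mem_maximalIdeal c).mpr hcu
  exact not_isUnit_mk S hJ (algebraMap_mem_NN S h1) hc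

theorem residue_surjective_quot [IsLocalRing (P 𝒪 ⧸ J)] (hJ : J ≤ NN S) :
    Function.Surjective (IsLocalRing.residue (P 𝒪 ⧸ J) ∘ algebraMap 𝒪 (P 𝒪 ⧸ J)) := by
  intro y
  obtain ⟨q, rfl⟩ := IsLocalRing.residue_surjective y
  obtain ⟨x, rfl⟩ := Ideal.Quotient.mk_surjective q
  obtain ⟨c, hc⟩ := exists_sub_mem_NN S x
  refine ⟨c, ?_⟩
  symm
  rw [Function.comp_apply, ← sub_eq_zero, ← map_sub, IsLocalRing.residue_eq_zero_iff]
  have : Ideal.Quotient.mk J x - algebraMap 𝒪 (P 𝒪 ⧸ J) c =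
      Ideal.Quotient.mk J (x - algebraMap 𝒪 (P 𝒪) c) := by
    rw [map_sub]; rfl
  rw [this, mk_mem_maximalIdeal_iff S hJ]
  exact hc

theorem isLocalHom_factor [IsLocalRing (P 𝒪 ⧸ J)] (hle : J ≤ J') (hJ' : J' ≤ NN S) :
    IsLocalHom (Ideal.Quotient.factor hle) := by
  refine ⟨fun q hq => ?_⟩
  obtain ⟨x, rfl⟩ := Ideal.Quotient.mk_surjective q
  rw [Ideal.Quotient.factor_mk] at hq
  by_contra hu
  have h1 : Ideal.Quotient.mk J x ∈ IsLocalRing.maximalIdeal (P 𝒪 ⧸ J) :=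
    (IsLocalRing.mem_maximalIdeal _).mpr hu
  rw [mk_mem_maximalIdeal_iff S (hle.trans hJ')] at h1
  exact not_isUnit_mk S hJ' h1 hq

theorem tautFun_map_factor (hle : J ≤ J') (g : Γ) :
    (tautFun J g).map (Ideal.Quotient.factor hle) = tautFun J' g := by
  ext a b
  simp [tautFun, Ideal.Quotient.factor_mk]

end aux

section main

variable {I I' : Ideal (P 𝒪)}

theorem legit_le_NN (h : Legit S 𝒟 I) : I ≤ NN S := by
  obtain ⟨hloc, ρ, hρ, hA, hNL, -⟩ := h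
  haveI := hloc
  haveI := hA.isLocalHom
  let φ1 : P 𝒪 →+* IsLocalRing.ResidueField (P 𝒪 ⧸ I) :=
    (IsLocalRing.residue (P 𝒪 ⧸ I)).comp (Ideal.Quotient.mk I)
  let φ2 : P 𝒪 →+* IsLocalRing.ResidueField (P 𝒪 ⧸ I) :=
    (IsLocalRing.ResidueField.map (algebraMap 𝒪 (P 𝒪 ⧸ I))).comp
      (ev (𝒪 := 𝒪) (A := IsLocalRing.ResidueField 𝒪) S.D.mat).toRingHom
  have h12 : φ1 = φ2 := by
    apply MvPolynomial.ringHom_ext
    · intro c
      show IsLocalRing.residue _ (Ideal.Quotient.mk I (MvPolynomial.C c)) =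
        IsLocalRing.ResidueField.map _ (ev (𝒪 := 𝒪) S.D.mat (MvPolynomial.C c))
      have hC : (MvPolynomial.C c : P 𝒪) = algebraMap 𝒪 (P 𝒪) c := rfl
      rw [hC, AlgHom.commutes, IsLocalRing.ResidueField.algebraMap_eq,
        IsLocalRing.ResidueField.map_residue]
      rfl
    · rintro ⟨g, a, b⟩
      show IsLocalRing.residue _ (Ideal.Quotient.mk I (MvPolynomial.X (g, a, b))) =
        IsLocalRing.ResidueField.map _ (ev (𝒪 := 𝒪) S.D.mat (MvPolynomial.X (g, a, b)))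
      rw [ev_X, ← S.hrt, IsLocalRing.ResidueField.map_residue]
      have h1 := hNL.res g a b
      rw [hρ g] at h1
      rw [← sub_eq_zero, ← map_sub, IsLocalRing.residue_eq_zero_iff]
      exact h1
  intro x hx
  rw [mem_NN_iff]
  have h3 : φ1 x = 0 := by
    show IsLocalRing.residue _ (Ideal.Quotient.mk I x) = 0
    rw [Ideal.Quotient.eq_zero_iff_mem.mpr hx, map_zero]
  rw [h12] at h3
  exact (map_eq_zero_iff (IsLocalRing.ResidueField.map (algebraMap 𝒪 (P 𝒪 ⧸ I)))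
    (RingHom.injective _)).mp h3

theorem res_taut {J : Ideal (P 𝒪)} [IsLocalRing (P 𝒪 ⧸ J)] (hJ : J ≤ NN S) (g : Γ) (a b : Fin 2) :
    tautFun J g a b - algebraMap 𝒪 (P 𝒪 ⧸ J) (S.rt g a b) ∈
      IsLocalRing.maximalIdeal (P 𝒪 ⧸ J) := by
  have h1 : tautFun J g a b - algebraMap 𝒪 (P 𝒪 ⧸ J) (S.rt g a b) =
      Ideal.Quotient.mk J (MvPolynomial.X (g, a, b) - algebraMap 𝒪 (P 𝒪) (S.rt g a b)) := by
    rw [map_sub]; rfl
  rw [h1, mk_mem_maximalIdeal_iff S hJ]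
  exact X_sub_mem_NN S g a b

/-- (baseChangeAlong) -/
theorem Legit.of_le (h𝒟 : GaloisRep.IsDeformationCondition 𝒪 𝒟) (h : Legit S 𝒟 I)
    (hle : I ≤ I') (hle' : I' ≤ NN S) : Legit S 𝒟 I' := by
  obtain ⟨hloc, ρ, hρ, hA, hNL, hc, hD⟩ := h
  haveI := hloc
  haveI : Nontrivial (P 𝒪 ⧸ I') := nontrivial_quot S hle'
  haveI hloc' : IsLocalRing (P 𝒪 ⧸ I') :=
    IsLocalRing.of_surjective' (Ideal.Quotient.factor hle) (Ideal.Quotient.factor_surjective hle)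
  have hB : IsArtinianTestAlgebra 𝒪 (P 𝒪 ⧸ I') :=
    ⟨isLocalHom_algebraMap S hle', residue_surjective_quot S hle',
      haveI := hA.isArtinian; (Ideal.Quotient.factor_surjective hle).isArtinianRing⟩
  let u : P 𝒪 ⧸ I →ₐ[𝒪] P 𝒪 ⧸ I' := Ideal.Quotient.factorₐ 𝒪 hle
  have hu : IsLocalHom (u : P 𝒪 ⧸ I →+* P 𝒪 ⧸ I') := isLocalHom_factor S hle hle'
  have hρ' : ∀ g, mapRep (u : P 𝒪 ⧸ I →+* P 𝒪 ⧸ I') ρ g = tautFun I' g := by
    intro g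
    rw [mapRep_apply, hρ g]
    exact tautFun_map_factor hle g
  have hc' : IsContMat (P 𝒪 ⧸ I') (mapRep (u : P 𝒪 ⧸ I →+* P 𝒪 ⧸ I') ρ) :=
    Fermat.Agent.Lib.DefMat.isContMat_mapRep _ hu hc
  refine ⟨hloc', mapRep (u : P 𝒪 ⧸ I →+* P 𝒪 ⧸ I') ρ, hρ', hB, ⟨?_, ?_, ?_, ?_⟩, hc', ?_⟩
  · intro g a b
    rw [hρ' g]
    exact res_taut S hle' g a b
  · rw [mapRep_apply, Matrix.map_apply, hNL.col0, map_zero]
  · rw [mapRep_apply, Matrix.map_apply, hNL.col1, map_one]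
  · rw [mapRep_apply, Matrix.map_apply, hNL.entry]
    exact u.commutes S.c0
  · exact h𝒟.of_isEquiv hB (Fermat.Agent.Lib.DefMat.ofMat_baseChangeAlong _ hu ρ hc hc')
      (h𝒟.baseChangeAlong hA hB u hu hD)

theorem mk_eq_of_factor {x y : P 𝒪 ⧸ (I ⊓ I')}
    (h1 : Ideal.Quotient.factor (inf_le_left : I ⊓ I' ≤ I) x =
      Ideal.Quotient.factor inf_le_left y)
    (h2 : Ideal.Quotient.factor (inf_le_right : I ⊓ I' ≤ I') x =
      Ideal.Quotient.factor inf_le_right y) : x = y := by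
  obtain ⟨a, rfl⟩ := Ideal.Quotient.mk_surjective x
  obtain ⟨b, rfl⟩ := Ideal.Quotient.mk_surjective y
  rw [Ideal.Quotient.factor_mk, Ideal.Quotient.factor_mk, Ideal.Quotient.eq] at h1 h2
  rw [Ideal.Quotient.eq]
  exact ⟨h1, h2⟩

theorem mat_eq_of_factor {M N : M2 (P 𝒪 ⧸ (I ⊓ I'))}
    (h1 : M.map (Ideal.Quotient.factor (inf_le_left : I ⊓ I' ≤ I)) =
      N.map (Ideal.Quotient.factor inf_le_left))
    (h2 : M.map (Ideal.Quotient.factor (inf_le_right : I ⊓ I' ≤ I')) =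
      N.map (Ideal.Quotient.factor inf_le_right)) : M = N := by
  ext a b
  exact mk_eq_of_factor (congrFun (congrFun h1 a) b) (congrFun (congrFun h2 a) b)

theorem isUnit_mk_inf {x : P 𝒪} (h1 : IsUnit (Ideal.Quotient.mk I x))
    (h2 : IsUnit (Ideal.Quotient.mk I' x)) : IsUnit (Ideal.Quotient.mk (I ⊓ I') x) := by
  obtain ⟨q, hq⟩ := h1.exists_right_inv
  obtain ⟨y, rfl⟩ := Ideal.Quotient.mk_surjective q
  obtain ⟨q', hq'⟩ := h2.exists_right_inv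
  obtain ⟨y', rfl⟩ := Ideal.Quotient.mk_surjective q'
  have e1 : x * y - 1 ∈ I := by rw [← Ideal.Quotient.eq, map_mul, hq, map_one]
  have e2 : x * y' - 1 ∈ I' := by rw [← Ideal.Quotient.eq, map_mul, hq', map_one]
  refine IsUnit.of_mul_eq_one (Ideal.Quotient.mk _ (y + y' - x * y * y')) ?_
  rw [← map_mul, ← map_one (Ideal.Quotient.mk (I ⊓ I')), Ideal.Quotient.eq]
  have key : x * (y + y' - x * y * y') - 1 = -((x * y - 1) * (x * y' - 1)) := by ring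
  rw [key]
  exact ⟨I.neg_mem (I.mul_mem_right _ e1), I'.neg_mem (I'.mul_mem_left _ e2)⟩

theorem isLocalRing_inf [IsLocalRing (P 𝒪 ⧸ I)] [IsLocalRing (P 𝒪 ⧸ I')] (hI : I ≤ NN S)
    (hI' : I' ≤ NN S) : IsLocalRing (P 𝒪 ⧸ (I ⊓ I')) := by
  haveI : Nontrivial (P 𝒪 ⧸ (I ⊓ I')) := nontrivial_quot S (inf_le_left.trans hI)
  have key : ∀ q : P 𝒪 ⧸ (I ⊓ I'), q ∈ nonunits (P 𝒪 ⧸ (I ⊓ I')) →
      ∃ x ∈ NN S, Ideal.Quotient.mk (I ⊓ I') x = q := by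
    intro q hq
    obtain ⟨x, rfl⟩ := Ideal.Quotient.mk_surjective q
    refine ⟨x, ?_, rfl⟩
    by_contra hx
    apply hq
    refine isUnit_mk_inf ?_ ?_
    · by_contra hu
      exact hx ((mk_mem_maximalIdeal_iff S hI x).mp ((IsLocalRing.mem_maximalIdeal _).mpr hu))
    · by_contra hu
      exact hx ((mk_mem_maximalIdeal_iff S hI' x).mp ((IsLocalRing.mem_maximalIdeal _).mpr hu))
  refine IsLocalRing.of_nonunits_add fun a b ha hb => ?_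
  obtain ⟨x, hx, rfl⟩ := key a ha
  obtain ⟨y, hy, rfl⟩ := key b hb
  rw [← map_add]
  exact not_isUnit_mk S (inf_le_left.trans hI) ((NN S).add_mem hx hy)

theorem isArtinianRing_inf [IsArtinianRing (P 𝒪 ⧸ I)] [IsArtinianRing (P 𝒪 ⧸ I')] :
    IsArtinianRing (P 𝒪 ⧸ (I ⊓ I')) := by
  haveI : IsArtinian (P 𝒪) (P 𝒪 ⧸ I) :=
    isArtinian_of_surjective_algebraMap (R := P 𝒪 ⧸ I) (M := P 𝒪 ⧸ I) (S := P 𝒪)
      Ideal.Quotient.mk_surjective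
  haveI : IsArtinian (P 𝒪) (P 𝒪 ⧸ I') :=
    isArtinian_of_surjective_algebraMap (R := P 𝒪 ⧸ I') (M := P 𝒪 ⧸ I') (S := P 𝒪)
      Ideal.Quotient.mk_surjective
  let f : (P 𝒪 ⧸ (I ⊓ I')) →ₗ[P 𝒪] (P 𝒪 ⧸ I) × (P 𝒪 ⧸ I') :=
    LinearMap.prod (Ideal.Quotient.factorₐ (P 𝒪) (inf_le_left : I ⊓ I' ≤ I)).toLinearMap
      (Ideal.Quotient.factorₐ (P 𝒪) (inf_le_right : I ⊓ I' ≤ I')).toLinearMap
  have hf : Function.Injective f := by
    intro x y hxy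
    exact mk_eq_of_factor (congrArg Prod.fst hxy) (congrArg Prod.snd hxy)
  haveI : IsArtinian (P 𝒪) (P 𝒪 ⧸ (I ⊓ I')) := isArtinian_of_injective f hf
  exact isArtinian_of_tower (P 𝒪) inferInstance

/-- the tautological matrices over `P ⧸ (I ⊓ I')` form a monoid hom if they do over `P ⧸ I`
and `P ⧸ I'`. -/
noncomputable def tautHomInf (ρ : Γ →* M2 (P 𝒪 ⧸ I)) (hρ : ∀ g, ρ g = tautFun I g)
    (ρ' : Γ →* M2 (P 𝒪 ⧸ I')) (hρ' : ∀ g, ρ' g = tautFun I' g) :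
    Γ →* M2 (P 𝒪 ⧸ (I ⊓ I')) where
  toFun := tautFun (I ⊓ I')
  map_one' := by
    apply mat_eq_of_factor
    · rw [tautFun_map_factor, ← hρ, map_one, Matrix.map_one _ (map_zero _) (map_one _)]
    · rw [tautFun_map_factor, ← hρ', map_one, Matrix.map_one _ (map_zero _) (map_one _)]
  map_mul' g h := by
    apply mat_eq_of_factor
    · rw [tautFun_map_factor, Matrix.map_mul, tautFun_map_factor, tautFun_map_factor, ← hρ,
        ← hρ, ← hρ, map_mul]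
    · rw [tautFun_map_factor, Matrix.map_mul, tautFun_map_factor, tautFun_map_factor, ← hρ',
        ← hρ', ← hρ', map_mul]

theorem tautHomInf_apply (ρ : Γ →* M2 (P 𝒪 ⧸ I)) (hρ : ∀ g, ρ g = tautFun I g)
    (ρ' : Γ →* M2 (P 𝒪 ⧸ I')) (hρ' : ∀ g, ρ' g = tautFun I' g) (g : Γ) :
    tautHomInf ρ hρ ρ' hρ' g = tautFun (I ⊓ I') g := rfl

theorem exists_level_eq_one {A : Type} [CommRing A] [IsLocalRing A] [IsArtinianRing A]
    (ρ : Γ →* M2 A) (hc : IsContMat A ρ) :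
    ∃ L : IntermediateField ℚ (AlgebraicClosure ℚ), FiniteDimensional ℚ L ∧
      ∀ σ : Γ, (∀ x ∈ L, σ x = x) → ρ σ = 1 := by
  obtain ⟨n, hn⟩ := IsArtinianRing.isNilpotent_jacobson_bot (R := A)
  rw [IsLocalRing.jacobson_eq_maximalIdeal ⊥ bot_ne_top] at hn
  obtain ⟨L, hL, h1⟩ := hc n
  refine ⟨L, hL, fun σ hσ => ?_⟩
  ext i j
  have h2 := h1 σ hσ i j
  rw [hn, Ideal.zero_eq_bot, Ideal.mem_bot, Matrix.sub_apply, sub_eq_zero] at h2
  exact h2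

theorem factor_tautFun {J J' : Ideal (P 𝒪)} (hle : J ≤ J') (g : Γ) (a b : Fin 2) :
    Ideal.Quotient.factor hle (tautFun J g a b) = tautFun J' g a b := by
  simp [tautFun, Ideal.Quotient.factor_mk]

theorem D_baseChange_of_eq (h𝒟 : GaloisRep.IsDeformationCondition 𝒪 𝒟)
    {A B : Type} [CommRing A] [IsLocalRing A] [Algebra 𝒪 A] [CommRing B] [IsLocalRing B]
    [Algebra 𝒪 B] (hA : IsArtinianTestAlgebra 𝒪 A) (u : B →+* A) (hu : IsLocalHom u)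
    (ρB : Γ →* M2 B) (hcB : IsContMat B ρB) (ρA : Γ →* M2 A) (hcA : IsContMat A ρA)
    (hmap : mapRep u ρB = ρA) (hD : 𝒟 (ofMat ρA hcA)) :
    𝒟 ((ofMat ρB hcB).baseChangeAlong u hu) := by
  subst hmap
  obtain ⟨e⟩ := Fermat.Agent.Lib.DefMat.ofMat_baseChangeAlong u hu ρB hcB hcA
  exact h𝒟.of_isEquiv hA ⟨e.symm⟩ hD

/-- (of_fibreProduct: `P ⧸ (I ⊓ I')` is the fibre product of `P ⧸ I` and `P ⧸ I'` over
`P ⧸ (I ⊔ I')`) -/
theorem Legit.inf (h𝒟 : GaloisRep.IsDeformationCondition 𝒪 𝒟) (h : Legit S 𝒟 I)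
    (h' : Legit S 𝒟 I') : Legit S 𝒟 (I ⊓ I') := by
  have hI : I ≤ NN S := legit_le_NN S 𝒟 h
  have hI' : I' ≤ NN S := legit_le_NN S 𝒟 h'
  obtain ⟨hloc, ρ, hρ, hA, hNL, hc, hD⟩ := h
  obtain ⟨hloc', ρ', hρ', hA', hNL', hc', hD'⟩ := h'
  haveI := hloc
  haveI := hloc'
  haveI := hA.isArtinian
  haveI := hA'.isArtinian
  have hJ : I ⊓ I' ≤ NN S := inf_le_left.trans hI
  have hK : I ⊔ I' ≤ NN S := sup_le hI hI'
  haveI hlocJ : IsLocalRing (P 𝒪 ⧸ (I ⊓ I')) := isLocalRing_inf S hI hI'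
  haveI : Nontrivial (P 𝒪 ⧸ (I ⊔ I')) := nontrivial_quot S hK
  haveI hlocK : IsLocalRing (P 𝒪 ⧸ (I ⊔ I')) :=
    IsLocalRing.of_surjective' (Ideal.Quotient.factor (le_sup_left : I ≤ I ⊔ I'))
      (Ideal.Quotient.factor_surjective _)
  have hP : IsArtinianTestAlgebra 𝒪 (P 𝒪 ⧸ (I ⊓ I')) :=
    ⟨isLocalHom_algebraMap S hJ, residue_surjective_quot S hJ, isArtinianRing_inf⟩
  have hC : IsArtinianTestAlgebra 𝒪 (P 𝒪 ⧸ (I ⊔ I')) :=
    ⟨isLocalHom_algebraMap S hK, residue_surjective_quot S hK,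
      (Ideal.Quotient.factor_surjective (le_sup_left : I ≤ I ⊔ I')).isArtinianRing⟩
  have hcJ : IsContMat (P 𝒪 ⧸ (I ⊓ I')) (tautHomInf ρ hρ ρ' hρ') := by
    obtain ⟨L, hL, h1⟩ := exists_level_eq_one ρ hc
    obtain ⟨L', hL', h1'⟩ := exists_level_eq_one ρ' hc'
    intro n
    refine ⟨L ⊔ L', IntermediateField.finiteDimensional_sup L L', fun σ hσ i j => ?_⟩
    have h2 : tautHomInf ρ hρ ρ' hρ' σ = 1 := by
      apply mat_eq_of_factor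
      · rw [tautHomInf_apply, tautFun_map_factor, ← hρ,
          h1 σ (fun x hx => hσ x ((le_sup_left : L ≤ L ⊔ L') hx)),
          Matrix.map_one _ (map_zero _) (map_one _)]
      · rw [tautHomInf_apply, tautFun_map_factor, ← hρ',
          h1' σ (fun x hx => hσ x ((le_sup_right : L' ≤ L ⊔ L') hx)),
          Matrix.map_one _ (map_zero _) (map_one _)]
    rw [h2, sub_self]
    exact Ideal.zero_mem _
  let pA : P 𝒪 ⧸ (I ⊓ I') →ₐ[𝒪] P 𝒪 ⧸ I := Ideal.Quotient.factorₐ 𝒪 inf_le_left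
  let pB : P 𝒪 ⧸ (I ⊓ I') →ₐ[𝒪] P 𝒪 ⧸ I' := Ideal.Quotient.factorₐ 𝒪 inf_le_right
  let f : P 𝒪 ⧸ I →ₐ[𝒪] P 𝒪 ⧸ (I ⊔ I') := Ideal.Quotient.factorₐ 𝒪 le_sup_left
  let g : P 𝒪 ⧸ I' →ₐ[𝒪] P 𝒪 ⧸ (I ⊔ I') := Ideal.Quotient.factorₐ 𝒪 le_sup_right
  have hpA : IsLocalHom (pA : P 𝒪 ⧸ (I ⊓ I') →+* P 𝒪 ⧸ I) :=
    isLocalHom_factor S inf_le_left hI
  have hpB : IsLocalHom (pB : P 𝒪 ⧸ (I ⊓ I') →+* P 𝒪 ⧸ I') :=
    isLocalHom_factor S inf_le_right hI'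
  have hmapA : mapRep (pA : P 𝒪 ⧸ (I ⊓ I') →+* P 𝒪 ⧸ I) (tautHomInf ρ hρ ρ' hρ') = ρ := by
    ext σ : 1
    rw [mapRep_apply, hρ σ]
    exact tautFun_map_factor inf_le_left σ
  have hmapB : mapRep (pB : P 𝒪 ⧸ (I ⊓ I') →+* P 𝒪 ⧸ I') (tautHomInf ρ hρ ρ' hρ') = ρ' := by
    ext σ : 1
    rw [mapRep_apply, hρ' σ]
    exact tautFun_map_factor inf_le_right σ
  have hDJ : 𝒟 (ofMat (tautHomInf ρ hρ ρ' hρ') hcJ) := by
    refine h𝒟.of_fibreProduct hA hA' hC hP f g pA pB hpA hpB ?_ ?_ ?_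
      (D_baseChange_of_eq 𝒟 h𝒟 hA _ hpA _ hcJ ρ hc hmapA hD)
      (D_baseChange_of_eq 𝒟 h𝒟 hA' _ hpB _ hcJ ρ' hc' hmapB hD')
    · apply AlgHom.ext
      intro q
      obtain ⟨x, rfl⟩ := Ideal.Quotient.mk_surjective q
      rfl
    · intro x y hxy
      exact mk_eq_of_factor (congrArg Prod.fst hxy) (congrArg Prod.snd hxy)
    · intro a b hab
      obtain ⟨x, rfl⟩ := Ideal.Quotient.mk_surjective a
      obtain ⟨y, rfl⟩ := Ideal.Quotient.mk_surjective b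
      have h1 : x - y ∈ I ⊔ I' := by
        rw [← Ideal.Quotient.eq]
        exact hab
      obtain ⟨i, hi, i', hi', hsum⟩ := Submodule.mem_sup.mp h1
      refine ⟨Ideal.Quotient.mk _ (x - i), ?_, ?_⟩
      · show Ideal.Quotient.mk I (x - i) = Ideal.Quotient.mk I x
        rw [Ideal.Quotient.eq]
        simpa using I.neg_mem hi
      · show Ideal.Quotient.mk I' (x - i) = Ideal.Quotient.mk I' y
        rw [Ideal.Quotient.eq]
        have h2 : x - i - y = i' := by linear_combination -hsum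
        rw [h2]
        exact hi'
  refine ⟨hlocJ, tautHomInf ρ hρ ρ' hρ', fun σ => rfl, hP, ⟨?_, ?_, ?_, ?_⟩, hcJ, hDJ⟩
  · intro σ a b
    exact res_taut S hJ σ a b
  · apply mk_eq_of_factor
    · rw [tautHomInf_apply, factor_tautFun, ← hρ, hNL.col0, map_zero]
    · rw [tautHomInf_apply, factor_tautFun, ← hρ', hNL'.col0, map_zero]
  · apply mk_eq_of_factor
    · rw [tautHomInf_apply, factor_tautFun, ← hρ, hNL.col1, map_one]
    · rw [tautHomInf_apply, factor_tautFun, ← hρ', hNL'.col1, map_one]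
  · apply mk_eq_of_factor
    · rw [tautHomInf_apply, factor_tautFun, ← hρ, hNL.entry]
      exact ((Ideal.Quotient.factorₐ 𝒪 (inf_le_left : I ⊓ I' ≤ I)).commutes S.c0).symm
    · rw [tautHomInf_apply, factor_tautFun, ← hρ', hNL'.entry]
      exact ((Ideal.Quotient.factorₐ 𝒪 (inf_le_right : I ⊓ I' ≤ I')).commutes S.c0).symm

end main

end Fermat.Agent.S53.LegitLattice
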