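import Fermat.Agent.S53.Rigid
import Fermat.Agent.S53.RigidBasic
import Fermat.Agent.Lib.DefMat

set_option autoImplicit false
set_option linter.unusedSectionVars false

open GaloisRep Fermat.Agent.S53.Defs Fermat.Agent.S53.Rigid Fermat.Agent.Lib.DefNormRep

namespace Fermat.Agent.S53.LegitTangent

section dual

variable (𝒪 : Type) [CommRing 𝒪] [IsLocalRing 𝒪]

theorem algebraMap_Dk_apply (x : 𝒪) :
    algebraMap 𝒪 (Dk 𝒪) x =
      (algebraMap (IsLocalRing.ResidueField 𝒪) (DualNumber (IsLocalRing.ResidueField 𝒪)))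
        (IsLocalRing.residue 𝒪 x) := rfl

instance : Nontrivial (Dk 𝒪) :=
  inferInstanceAs (Nontrivial (DualNumber (IsLocalRing.ResidueField 𝒪)))

theorem isLocalHom_algebraMap_Dk : IsLocalHom (algebraMap 𝒪 (Dk 𝒪)) := by
  constructor
  intro x hx
  by_contra hnu
  have h0 : IsLocalRing.residue 𝒪 x = 0 := by
    rw [IsLocalRing.residue_eq_zero_iff]
    exact hnu
  rw [algebraMap_Dk_apply, h0, map_zero] at hx
  exact not_isUnit_zero hx

theorem residue_inl_fst_dual {k : Type} [Field k] (d : DualNumber k) :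
    IsLocalRing.residue (DualNumber k) d =
      IsLocalRing.residue (DualNumber k) (algebraMap k (DualNumber k) (TrivSqZeroExt.fst d)) := by
  rw [← sub_eq_zero, ← map_sub, IsLocalRing.residue_eq_zero_iff]
  have h : d - algebraMap k (DualNumber k) (TrivSqZeroExt.fst d) =
      TrivSqZeroExt.inr (TrivSqZeroExt.snd d) := by
    rw [TrivSqZeroExt.algebraMap_eq_inl]
    apply TrivSqZeroExt.ext
    · simp
    · simp
  rw [h]
  intro hu
  exact (TrivSqZeroExt.isNilpotent_inr (R := k) (TrivSqZeroExt.snd d)).not_isUnit hu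

theorem residue_surjective_Dk :
    Function.Surjective (IsLocalRing.residue (Dk 𝒪) ∘ algebraMap 𝒪 (Dk 𝒪)) := by
  intro y
  obtain ⟨d, rfl⟩ := IsLocalRing.residue_surjective y
  obtain ⟨x, hx⟩ := IsLocalRing.residue_surjective
    (TrivSqZeroExt.fst (d : DualNumber (IsLocalRing.ResidueField 𝒪)))
  refine ⟨x, ?_⟩
  have h1 : (IsLocalRing.residue (Dk 𝒪) ∘ algebraMap 𝒪 (Dk 𝒪)) x =
      IsLocalRing.residue (DualNumber (IsLocalRing.ResidueField 𝒪))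
        (algebraMap (IsLocalRing.ResidueField 𝒪) (DualNumber (IsLocalRing.ResidueField 𝒪))
          (IsLocalRing.residue 𝒪 x)) := rfl
  rw [h1, hx]
  exact (residue_inl_fst_dual (k := IsLocalRing.ResidueField 𝒪) d).symm

theorem isArtinianRing_dualNumber (k : Type) [Field k] : IsArtinianRing (DualNumber k) := by
  rw [isArtinianRing_iff_isNilpotent_maximalIdeal, DualNumber.maximalIdeal_eq_span_singleton_eps]
  refine ⟨2, ?_⟩
  rw [Ideal.span_singleton_pow, pow_two, DualNumber.eps_mul_eps]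
  simp

theorem isArtinianTestAlgebra_Dk : IsArtinianTestAlgebra 𝒪 (Dk 𝒪) where
  isLocalHom := isLocalHom_algebraMap_Dk 𝒪
  residue_surjective := residue_surjective_Dk 𝒪
  isArtinian := isArtinianRing_dualNumber (IsLocalRing.ResidueField 𝒪)

/-- The ring hom `k → ResidueField (k[ε])` used by `TangentFinite`. -/
noncomputable def psiDk : IsLocalRing.ResidueField 𝒪 →+* IsLocalRing.ResidueField (Dk 𝒪) :=
  (IsLocalRing.residue (DualNumber (IsLocalRing.ResidueField 𝒪))).comp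
    (algebraMap (IsLocalRing.ResidueField 𝒪) (DualNumber (IsLocalRing.ResidueField 𝒪)))

end dual

theorem card_le_of_finite {Q : Type*} (h : Finite Q) :
    ∃ τ : ℕ, ∀ (H : Type) (c : H → Q), Function.Injective c → Nat.card H ≤ τ :=
  ⟨Nat.card Q, fun _ c hc => Nat.card_le_card_of_injective c hc⟩

section main

variable {𝒪 : Type} [CommRing 𝒪] [IsLocalRing 𝒪]
  {ρbar : ResidualGaloisRep (IsLocalRing.ResidueField 𝒪)} (S : Setup ρbar)
  (𝒟 : ∀ ⦃A : Type⦄ [CommRing A] [IsLocalRing A] [Algebra 𝒪 A], GaloisRepAdic A → Prop)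

theorem residue_eq_psiDk (ρ : Γ →* M2 (Dk 𝒪)) (h : IsNLift S (Dk 𝒪) ρ) (σ : Γ) (i j : Fin 2) :
    IsLocalRing.residue (Dk 𝒪) (ρ σ i j) =
      psiDk 𝒪 (LinearMap.toMatrix S.D.b S.D.b (ρbar.ρ σ) i j) := by
  have h1 : IsLocalRing.residue (Dk 𝒪) (ρ σ i j) =
      IsLocalRing.residue (Dk 𝒪) (algebraMap 𝒪 (Dk 𝒪) (S.rt σ i j)) := by
    rw [← sub_eq_zero, ← map_sub, IsLocalRing.residue_eq_zero_iff]
    exact h.res σ i j
  rw [h1, algebraMap_Dk_apply, S.hrt]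
  rfl

/-- Two algebra maps out of `P ⧸ I` which agree on the tautological matrices are equal. -/
theorem algHom_ext_of_mapRep {B : Type} [CommRing B] [Algebra 𝒪 B] (I : Ideal (P 𝒪))
    (ρ : Γ →* M2 (P 𝒪 ⧸ I)) (hρ : ∀ g, ρ g = tautFun I g) (φ φ' : P 𝒪 ⧸ I →ₐ[𝒪] B)
    (h : mapRep (φ : P 𝒪 ⧸ I →+* B) ρ = mapRep (φ' : P 𝒪 ⧸ I →+* B) ρ) : φ = φ' := by
  apply Ideal.Quotient.algHom_ext
  apply MvPolynomial.algHom_ext
  rintro ⟨g, a, b⟩
  have h1 := congrFun (congrFun (congrArg (fun r => r g) h) a) b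
  simp only [mapRep_apply, Matrix.map_apply, hρ g, tautFun, Matrix.of_apply] at h1
  exact h1

/-- R3 with the two R1 inputs as hypotheses. -/
theorem tangent_bound_of
    (hmap : ∀ (I : Ideal (P 𝒪)) [IsLocalRing (P 𝒪 ⧸ I)], IsArtinianTestAlgebra 𝒪 (P 𝒪 ⧸ I) →
      ∀ (u : P 𝒪 ⧸ I →ₐ[𝒪] Dk 𝒪) (ρ : Γ →* M2 (P 𝒪 ⧸ I)), IsND S 𝒟 (P 𝒪 ⧸ I) ρ →
        IsND S 𝒟 (Dk 𝒪) (mapRep (u : P 𝒪 ⧸ I →+* Dk 𝒪) ρ))
    (hconj : ∀ (ρ ρ' : Γ →* M2 (Dk 𝒪)), IsNLift S (Dk 𝒪) ρ → IsNLift S (Dk 𝒪) ρ' →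
      ∀ X : M2 (Dk 𝒪), IsUnit X.det → (∀ g, X * ρ g = ρ' g * X) → ρ = ρ')
    (hfin : GaloisRep.TangentFinite 𝒪 ρbar 𝒟) :
    ∃ τ : ℕ, ∀ I, Legit S 𝒟 I → Nat.card (P 𝒪 ⧸ I →ₐ[𝒪] Dk 𝒪) ≤ τ := by
  obtain ⟨τ, hτ⟩ := card_le_of_finite hfin
  refine ⟨τ, fun I hI => ?_⟩
  obtain ⟨hloc, ρ, hρ, hA, hND⟩ := hI
  have key : ∀ u : P 𝒪 ⧸ I →ₐ[𝒪] Dk 𝒪,
      IsND S 𝒟 (Dk 𝒪) (mapRep (u : P 𝒪 ⧸ I →+* Dk 𝒪) ρ) := fun u => hmap I hA u ρ hND
  refine hτ _ (fun u => Quotient.mk _ ⟨ofMat (mapRep (u : P 𝒪 ⧸ I →+* Dk 𝒪) ρ) (key u).2.choose,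
    (key u).2.choose_spec,
    Fermat.Agent.Lib.DefMat.ofMat_residual_isEquiv _ _ ρbar S.D.b (psiDk 𝒪)
      (residue_eq_psiDk S _ (key u).1)⟩) ?_
  intro u u' huu'
  have hE : (ofMat (mapRep (u : P 𝒪 ⧸ I →+* Dk 𝒪) ρ) (key u).2.choose).IsEquiv
      (ofMat (mapRep (u' : P 𝒪 ⧸ I →+* Dk 𝒪) ρ) (key u').2.choose) := Quotient.exact huu'
  obtain ⟨X, hX, hc⟩ := (Fermat.Agent.Lib.DefMat.ofMat_isEquiv_iff _ _ _ _).mp hE
  exact algHom_ext_of_mapRep I ρ hρ u u' (hconj _ _ (key u).1 (key u').1 X hX hc)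

end main

section final

variable {𝒪 : Type} [CommRing 𝒪] [IsDomain 𝒪] [IsDiscreteValuationRing 𝒪]
  [IsAdicComplete (IsLocalRing.maximalIdeal 𝒪) 𝒪] [Finite (IsLocalRing.ResidueField 𝒪)]
  {ρbar : ResidualGaloisRep (IsLocalRing.ResidueField 𝒪)} (S : Setup ρbar)
  (𝒟 : ∀ ⦃A : Type⦄ [CommRing A] [IsLocalRing A] [Algebra 𝒪 A], GaloisRepAdic A → Prop)

/-- R3 (target written as `Dk 𝒪`): the number of dual-number points of legit quotients is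
uniformly bounded. -/
theorem legit_tangent_bound_Dk (habs : ρbar.IsAbsolutelyIrreducible)
    (h𝒟 : GaloisRep.IsDeformationCondition 𝒪 𝒟) (hfin : GaloisRep.TangentFinite 𝒪 ρbar 𝒟) :
    ∃ τ : ℕ, ∀ I, Legit S 𝒟 I → Nat.card (P 𝒪 ⧸ I →ₐ[𝒪] Dk 𝒪) ≤ τ :=
  tangent_bound_of S 𝒟
    (fun _ _ hA u _ hND =>
      Fermat.Agent.S53.RigidBasic.IsND.map S 𝒟 h𝒟 hA (isArtinianTestAlgebra_Dk 𝒪) u hND)
    (fun _ _ h h' X hX hc =>
      Fermat.Agent.S53.RigidBasic.IsNLift.eq_of_conj S habs (isLocalHom_algebraMap_Dk 𝒪)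
        (residue_surjective_Dk 𝒪) h h' X hX hc)
    hfin

/-- R3: exactly the `htan` input of `AbstractRep.exists_min_chain_of_dualNumber_bound` for
`Legit S 𝒟`, with the `TangentFinite` algebra structure on the dual numbers. -/
theorem legit_tangent_bound (habs : ρbar.IsAbsolutelyIrreducible)
    (h𝒟 : GaloisRep.IsDeformationCondition 𝒪 𝒟) (hfin : GaloisRep.TangentFinite 𝒪 ρbar 𝒟) :
    letI : Algebra 𝒪 (DualNumber (IsLocalRing.ResidueField 𝒪)) :=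
      ((algebraMap (IsLocalRing.ResidueField 𝒪) (DualNumber (IsLocalRing.ResidueField 𝒪))).comp
        (algebraMap 𝒪 (IsLocalRing.ResidueField 𝒪))).toAlgebra
    ∃ τ : ℕ, ∀ I, Legit S 𝒟 I →
      Nat.card (P 𝒪 ⧸ I →ₐ[𝒪] DualNumber (IsLocalRing.ResidueField 𝒪)) ≤ τ :=
  legit_tangent_bound_Dk S 𝒟 habs h𝒟 hfin

end final

end Fermat.Agent.S53.LegitTangent
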