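import Fermat.Agent.S53.Rigid
import Fermat.Agent.Lib.ProArtin

set_option autoImplicit false

namespace Fermat.Agent.S53.ProLim

open GaloisRep Fermat.Agent.S53.Defs Fermat.Agent.S53.Rigid Fermat.Agent.Lib.ProArtin

section general

variable {𝒪 : Type*} [CommRing 𝒪] {Q : Type*} [CommRing Q] [Algebra 𝒪 Q]

/-- A tower of ideals whose bottom is the kernel of a map onto a field generated by `𝒪`, with
finite quotients and the relation `I n = I N ⊔ (I 0)^(n+1)`, satisfies `Sys`. -/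
theorem sys_of_ker {k : Type*} [Field k] [Algebra 𝒪 k] (φ : Q →ₐ[𝒪] k)
    (hk : Function.Surjective (algebraMap 𝒪 k)) (I : ℕ → Ideal Q)
    (h0 : I 0 = RingHom.ker φ) (hanti : Antitone I) (hfin : ∀ n, Finite (Q ⧸ I n))
    (hrel : ∀ n N, n ≤ N → I n = I N ⊔ (RingHom.ker φ) ^ (n + 1)) : Sys 𝒪 I where
  anti := hanti
  isMaximal := by
    rw [h0]
    refine RingHom.ker_isMaximal_of_surjective (φ : Q →+* k) ?_
    intro x
    obtain ⟨r, rfl⟩ := hk x
    exact ⟨algebraMap 𝒪 Q r, φ.commutes r⟩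
  surj := by
    intro x
    obtain ⟨p, rfl⟩ := Ideal.Quotient.mk_surjective x
    obtain ⟨r, hr⟩ := hk (φ p)
    refine ⟨r, ?_⟩
    change Ideal.Quotient.mk (I 0) (algebraMap 𝒪 Q r) = _
    rw [Ideal.Quotient.eq, h0, RingHom.mem_ker, map_sub]
    rw [show φ (algebraMap 𝒪 Q r) = algebraMap 𝒪 k r from φ.commutes r, hr, sub_self]
  finite := hfin
  rel := by
    intro m n hmn
    rw [h0]
    exact hrel m n hmn

end general

variable {𝒪 : Type} [CommRing 𝒪] [IsLocalRing 𝒪] [IsNoetherianRing 𝒪]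
  [IsAdicComplete (IsLocalRing.maximalIdeal 𝒪) 𝒪]

/-- The limit data attached to a tower of ideals satisfying `Sys`. -/
noncomputable def limData (I : ℕ → Ideal (P 𝒪)) [Sys 𝒪 I] : LimData I where
  R := Lim 𝒪 I
  instIsLocalHom := Sys.isLocalHom_algebraMap
  residue_surjective := Sys.residue_surjective
  ι := ι
  π := π
  π_surjective := π_surjective
  π_ι := fun _ _ => rfl
  ker_π := Sys.ker_π_eq
  ext := fun _ _ h => ext_π h

/-- The limit data for a minimal chain of legit ideals (the output shape of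
`AbstractRep.exists_min_chain`). -/
theorem nonempty_limData {ρbar : ResidualGaloisRep (IsLocalRing.ResidueField 𝒪)}
    (S : Setup ρbar) (I : ℕ → Ideal (P 𝒪)) (h0 : I 0 = NN S) (hanti : Antitone I)
    (hfin : ∀ n, Finite (P 𝒪 ⧸ I n))
    (hrel : ∀ n N, n ≤ N → I n = I N ⊔ NN S ^ (n + 1)) : Nonempty (LimData I) := by
  have : Sys 𝒪 I :=
    sys_of_ker (ev (𝒪 := 𝒪) (A := IsLocalRing.ResidueField 𝒪) S.D.mat)
      IsLocalRing.residue_surjective I h0 hanti hfin hrel
  exact ⟨limData I⟩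

end Fermat.Agent.S53.ProLim
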