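import Fermat.Agent.S53.Defs

set_option autoImplicit false
set_option linter.unusedSectionVars false

open GaloisRep Fermat.Agent.S53.Defs IsLocalRing

namespace Fermat.Agent.S53.Assembly

/-! ## Quotients by powers of the maximal ideal -/

section quot

/-- The ideal `m ^ (n + 1)` of a local ring. -/
abbrev J (A : Type) [CommRing A] [IsLocalRing A] (n : ℕ) : Ideal A := maximalIdeal A ^ (n + 1)

variable {A : Type} [CommRing A] [IsLocalRing A]

theorem J_le (n : ℕ) : J A n ≤ maximalIdeal A :=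
  Ideal.pow_le_self (Nat.succ_ne_zero n)

theorem J_ne_top (n : ℕ) : J A n ≠ ⊤ := fun h =>
  (maximalIdeal.isMaximal A).ne_top (top_le_iff.mp (h ▸ J_le n))

instance instNontrivialQuot (n : ℕ) : Nontrivial (A ⧸ J A n) :=
  Ideal.Quotient.nontrivial_iff.mpr (J_ne_top n)

instance instIsLocalRingQuot (n : ℕ) : IsLocalRing (A ⧸ J A n) :=
  IsLocalRing.of_surjective' (Ideal.Quotient.mk (J A n)) Ideal.Quotient.mk_surjective

instance instIsLocalHomMk (n : ℕ) : IsLocalHom (Ideal.Quotient.mk (J A n)) :=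
  IsLocalHom.of_surjective _ Ideal.Quotient.mk_surjective

theorem mk_mem_maximalIdeal_iff (n : ℕ) (a : A) :
    Ideal.Quotient.mk (J A n) a ∈ maximalIdeal (A ⧸ J A n) ↔ a ∈ maximalIdeal A := by
  rw [mem_maximalIdeal, mem_maximalIdeal, mem_nonunits_iff, mem_nonunits_iff,
    isUnit_map_iff (Ideal.Quotient.mk (J A n))]

theorem map_maximalIdeal (n : ℕ) :
    (maximalIdeal A).map (Ideal.Quotient.mk (J A n)) = maximalIdeal (A ⧸ J A n) := by
  ext x
  obtain ⟨x, rfl⟩ := Ideal.Quotient.mk_surjective x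
  rw [mk_mem_maximalIdeal_iff]
  constructor
  · intro h
    rw [Ideal.mem_map_iff_of_surjective _ Ideal.Quotient.mk_surjective] at h
    obtain ⟨y, hy, hxy⟩ := h
    have h2 : y - x ∈ J A n := Ideal.Quotient.eq.mp hxy
    have h3 : x = y - (y - x) := by ring
    rw [h3]
    exact Ideal.sub_mem _ hy (J_le n h2)
  · intro h
    exact Ideal.mem_map_of_mem _ h

theorem maximalIdeal_quot_pow (n : ℕ) : maximalIdeal (A ⧸ J A n) ^ (n + 1) = ⊥ := by
  rw [← map_maximalIdeal, ← Ideal.map_pow, Ideal.map_eq_bot_iff_le_ker, Ideal.mk_ker]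

variable {𝒪 : Type} [CommRing 𝒪] [IsLocalRing 𝒪] [Algebra 𝒪 A]

theorem testAlg [IsNoetherianRing A] (hloc : IsLocalHom (algebraMap 𝒪 A))
    (hres : Function.Surjective (IsLocalRing.residue A ∘ algebraMap 𝒪 A)) (n : ℕ) :
    IsArtinianTestAlgebra 𝒪 (A ⧸ J A n) where
  isLocalHom := by
    have : algebraMap 𝒪 (A ⧸ J A n) = (Ideal.Quotient.mk (J A n)).comp (algebraMap 𝒪 A) := rfl
    rw [this]
    infer_instance
  residue_surjective := by
    intro y
    obtain ⟨y, rfl⟩ := IsLocalRing.residue_surjective y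
    obtain ⟨a, rfl⟩ := Ideal.Quotient.mk_surjective y
    obtain ⟨o, ho⟩ := hres (IsLocalRing.residue A a)
    refine ⟨o, ?_⟩
    have h1 : algebraMap 𝒪 A o - a ∈ maximalIdeal A := by
      rw [← Ideal.Quotient.eq]
      exact ho
    have h2 : Ideal.Quotient.mk (J A n) (algebraMap 𝒪 A o - a) ∈ maximalIdeal (A ⧸ J A n) :=
      (mk_mem_maximalIdeal_iff n _).mpr h1
    show IsLocalRing.residue (A ⧸ J A n) (Ideal.Quotient.mk (J A n) (algebraMap 𝒪 A o)) = _
    rw [map_sub] at h2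
    exact Ideal.Quotient.eq.mpr h2
  isArtinian := by
    rw [isArtinianRing_iff_isNilpotent_maximalIdeal]
    exact ⟨n + 1, maximalIdeal_quot_pow n⟩

end quot

/-! ## Strict equivalence and normalised intertwiners -/

section seq

variable {G : Type} [Monoid G]

theorem mapRep_comp {A B C : Type} [CommRing A] [CommRing B] [CommRing C] (u : A →+* B)
    (v : B →+* C) (ρ : G →* M2 A) : mapRep v (mapRep u ρ) = mapRep (v.comp u) ρ := by
  ext g i j
  simp [mapRep_apply]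

variable {A B : Type} [CommRing A] [IsLocalRing A] [CommRing B] [IsLocalRing B]

theorem SEq.map (u : A →+* B) (hu : ∀ a ∈ maximalIdeal A, u a ∈ maximalIdeal B)
    {ρ ρ' : G →* M2 A} (h : SEq A ρ ρ') : SEq B (mapRep u ρ) (mapRep u ρ') := by
  obtain ⟨X, hX, hc⟩ := h
  refine ⟨X.map u, fun i j => ?_, fun g => ?_⟩
  · have := hu _ (hX i j)
    by_cases hij : i = j
    · subst hij
      simpa [Matrix.sub_apply] using this
    · simpa [Matrix.sub_apply, Matrix.one_apply, hij] using this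
  · rw [mapRep_apply, mapRep_apply, ← Matrix.map_mul, ← Matrix.map_mul, hc g]

theorem isUnit_det_of_sub_one_mem {X : M2 A} (hX : ∀ i j, (X - 1) i j ∈ maximalIdeal A) :
    IsUnit X.det := by
  rw [← IsLocalRing.notMem_maximalIdeal]
  intro hdet
  have h00 := hX 0 0
  have h11 := hX 1 1
  have h01 := hX 0 1
  have h10 := hX 1 0
  simp only [Matrix.sub_apply, Matrix.one_apply_eq] at h00 h11
  simp only [Matrix.sub_apply, Matrix.one_apply, Fin.reduceEq, if_false, sub_zero] at h01 h10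
  rw [Matrix.det_fin_two] at hdet
  have h1 : (1 : A) ∈ maximalIdeal A := by
    have e : (1 : A) = (X 0 0 * X 1 1 - X 0 1 * X 1 0) - (X 0 0 - 1) * X 1 1 - (X 1 1 - 1)
        + X 0 1 * X 1 0 := by ring
    rw [e]
    exact Ideal.add_mem _ (Ideal.sub_mem _ (Ideal.sub_mem _ hdet (Ideal.mul_mem_right _ _ h00)) h11)
      (Ideal.mul_mem_right _ _ h01)
  exact (Ideal.ne_top_iff_one _).mp (maximalIdeal.isMaximal A).ne_top h1

/-- Normalised strict intertwiner: congruent to `1`, top left entry `1`. -/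
def IsNI (A : Type) [CommRing A] [IsLocalRing A] (ρ ρ' : G →* M2 A) (Y : M2 A) : Prop :=
  (∀ i j, (Y - 1) i j ∈ maximalIdeal A) ∧ Y 0 0 = 1 ∧ ∀ g, Y * ρ g = ρ' g * Y

theorem IsNI.map (u : A →+* B) (hu : ∀ a ∈ maximalIdeal A, u a ∈ maximalIdeal B)
    {ρ ρ' : G →* M2 A} {Y : M2 A} (h : IsNI A ρ ρ' Y) :
    IsNI B (mapRep u ρ) (mapRep u ρ') (Y.map u) := by
  obtain ⟨hX, h0, hc⟩ := h
  refine ⟨fun i j => ?_, by simp [h0], fun g => ?_⟩
  · have := hu _ (hX i j)
    by_cases hij : i = j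
    · subst hij
      simpa [Matrix.sub_apply] using this
    · simpa [Matrix.sub_apply, Matrix.one_apply, hij] using this
  · rw [mapRep_apply, mapRep_apply, ← Matrix.map_mul, ← Matrix.map_mul, hc g]

theorem exists_isNI {ρ ρ' : G →* M2 A} (h : SEq A ρ ρ') : ∃ Y, IsNI A ρ ρ' Y := by
  obtain ⟨X, hX, hc⟩ := h
  have h00 : X 0 0 - 1 ∈ maximalIdeal A := by
    have := hX 0 0
    simpa [Matrix.sub_apply] using this
  have hu : IsUnit (X 0 0) := by
    rw [← IsLocalRing.notMem_maximalIdeal]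
    intro hm
    have h1 : (1 : A) ∈ maximalIdeal A := by
      have e : (1 : A) = X 0 0 - (X 0 0 - 1) := by ring
      rw [e]
      exact Ideal.sub_mem _ hm h00
    exact (Ideal.ne_top_iff_one _).mp (maximalIdeal.isMaximal A).ne_top h1
  obtain ⟨c, hc1⟩ := hu.exists_left_inv
  have hcm : c - 1 ∈ maximalIdeal A := by
    have e : c - 1 = - (c * (X 0 0 - 1)) := by
      rw [mul_sub, hc1]; ring
    rw [e]
    exact neg_mem (Ideal.mul_mem_left _ _ h00)
  refine ⟨c • X, fun i j => ?_, by simp [hc1], fun g => ?_⟩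
  · have hij := hX i j
    by_cases e : i = j
    · subst e
      simp only [Matrix.sub_apply, Matrix.smul_apply, Matrix.one_apply_eq, smul_eq_mul] at hij ⊢
      have e2 : c * X i i - 1 = c * (X i i - 1) + (c - 1) := by ring
      rw [e2]
      exact Ideal.add_mem _ (Ideal.mul_mem_left _ _ hij) hcm
    · simp only [Matrix.sub_apply, Matrix.smul_apply, Matrix.one_apply, e, if_false, sub_zero,
        smul_eq_mul] at hij ⊢
      exact Ideal.mul_mem_left _ _ hij
  · rw [Matrix.smul_mul, Matrix.mul_smul, hc g]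

theorem isNI_unique {ρ ρ' : G →* M2 A}
    (hcent : ∀ X : M2 A, (∀ g, X * ρ g = ρ g * X) → ∃ c : A, X = Matrix.scalar (Fin 2) c)
    {Y Y' : M2 A} (h : IsNI A ρ ρ' Y) (h' : IsNI A ρ ρ' Y') : Y = Y' := by
  obtain ⟨hY, h0, hc⟩ := h
  obtain ⟨hY', h0', hc'⟩ := h'
  have hdet : IsUnit Y.det := isUnit_det_of_sub_one_mem hY
  -- `ρ g * adj Y = adj Y * ρ' g`
  have hadj : ∀ g, ρ g * Y.adjugate = Y.adjugate * ρ' g := by
    intro g
    have e1 : Y.det • (ρ g * Y.adjugate) = Y.det • (Y.adjugate * ρ' g) := by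
      calc Y.det • (ρ g * Y.adjugate) = (Y.adjugate * Y) * ρ g * Y.adjugate := by
            rw [Matrix.adjugate_mul, Matrix.smul_mul, Matrix.one_mul, Matrix.smul_mul]
        _ = Y.adjugate * (Y * ρ g) * Y.adjugate := by rw [Matrix.mul_assoc Y.adjugate]
        _ = Y.adjugate * (ρ' g * Y) * Y.adjugate := by rw [hc g]
        _ = Y.adjugate * ρ' g * (Y * Y.adjugate) := by
            simp only [Matrix.mul_assoc]
        _ = Y.det • (Y.adjugate * ρ' g) := by
            rw [Matrix.mul_adjugate, Matrix.mul_smul, Matrix.mul_one]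
    obtain ⟨d, hd⟩ := hdet.exists_left_inv
    have := congrArg (fun M => d • M) e1
    simpa [smul_smul, hd] using this
  obtain ⟨c, hcZ⟩ := hcent (Y.adjugate * Y') (fun g => by
    rw [Matrix.mul_assoc, hc' g, ← Matrix.mul_assoc, ← hadj g, Matrix.mul_assoc])
  -- `det Y • Y' = c • Y`
  have e2 : Y.det • Y' = c • Y := by
    calc Y.det • Y' = (Y * Y.adjugate) * Y' := by
          rw [Matrix.mul_adjugate, Matrix.smul_mul, Matrix.one_mul]
      _ = Y * (Y.adjugate * Y') := by rw [Matrix.mul_assoc]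
      _ = c • Y := by
          rw [hcZ]
          ext i j
          simp [Matrix.mul_apply, Matrix.scalar_apply, Matrix.diagonal_apply, mul_comm]
  have e3 : Y.det = c := by
    have := congrFun (congrFun e2 0) 0
    simpa [h0, h0'] using this
  obtain ⟨d, hd⟩ := hdet.exists_left_inv
  have := congrArg (fun M => d • M) e2
  simp only [smul_smul, ← e3, hd, one_smul] at this
  exact this.symm

end seq

/-! ## Passing to the limit -/

section limit

variable {G : Type} [Monoid G]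

variable {A : Type} [CommRing A] [IsLocalRing A]

theorem J_mono {m n : ℕ} (h : m ≤ n) : J A n ≤ J A m :=
  Ideal.pow_le_pow_right (Nat.succ_le_succ h)

theorem factor_mem_maximalIdeal {m n : ℕ} (h : m ≤ n) (x : A ⧸ J A n)
    (hx : x ∈ maximalIdeal (A ⧸ J A n)) :
    Ideal.Quotient.factor (J_mono h) x ∈ maximalIdeal (A ⧸ J A m) := by
  obtain ⟨a, rfl⟩ := Ideal.Quotient.mk_surjective x
  rw [Ideal.Quotient.factor_mk, mk_mem_maximalIdeal_iff]
  exact (mk_mem_maximalIdeal_iff n a).mp hx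

theorem eq_of_forall_mk_eq [IsNoetherianRing A] {a b : A}
    (h : ∀ n, Ideal.Quotient.mk (J A n) a = Ideal.Quotient.mk (J A n) b) : a = b := by
  rw [← sub_eq_zero]
  have hH : IsHausdorff (maximalIdeal A) A := inferInstance
  refine hH.haus _ fun n => ?_
  rw [SModEq.sub_mem, sub_zero, smul_eq_mul, Ideal.mul_top]
  have h1 : a - b ∈ J A n := Ideal.Quotient.eq.mp (h n)
  exact Ideal.pow_le_pow_right (Nat.le_succ n) h1

theorem exists_forall_mk_eq [IsAdicComplete (maximalIdeal A) A] (y : ∀ n, A ⧸ J A n)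
    (hy : ∀ m n (h : m ≤ n), Ideal.Quotient.factor (J_mono h) (y n) = y m) :
    ∃ a : A, ∀ n, Ideal.Quotient.mk (J A n) a = y n := by
  choose f hf using fun n => Ideal.Quotient.mk_surjective (y n)
  have hP : IsPrecomplete (maximalIdeal A) A := IsAdicComplete.toIsPrecomplete
  have key : ∀ m n, m ≤ n → f m - f n ∈ J A m := by
    intro m n h
    rw [← Ideal.Quotient.eq, hf m, ← hy m n h, ← hf n, Ideal.Quotient.factor_mk]
  obtain ⟨L, hL⟩ := hP.prec (f := f) (by
    intro m n h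
    rw [SModEq.sub_mem, smul_eq_mul, Ideal.mul_top]
    exact Ideal.pow_le_pow_right (Nat.le_succ m) (key m n h))
  refine ⟨L, fun n => ?_⟩
  have h1 := hL (n + 1)
  rw [SModEq.sub_mem, smul_eq_mul, Ideal.mul_top] at h1
  have h2 : f n - L ∈ J A n := by
    have e : f n - L = (f n - f (n + 1)) + (f (n + 1) - L) := by ring
    rw [e]
    exact Ideal.add_mem _ (key n (n + 1) (Nat.le_succ n)) h1
  rw [← hf n]
  exact (Ideal.Quotient.eq.mpr h2).symm

/-- Strict equivalence over all Artinian quotients implies strict equivalence. -/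
theorem seq_of_forall_quot [IsNoetherianRing A] [IsAdicComplete (maximalIdeal A) A]
    (ρ₁ ρ₂ : G →* M2 A)
    (hcent : ∀ n, ∀ X : M2 (A ⧸ J A n),
      (∀ g, X * mapRep (Ideal.Quotient.mk (J A n)) ρ₁ g
        = mapRep (Ideal.Quotient.mk (J A n)) ρ₁ g * X) → ∃ c, X = Matrix.scalar (Fin 2) c)
    (h : ∀ n, SEq (A ⧸ J A n) (mapRep (Ideal.Quotient.mk (J A n)) ρ₁)
      (mapRep (Ideal.Quotient.mk (J A n)) ρ₂)) : SEq A ρ₁ ρ₂ := by
  choose Y hY using fun n => exists_isNI (h n)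
  have hcompat : ∀ m n (hmn : m ≤ n), (Y n).map (Ideal.Quotient.factor (J_mono hmn)) = Y m := by
    intro m n hmn
    have h1 := IsNI.map (Ideal.Quotient.factor (J_mono hmn)) (factor_mem_maximalIdeal hmn) (hY n)
    rw [mapRep_comp, mapRep_comp, Ideal.Quotient.factor_comp_mk] at h1
    exact isNI_unique (hcent m) h1 (hY m)
  have hex : ∀ i j, ∃ a : A, ∀ n, Ideal.Quotient.mk (J A n) a = Y n i j := by
    intro i j
    refine exists_forall_mk_eq (fun n => Y n i j) fun m n hmn => ?_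
    have := congrFun (congrFun (hcompat m n hmn) i) j
    simpa using this
  choose x hx using hex
  have hXmap : ∀ n, (Matrix.of x : M2 A).map (Ideal.Quotient.mk (J A n)) = Y n := by
    intro n
    ext i j
    simp [hx]
  refine ⟨Matrix.of x, fun i j => ?_, fun g => ?_⟩
  · rw [← mk_mem_maximalIdeal_iff 0]
    have h1 := (hY 0).1 i j
    rw [← hXmap 0] at h1
    by_cases hij : i = j
    · subst hij
      simpa [Matrix.sub_apply] using h1
    · simpa [Matrix.sub_apply, Matrix.one_apply, hij] using h1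
  · ext i j
    refine eq_of_forall_mk_eq fun n => ?_
    have h1 := (hY n).2.2 g
    rw [← hXmap n, mapRep_apply, mapRep_apply, ← Matrix.map_mul, ← Matrix.map_mul] at h1
    have := congrFun (congrFun h1 i) j
    simpa using this

/-- A compatible family of algebra homomorphisms into the quotients `A ⧸ m ^ (n + 1)` of a
complete local ring lifts to `A`. -/
theorem exists_lift_algHom {𝒪 R A : Type} [CommRing 𝒪] [CommRing R] [Algebra 𝒪 R]
    [CommRing A] [IsLocalRing A] [IsAdicComplete (maximalIdeal A) A] [Algebra 𝒪 A]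
    (g : ∀ n, R →ₐ[𝒪] A ⧸ J A n)
    (hcompat : ∀ m n (hmn : m ≤ n),
      (Ideal.Quotient.factorₐ 𝒪 (J_mono hmn)).comp (g n) = g m) :
    ∃ φ : R →ₐ[𝒪] A, ∀ n, (Ideal.Quotient.mkₐ 𝒪 (J A n)).comp φ = g n := by
  let f : ∀ n : ℕ, R →ₐ[𝒪] A ⧸ maximalIdeal A ^ n := fun n =>
    (Ideal.Quotient.factorₐ 𝒪 (Ideal.pow_le_pow_right (Nat.le_succ n))).comp (g n)
  have hf : ∀ {m n : ℕ} (hle : m ≤ n),
      (Ideal.Quotient.factorₐ 𝒪 (Ideal.pow_le_pow_right hle)).comp (f n) = f m := by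
    intro m n hle
    ext x
    have e := congrArg (fun ψ : R →ₐ[𝒪] A ⧸ J A m => ψ x) (hcompat m n hle)
    simp only [f, AlgHom.comp_apply, Ideal.Quotient.factorₐ_apply] at e ⊢
    rw [← e]
    obtain ⟨a, ha⟩ := Ideal.Quotient.mk_surjective (g n x)
    rw [← ha]
    simp only [Ideal.Quotient.factor_mk]
  refine ⟨IsAdicComplete.liftAlgHom (maximalIdeal A) f hf, fun n => ?_⟩
  have h1 : (Ideal.Quotient.mkₐ 𝒪 (maximalIdeal A ^ (n + 1))).comp
      (IsAdicComplete.liftAlgHom (maximalIdeal A) f hf) = f (n + 1) :=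
    IsAdicComplete.mkₐ_comp_liftAlgHom (maximalIdeal A) f hf (n + 1)
  rw [← hcompat n (n + 1) (Nat.le_succ n)]
  refine h1.trans ?_
  rfl

end limit

/-! ## The universal object is universal for complete Noetherian algebras -/

section univ

variable {𝒪 : Type} [CommRing 𝒪] [IsLocalRing 𝒪] {G : Type} [Monoid G] {P : DefProblem 𝒪 G}
  (U : UnivData P)
  {A : Type} [CommRing A] [IsLocalRing A] [IsNoetherianRing A]
  [IsAdicComplete (maximalIdeal A) A] [Algebra 𝒪 A]

theorem mkₐ_coe (n : ℕ) :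
    ((Ideal.Quotient.mkₐ 𝒪 (J A n) : A →ₐ[𝒪] A ⧸ J A n) : A →+* A ⧸ J A n)
      = Ideal.Quotient.mk (J A n) := rfl

theorem existsUnique_algHom (hloc : IsLocalHom (algebraMap 𝒪 A))
    (hres : Function.Surjective (IsLocalRing.residue A ∘ algebraMap 𝒪 A)) (η : G →* M2 A)
    (hη : ∀ n, P.IsDef (A ⧸ J A n) (mapRep (Ideal.Quotient.mk (J A n)) η)) :
    ∃! φ : U.R →ₐ[𝒪] A, SEq A (mapRep (φ : U.R →+* A) U.ρ) η := by
  have hB : ∀ n, IsArtinianTestAlgebra 𝒪 (A ⧸ J A n) := fun n => testAlg hloc hres n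
  choose g hg hguniq using fun n => U.univ (A ⧸ J A n) (hB n) _ (hη n)
  -- uniqueness criterion at each level
  have hlevel : ∀ (φ : U.R →ₐ[𝒪] A), SEq A (mapRep (φ : U.R →+* A) U.ρ) η →
      ∀ n, (Ideal.Quotient.mkₐ 𝒪 (J A n)).comp φ = g n := by
    intro φ hφ n
    apply hguniq n
    have h1 := SEq.map (Ideal.Quotient.mk (J A n))
      (fun a ha => (mk_mem_maximalIdeal_iff n a).mpr ha) hφ
    rw [mapRep_comp] at h1
    exact h1
  have hcompat : ∀ m n (hmn : m ≤ n),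
      (Ideal.Quotient.factorₐ 𝒪 (J_mono hmn)).comp (g n) = g m := by
    intro m n hmn
    apply hguniq m
    have h1 := SEq.map (Ideal.Quotient.factor (J_mono hmn)) (factor_mem_maximalIdeal hmn) (hg n)
    rw [mapRep_comp, mapRep_comp, Ideal.Quotient.factor_comp_mk] at h1
    exact h1
  obtain ⟨φ, hφg⟩ := exists_lift_algHom g hcompat
  refine ⟨φ, ?_, ?_⟩
  · refine seq_of_forall_quot _ _ (fun n X hX => ?_) (fun n => ?_)
    · have h1 := U.isDef_map (A ⧸ J A n) (hB n) ((Ideal.Quotient.mkₐ 𝒪 (J A n)).comp φ)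
      refine P.cent (hB n) _ h1 X ?_
      intro σ
      have := hX σ
      rw [mapRep_comp] at this
      exact this
    · have h1 := hg n
      rw [← hφg n] at h1
      rw [mapRep_comp]
      exact h1
  · intro φ' hφ'
    have h1 := hlevel φ' hφ'
    ext x
    refine eq_of_forall_mk_eq fun n => ?_
    have h2 : (Ideal.Quotient.mkₐ 𝒪 (J A n)).comp φ' = (Ideal.Quotient.mkₐ 𝒪 (J A n)).comp φ := by
      rw [h1 n, hφg n]
    exact congrArg (fun ψ : U.R →ₐ[𝒪] A ⧸ J A n => ψ x) h2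

end univ

/-! ## Algebra homomorphisms are local -/

section localhom

theorem isLocalHom_of_algHom {𝒪 R A : Type} [CommRing 𝒪] [CommRing R] [IsLocalRing R]
    [CommRing A] [IsLocalRing A] [Algebra 𝒪 R] [Algebra 𝒪 A]
    (hloc : IsLocalHom (algebraMap 𝒪 A))
    (hres : Function.Surjective (IsLocalRing.residue A ∘ algebraMap 𝒪 A)) (φ : R →ₐ[𝒪] A) :
    IsLocalHom (φ : R →+* A) := by
  refine ((IsLocalRing.local_hom_TFAE (φ : R →+* A)).out 3 0).mp ?_
  intro z hz
  rw [Ideal.mem_comap]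
  by_contra hφz
  obtain ⟨o, ho⟩ := hres (IsLocalRing.residue A (φ z))
  have h1 : algebraMap 𝒪 A o - φ z ∈ maximalIdeal A := Ideal.Quotient.eq.mp ho
  have ho_unit : IsUnit o := by
    by_contra hno
    have h0 : algebraMap 𝒪 A o ∈ maximalIdeal A := by
      rw [mem_maximalIdeal, mem_nonunits_iff]
      intro hu
      exact hno (hloc.map_nonunit o hu)
    apply hφz
    have := Ideal.sub_mem _ h0 h1
    simpa using this
  have h2 : IsUnit (algebraMap 𝒪 R o) := ho_unit.map _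
  have h3 : ¬ IsUnit (algebraMap 𝒪 R o - z) := by
    intro hu
    have h4 := hu.map (φ : R →+* A)
    have e : (φ : R →+* A) (algebraMap 𝒪 R o - z) = algebraMap 𝒪 A o - φ z := by
      simp
    rw [e] at h4
    exact (mem_nonunits_iff.mp h1) h4
  have h4 : algebraMap 𝒪 R o - z ∈ maximalIdeal R := h3
  have h5 : algebraMap 𝒪 R o ∈ maximalIdeal R := by
    have := Ideal.add_mem _ h4 hz
    simpa using this
  exact h5 h2

end localhom

/-! ## Assembly -/

section assembly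

variable (𝒪 : Type) [CommRing 𝒪] [IsDomain 𝒪] [IsDiscreteValuationRing 𝒪]
  [IsAdicComplete (IsLocalRing.maximalIdeal 𝒪) 𝒪]
  (ρbar : ResidualGaloisRep (IsLocalRing.ResidueField 𝒪))
  (𝒟 : ∀ ⦃A : Type⦄ [CommRing A] [IsLocalRing A] [Algebra 𝒪 A], GaloisRepAdic A → Prop)

theorem core (habs : ρbar.IsAbsolutelyIrreducible) (h𝒟 : GaloisRep.IsDeformationCondition 𝒪 𝒟)
    (P : DefProblem 𝒪 Γ) (hr : P.r = rtilde ρbar)
    (hdef : ∀ (A : Type) [CommRing A] [IsLocalRing A] [Algebra 𝒪 A] (ρ : Γ →* M2 A),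
      P.IsDef A ρ ↔ ConcIsDef 𝒪 𝒟 (rtilde ρbar) A ρ)
    (U : UnivData P)
    (W1 : ∀ {A : Type} [CommRing A] [IsLocalRing A] [Algebra 𝒪 A] [IsLocalHom (algebraMap 𝒪 A)],
      Function.Surjective (IsLocalRing.residue A ∘ algebraMap 𝒪 A) →
      ∀ (ρA : GaloisRepAdic A), ρA.residual.IsEquiv
        (ρbar.baseChangeAlong (IsLocalRing.ResidueField.map (algebraMap 𝒪 A))) →
      ∃ (ρm : Γ →* M2 A) (hc : IsContMat A ρm), ρA.IsEquiv (ofMat ρm hc) ∧
        ∀ σ i j, ρm σ i j - algebraMap 𝒪 A (rtilde ρbar σ i j) ∈ IsLocalRing.maximalIdeal A)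
    (W2 : ∀ {A : Type} [CommRing A] [IsLocalRing A] (ρ₁ ρ₂ : Γ →* M2 A) (h₁ : IsContMat A ρ₁)
      (h₂ : IsContMat A ρ₂), (ofMat ρ₁ h₁).IsEquiv (ofMat ρ₂ h₂) ↔
        ∃ X : M2 A, IsUnit X ∧ ∀ σ, X * ρ₁ σ = ρ₂ σ * X)
    (W3 : ∀ {A B : Type} [CommRing A] [IsLocalRing A] [CommRing B] [IsLocalRing B]
      (φ : A →+* B), IsLocalHom φ → ∀ (ρ : Γ →* M2 A), IsContMat A ρ → IsContMat B (mapRep φ ρ))
    (W4 : ∀ {A B : Type} [CommRing A] [IsLocalRing A] [CommRing B] [IsLocalRing B]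
      (φ : A →+* B) (hφ : IsLocalHom φ) (ρ : Γ →* M2 A) (hc : IsContMat A ρ)
      (hc' : IsContMat B (mapRep φ ρ)),
      ((ofMat ρ hc).baseChangeAlong φ hφ).IsEquiv (ofMat (mapRep φ ρ) hc'))
    (W5 : ∀ {A : Type} [CommRing A] [IsLocalRing A]
      (ψ : IsLocalRing.ResidueField 𝒪 →+* IsLocalRing.ResidueField A)
      (ρ : Γ →* M2 A) (hc : IsContMat A ρ),
      (∀ σ i j, IsLocalRing.residue A (ρ σ i j) = ψ (rbarMat ρbar σ i j)) →
      (ofMat ρ hc).residual.IsEquiv (ρbar.baseChangeAlong ψ))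
    (W6 : ∀ {A : Type} [CommRing A] [IsLocalRing A] [Algebra 𝒪 A],
      IsLocalHom (algebraMap 𝒪 A) →
      Function.Surjective (IsLocalRing.residue A ∘ algebraMap 𝒪 A) →
      ∀ (ρ₁ ρ₂ : Γ →* M2 A),
      (∀ σ i j, ρ₁ σ i j - algebraMap 𝒪 A (rtilde ρbar σ i j) ∈ IsLocalRing.maximalIdeal A) →
      (∀ σ i j, ρ₂ σ i j - algebraMap 𝒪 A (rtilde ρbar σ i j) ∈ IsLocalRing.maximalIdeal A) →
      ∀ X : M2 A, IsUnit X → (∀ σ, X * ρ₁ σ = ρ₂ σ * X) → SEq A ρ₁ ρ₂) :
    Nonempty (GaloisRep.DeformationRingData 𝒪 ρbar 𝒟) := by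
  have hlocR : IsLocalHom (algebraMap 𝒪 U.R) := inferInstance
  have hresR := U.residue_surjective
  have hcR : IsContMat U.R U.ρ := by
    intro n
    cases n with
    | zero =>
      refine ⟨⊥, inferInstance, fun σ _ i j => ?_⟩
      simp
    | succ k =>
      have hB := testAlg (𝒪 := 𝒪) hlocR hresR k
      have h1 := (hdef _ _).mp
        (U.isDef_map (U.R ⧸ J U.R k) hB (Ideal.Quotient.mkₐ 𝒪 (J U.R k)))
      obtain ⟨-, hc, -⟩ := h1
      obtain ⟨L, hL, h2⟩ := hc (k + 1)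
      refine ⟨L, hL, fun σ hσ i j => ?_⟩
      have h3 := h2 σ hσ i j
      rw [maximalIdeal_quot_pow, Ideal.mem_bot] at h3
      have h4 : Ideal.Quotient.mk (J U.R k) ((U.ρ σ - 1) i j) = 0 := by
        rw [← h3]
        by_cases hij : i = j
        · subst hij
          simp [mapRep_apply, Matrix.sub_apply]
        · simp [mapRep_apply, Matrix.sub_apply, hij]
      exact Ideal.Quotient.eq_zero_iff_mem.mp h4
  have hType : 𝒟 (ofMat U.ρ hcR) := by
    rw [h𝒟.iff_forall_surjective hlocR hresR]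
    intro B _ _ _ hB q hq hsurj
    obtain ⟨-, hc, hD⟩ := (hdef _ _).mp (U.isDef_map B hB q)
    obtain ⟨e⟩ := W4 (q : U.R →+* B) hq U.ρ hcR hc
    exact h𝒟.of_isEquiv hB ⟨e.symm⟩ hD
  have hResid : (ofMat U.ρ hcR).residual.IsEquiv
      (ρbar.baseChangeAlong (IsLocalRing.ResidueField.map (algebraMap 𝒪 U.R))) := by
    refine W5 _ U.ρ hcR fun σ i j => ?_
    have h1 := U.lifts σ i j
    rw [hr] at h1
    rw [← residue_rtilde ρbar σ i j, IsLocalRing.ResidueField.map_residue]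
    exact Ideal.Quotient.eq.mpr h1
  refine ⟨{ R := U.R, residue_surjective := hresR, absIrr := habs, ρ := ofMat U.ρ hcR,
            isOfType := hType, residual_isEquiv := hResid, universal := ?_ }⟩
  intro A _ _ _ _ _ hlocA hresA ρA hDA hresidA
  obtain ⟨ρm, hcm, ⟨eA⟩, hlift⟩ := W1 hresA ρA hresidA
  have hη : ∀ n, P.IsDef (A ⧸ J A n) (mapRep (Ideal.Quotient.mk (J A n)) ρm) := by
    intro n
    rw [hdef]
    have hB := testAlg (𝒪 := 𝒪) hlocA hresA n
    have hcn : IsContMat (A ⧸ J A n) (mapRep (Ideal.Quotient.mk (J A n)) ρm) :=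
      W3 _ inferInstance ρm hcm
    refine ⟨fun σ i j => ?_, hcn, ?_⟩
    · have := (mk_mem_maximalIdeal_iff n _).mpr (hlift σ i j)
      simpa [mapRep_apply] using this
    · have h1 := (h𝒟.iff_forall_surjective hlocA hresA ρA).mp hDA hB
        (Ideal.Quotient.mkₐ 𝒪 (J A n)) (inferInstanceAs (IsLocalHom (Ideal.Quotient.mk (J A n))))
        Ideal.Quotient.mk_surjective
      obtain ⟨e2⟩ := W4 (Ideal.Quotient.mk (J A n)) inferInstance ρm hcm hcn
      exact h𝒟.of_isEquiv hB ⟨(GaloisRepAdic.Equiv.baseChangeAlong _ _ eA).trans e2⟩ h1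
  obtain ⟨φ, hφ, hφuniq⟩ := existsUnique_algHom U hlocA hresA ρm hη
  have hφloc : ∀ ψ : U.R →ₐ[𝒪] A, IsLocalHom (ψ : U.R →+* A) :=
    fun ψ => isLocalHom_of_algHom hlocA hresA ψ
  refine ⟨φ, ⟨hφloc φ, ?_⟩, ?_⟩
  · have hc' := W3 (φ : U.R →+* A) (hφloc φ) U.ρ hcR
    obtain ⟨e1⟩ := W4 (φ : U.R →+* A) (hφloc φ) U.ρ hcR hc'
    obtain ⟨X, hX1, hX2⟩ := hφ
    obtain ⟨e2⟩ := (W2 _ _ hc' hcm).mpr
      ⟨X, (Matrix.isUnit_iff_isUnit_det _).mpr (isUnit_det_of_sub_one_mem hX1), hX2⟩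
    exact ⟨e1.trans (e2.trans eA.symm)⟩
  · rintro φ' ⟨hφ', ⟨e⟩⟩
    apply hφuniq
    have hc' := W3 (φ' : U.R →+* A) hφ' U.ρ hcR
    obtain ⟨e1⟩ := W4 (φ' : U.R →+* A) hφ' U.ρ hcR hc'
    obtain ⟨X, hXu, hX⟩ := (W2 _ _ hc' hcm).mp ⟨e1.symm.trans (e.trans eA)⟩
    refine W6 hlocA hresA _ _ (fun σ i j => ?_) hlift X hXu hX
    have h1 := U.lifts σ i j
    rw [hr] at h1
    have h2 : (φ' : U.R →+* A) (U.ρ σ i j - algebraMap 𝒪 U.R (rtilde ρbar σ i j)) ∈
        maximalIdeal A := by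
      rw [mem_maximalIdeal, mem_nonunits_iff]
      intro hu
      exact (mem_nonunits_iff.mp h1) (hφ'.map_nonunit _ hu)
    simpa [mapRep_apply] using h2

end assembly

end Fermat.Agent.S53.Assembly
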