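import Fermat.Agent.S53.Rigid

set_option autoImplicit false

namespace Fermat.Agent.S53.LimLift

open GaloisRep Fermat.Agent.S53.Defs Fermat.Agent.S53.Rigid IsLocalRing

variable {𝒪 : Type} [CommRing 𝒪] {I : ℕ → Ideal (P 𝒪)} (L : LimData I)

/-- Every element of the limit ring is approximated by the image of `P` modulo `𝔪^(n+1)`. -/
theorem exists_sub_ι_mem (n : ℕ) (r : L.R) :
    ∃ x : P 𝒪, L.π n r = Ideal.Quotient.mk (I n) x ∧ r - L.ι x ∈ maximalIdeal L.R ^ (n + 1) := by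
  obtain ⟨x, hx⟩ := Ideal.Quotient.mk_surjective (L.π n r)
  refine ⟨x, hx.symm, ?_⟩
  rw [← L.ker_π n, RingHom.mem_ker, map_sub, L.π_ι, hx, sub_self]

theorem π_eq_zero_iff (n : ℕ) (r : L.R) : L.π n r = 0 ↔ r ∈ maximalIdeal L.R ^ (n + 1) := by
  rw [← L.ker_π n, RingHom.mem_ker]

theorem ι_mem_pow_iff (n : ℕ) (x : P 𝒪) : L.ι x ∈ maximalIdeal L.R ^ (n + 1) ↔ x ∈ I n := by
  rw [← π_eq_zero_iff, L.π_ι, Ideal.Quotient.eq_zero_iff_mem]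

/-- **(LL3)** An algebra map out of the limit ring killing `𝔪^(n+1)` factors through `P ⧸ I n`. -/
theorem exists_factor {B : Type} [CommRing B] [Algebra 𝒪 B] (u : L.R →ₐ[𝒪] B) (n : ℕ)
    (hu : ∀ r ∈ maximalIdeal L.R ^ (n + 1), u r = 0) :
    ∃ ū : (P 𝒪 ⧸ I n) →ₐ[𝒪] B, ∀ r, u r = ū (L.π n r) := by
  have hker : ∀ x ∈ I n, (u.comp L.ι) x = 0 := by
    intro x hx
    exact hu _ ((ι_mem_pow_iff L n x).mpr hx)
  refine ⟨Ideal.Quotient.liftₐ (I n) (u.comp L.ι) hker, fun r => ?_⟩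
  obtain ⟨x, hx, hmem⟩ := exists_sub_ι_mem L n r
  rw [hx]
  change u r = u (L.ι x)
  have := hu _ hmem
  rwa [map_sub, sub_eq_zero] at this

variable {A : Type} [CommRing A] [IsLocalRing A] [Algebra 𝒪 A]

omit [Algebra 𝒪 A] in
/-- **(LL2)** Two local algebra maps out of the limit ring into a Hausdorff local ring that
agree on the image of `P` are equal (ring-hom version). -/
theorem ringHom_ext [IsHausdorff (maximalIdeal A) A] (Φ Φ' : L.R →+* A)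
    (hΦ : ∀ r ∈ maximalIdeal L.R, Φ r ∈ maximalIdeal A)
    (hΦ' : ∀ r ∈ maximalIdeal L.R, Φ' r ∈ maximalIdeal A)
    (h : ∀ x, Φ (L.ι x) = Φ' (L.ι x)) : Φ = Φ' := by
  have hpow : ∀ (Ψ : L.R →+* A), (∀ r ∈ maximalIdeal L.R, Ψ r ∈ maximalIdeal A) →
      ∀ (n : ℕ) (r : L.R), r ∈ maximalIdeal L.R ^ n → Ψ r ∈ maximalIdeal A ^ n := by
    intro Ψ hΨ n r hr
    have hle : maximalIdeal L.R ≤ (maximalIdeal A).comap Ψ := fun x hx => hΨ x hx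
    have h2 : maximalIdeal L.R ^ n ≤ (maximalIdeal A ^ n).comap Ψ :=
      (Ideal.pow_right_mono hle n).trans (Ideal.le_comap_pow Ψ n)
    exact h2 hr
  ext r
  rw [← sub_eq_zero]
  refine IsHausdorff.haus (I := maximalIdeal A) ‹_› _ fun n => ?_
  rw [SModEq.zero, smul_eq_mul, Ideal.mul_top]
  obtain ⟨x, -, hmem⟩ := exists_sub_ι_mem L n r
  have h1 := hpow Φ hΦ (n + 1) _ hmem
  have h2 := hpow Φ' hΦ' (n + 1) _ hmem
  have e : Φ r - Φ' r = Φ (r - L.ι x) - Φ' (r - L.ι x) := by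
    rw [map_sub, map_sub, h x]; ring
  rw [e]
  exact Ideal.pow_le_pow_right (Nat.le_succ n) (Ideal.sub_mem _ h1 h2)

/-- **(LL2)** Algebra-hom version. -/
theorem algHom_ext [IsHausdorff (maximalIdeal A) A] (Φ Φ' : L.R →ₐ[𝒪] A)
    (hΦ : ∀ r ∈ maximalIdeal L.R, Φ r ∈ maximalIdeal A)
    (hΦ' : ∀ r ∈ maximalIdeal L.R, Φ' r ∈ maximalIdeal A)
    (h : ∀ x, Φ (L.ι x) = Φ' (L.ι x)) : Φ = Φ' := by
  have := ringHom_ext L (Φ : L.R →+* A) (Φ' : L.R →+* A) hΦ hΦ' h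
  exact AlgHom.ext fun r => congrArg (fun f : L.R →+* A => f r) this

/-- The level-`n` component of the lift. -/
noncomputable def liftLevel (ψ : P 𝒪 →ₐ[𝒪] A)
    (hψ : ∀ n, ∀ x ∈ I n, ψ x ∈ maximalIdeal A ^ (n + 1)) (n : ℕ) :
    L.R →ₐ[𝒪] A ⧸ maximalIdeal A ^ n :=
  (Ideal.Quotient.liftₐ (I n) ((Ideal.Quotient.mkₐ 𝒪 (maximalIdeal A ^ n)).comp ψ)
    (fun x hx => by
      rw [AlgHom.comp_apply, Ideal.Quotient.mkₐ_eq_mk, Ideal.Quotient.eq_zero_iff_mem]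
      exact Ideal.pow_le_pow_right (Nat.le_succ n) (hψ n x hx))).comp (L.π n)

theorem liftLevel_ι (ψ : P 𝒪 →ₐ[𝒪] A)
    (hψ : ∀ n, ∀ x ∈ I n, ψ x ∈ maximalIdeal A ^ (n + 1)) (n : ℕ) (x : P 𝒪) :
    liftLevel L ψ hψ n (L.ι x) = Ideal.Quotient.mk (maximalIdeal A ^ n) (ψ x) := by
  rw [liftLevel, AlgHom.comp_apply, L.π_ι]
  rfl

theorem liftLevel_eq (ψ : P 𝒪 →ₐ[𝒪] A)
    (hψ : ∀ n, ∀ x ∈ I n, ψ x ∈ maximalIdeal A ^ (n + 1)) (n : ℕ) (r : L.R) (x : P 𝒪)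
    (hx : r - L.ι x ∈ maximalIdeal L.R ^ (n + 1)) :
    liftLevel L ψ hψ n r = Ideal.Quotient.mk (maximalIdeal A ^ n) (ψ x) := by
  rw [← liftLevel_ι L ψ hψ n x, ← sub_eq_zero, ← map_sub]
  rw [liftLevel, AlgHom.comp_apply, (π_eq_zero_iff L n _).mpr hx, map_zero]

/-- **(LL1)** A map `ψ : P → A` into a complete local ring sending `I n` into `𝔪_A^(n+1)` for
all `n` extends to the limit ring. -/
theorem exists_lift [IsAdicComplete (maximalIdeal A) A] (ψ : P 𝒪 →ₐ[𝒪] A)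
    (hψ : ∀ n, ∀ x ∈ I n, ψ x ∈ maximalIdeal A ^ (n + 1)) :
    ∃ Φ : L.R →ₐ[𝒪] A, ∀ x, Φ (L.ι x) = ψ x := by
  have hcompat : ∀ {m n : ℕ} (hle : m ≤ n),
      (Ideal.Quotient.factorₐ 𝒪 (Ideal.pow_le_pow_right (I := maximalIdeal A) hle)).comp
        (liftLevel L ψ hψ n) = liftLevel L ψ hψ m := by
    intro m n hle
    ext r
    obtain ⟨x, -, hmem⟩ := exists_sub_ι_mem L n r
    have hmem' : r - L.ι x ∈ maximalIdeal L.R ^ (m + 1) :=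
      Ideal.pow_le_pow_right (Nat.succ_le_succ hle) hmem
    rw [AlgHom.comp_apply, liftLevel_eq L ψ hψ n r x hmem, liftLevel_eq L ψ hψ m r x hmem']
    rfl
  refine ⟨IsAdicComplete.liftAlgHom (maximalIdeal A) (liftLevel L ψ hψ) hcompat, fun x => ?_⟩
  rw [← sub_eq_zero]
  refine IsHausdorff.haus (I := maximalIdeal A) inferInstance _ fun n => ?_
  rw [SModEq.zero, smul_eq_mul, Ideal.mul_top, ← Ideal.Quotient.eq_zero_iff_mem, map_sub,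
    IsAdicComplete.mk_liftAlgHom, liftLevel_ι, sub_self]

end Fermat.Agent.S53.LimLift
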