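import Mathlib
import Fermat.Agent.S53.Rigid
import Fermat.Agent.S53.RigidBasic
import Fermat.Agent.S53.LegitKer
import Fermat.Agent.S53.LegitLattice
import Fermat.Agent.S53.LimLift
import Fermat.Agent.Lib.DefMat
import Fermat.Agent.Lib.DefRigidUniv

set_option autoImplicit false

namespace Fermat.Agent.S53.FinalB

open GaloisRep Fermat.Agent.S53.Defs Fermat.Agent.S53.Rigid Fermat.Agent.Lib.DefNormRep

/-! ### Quotients of a local ring -/

section quot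

variable {A : Type} [CommRing A] [IsLocalRing A]

theorem pow_succ_ne_top (n : ℕ) : IsLocalRing.maximalIdeal A ^ (n + 1) ≠ ⊤ := by
  intro h
  have h1 : IsLocalRing.maximalIdeal A ^ (n + 1) ≤ IsLocalRing.maximalIdeal A :=
    Ideal.pow_le_self (Nat.succ_ne_zero n)
  exact (IsLocalRing.maximalIdeal.isMaximal A).ne_top (top_le_iff.mp (h ▸ h1))

theorem isLocalRing_quot {J : Ideal A} (hJ : J ≠ ⊤) : IsLocalRing (A ⧸ J) := by
  haveI : Nontrivial (A ⧸ J) := Ideal.Quotient.nontrivial_iff.mpr hJ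
  exact IsLocalRing.of_surjective' (Ideal.Quotient.mk J) Ideal.Quotient.mk_surjective

theorem isUnit_of_isUnit_mk {J : Ideal A} (hJ : J ≠ ⊤) {a : A}
    (ha : IsUnit (Ideal.Quotient.mk J a)) : IsUnit a := by
  by_contra hna
  have hm : a ∈ IsLocalRing.maximalIdeal A := (IsLocalRing.mem_maximalIdeal a).mpr hna
  obtain ⟨q, hq⟩ := ha.exists_right_inv
  obtain ⟨b, rfl⟩ := Ideal.Quotient.mk_surjective q
  have h1 : a * b - 1 ∈ J := by
    rw [← Ideal.Quotient.eq, map_mul, hq, map_one]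
  have h2 : a * b - 1 ∈ IsLocalRing.maximalIdeal A := IsLocalRing.le_maximalIdeal hJ h1
  have h3 : (1 : A) ∈ IsLocalRing.maximalIdeal A := by
    have h4 := (IsLocalRing.maximalIdeal A).sub_mem
      ((IsLocalRing.maximalIdeal A).mul_mem_right b hm) h2
    simp at h4
  exact (IsLocalRing.maximalIdeal.isMaximal A).ne_top ((Ideal.eq_top_iff_one _).mpr h3)

theorem mk_mem_maximalIdeal {J : Ideal A} [IsLocalRing (A ⧸ J)] {a : A}
    (ha : a ∈ IsLocalRing.maximalIdeal A) :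
    Ideal.Quotient.mk J a ∈ IsLocalRing.maximalIdeal (A ⧸ J) := by
  rw [IsLocalRing.mem_maximalIdeal, mem_nonunits_iff]
  intro hu
  have hJ : J ≠ ⊤ := by
    intro h
    have : Nontrivial (A ⧸ J) := inferInstance
    exact (Ideal.Quotient.nontrivial_iff.mp this) h
  exact (IsLocalRing.mem_maximalIdeal a).mp ha (isUnit_of_isUnit_mk hJ hu)

theorem maximalIdeal_quot_pow (n : ℕ)
    [IsLocalRing (A ⧸ IsLocalRing.maximalIdeal A ^ (n + 1))] :
    IsLocalRing.maximalIdeal (A ⧸ IsLocalRing.maximalIdeal A ^ (n + 1)) ^ (n + 1) = ⊥ := by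
  have h1 : IsLocalRing.maximalIdeal (A ⧸ IsLocalRing.maximalIdeal A ^ (n + 1)) ≤
      (IsLocalRing.maximalIdeal A).map (Ideal.Quotient.mk (IsLocalRing.maximalIdeal A ^ (n + 1))) := by
    intro y hy
    obtain ⟨a, rfl⟩ := Ideal.Quotient.mk_surjective y
    refine Ideal.mem_map_of_mem _ ?_
    rw [IsLocalRing.mem_maximalIdeal, mem_nonunits_iff]
    intro hu
    exact (IsLocalRing.mem_maximalIdeal _).mp hy (hu.map _)
  rw [eq_bot_iff]
  calc IsLocalRing.maximalIdeal (A ⧸ IsLocalRing.maximalIdeal A ^ (n + 1)) ^ (n + 1)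
      ≤ ((IsLocalRing.maximalIdeal A).map
          (Ideal.Quotient.mk (IsLocalRing.maximalIdeal A ^ (n + 1)))) ^ (n + 1) :=
        Ideal.pow_right_mono h1 _
    _ = ⊥ := by rw [← Ideal.map_pow, Ideal.map_quotient_self]

variable {𝒪 : Type} [CommRing 𝒪] [IsLocalRing 𝒪] [Algebra 𝒪 A]

theorem testAlg_quot [IsNoetherianRing A] (hloc : IsLocalHom (algebraMap 𝒪 A))
    (hres : Function.Surjective (IsLocalRing.residue A ∘ algebraMap 𝒪 A)) (n : ℕ)
    [IsLocalRing (A ⧸ IsLocalRing.maximalIdeal A ^ (n + 1))] :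
    IsArtinianTestAlgebra 𝒪 (A ⧸ IsLocalRing.maximalIdeal A ^ (n + 1)) := by
  refine ⟨⟨fun c hc => ?_⟩, fun y => ?_, ?_⟩
  · have h1 : IsUnit (algebraMap 𝒪 A c) := isUnit_of_isUnit_mk (pow_succ_ne_top n) hc
    exact hloc.map_nonunit c h1
  · obtain ⟨q, rfl⟩ := IsLocalRing.residue_surjective y
    obtain ⟨a, rfl⟩ := Ideal.Quotient.mk_surjective q
    obtain ⟨c, hc⟩ := hres (IsLocalRing.residue A a)
    refine ⟨c, ?_⟩
    rw [Function.comp_apply] at hc ⊢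
    rw [← sub_eq_zero, ← map_sub, IsLocalRing.residue_eq_zero_iff] at hc ⊢
    exact mk_mem_maximalIdeal hc
  · exact (isArtinianRing_iff_isNilpotent_maximalIdeal _).mpr ⟨n + 1, maximalIdeal_quot_pow n⟩

/-- every `𝒪`-algebra map into a local `𝒪`-algebra whose residue field is generated by `𝒪`
is local. -/
theorem isLocalHom_of_algHom {R : Type} [CommRing R] [IsLocalRing R] [Algebra 𝒪 R]
    (hres : Function.Surjective (IsLocalRing.residue A ∘ algebraMap 𝒪 A)) (φ : R →ₐ[𝒪] A) :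
    IsLocalHom (φ : R →+* A) := by
  refine ⟨fun r hr => ?_⟩
  by_contra hnr
  have hm : r ∈ IsLocalRing.maximalIdeal R := (IsLocalRing.mem_maximalIdeal r).mpr hnr
  let κ : R →+* IsLocalRing.ResidueField A := (IsLocalRing.residue A).comp (φ : R →+* A)
  have hκ : Function.Surjective κ := by
    intro y
    obtain ⟨c, hc⟩ := hres y
    refine ⟨algebraMap 𝒪 R c, ?_⟩
    show IsLocalRing.residue A (φ (algebraMap 𝒪 R c)) = y
    rw [AlgHom.commutes]
    exact hc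
  have hker : RingHom.ker κ = IsLocalRing.maximalIdeal R :=
    IsLocalRing.eq_maximalIdeal (RingHom.ker_isMaximal_of_surjective κ hκ)
  have h0 : κ r = 0 := by
    rw [← RingHom.mem_ker, hker]
    exact hm
  have h1 : φ r ∈ IsLocalRing.maximalIdeal A := (IsLocalRing.residue_eq_zero_iff _).mp h0
  exact (IsLocalRing.mem_maximalIdeal _).mp h1 hr

end quot

variable {𝒪 : Type} [CommRing 𝒪] [IsDomain 𝒪] [IsDiscreteValuationRing 𝒪]
  [IsAdicComplete (IsLocalRing.maximalIdeal 𝒪) 𝒪] [Finite (IsLocalRing.ResidueField 𝒪)]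
  {ρbar : ResidualGaloisRep (IsLocalRing.ResidueField 𝒪)} (S : Setup ρbar)
  (𝒟 : ∀ ⦃A : Type⦄ [CommRing A] [IsLocalRing A] [Algebra 𝒪 A], GaloisRepAdic A → Prop)

/-! ### Consequences of legitimacy for the tautological matrices -/

section legit

variable {J : Ideal (P 𝒪)}

theorem legit_taut_one (h : Legit S 𝒟 J) : tautFun J 1 = 1 := by
  obtain ⟨_, ρ, hρ, -⟩ := h
  rw [← hρ, map_one]

theorem legit_taut_mul (h : Legit S 𝒟 J) (g g' : Γ) :
    tautFun J (g * g') = tautFun J g * tautFun J g' := by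
  obtain ⟨_, ρ, hρ, -⟩ := h
  rw [← hρ, ← hρ, ← hρ, map_mul]

theorem legit_col0 (h : Legit S 𝒟 J) : tautFun J S.D.σ 0 0 = 0 := by
  obtain ⟨_, ρ, hρ, -, hN, -⟩ := h
  rw [← hρ]
  exact hN.col0

theorem legit_col1 (h : Legit S 𝒟 J) : tautFun J S.D.σ 1 0 = 1 := by
  obtain ⟨_, ρ, hρ, -, hN, -⟩ := h
  rw [← hρ]
  exact hN.col1

theorem legit_entry (h : Legit S 𝒟 J) :
    tautFun J S.D.τ S.D.i S.D.j = algebraMap 𝒪 (P 𝒪 ⧸ J) S.c0 := by
  obtain ⟨_, ρ, hρ, -, hN, -⟩ := h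
  rw [← hρ]
  exact hN.entry

theorem legit_level (h : Legit S 𝒟 J) :
    ∃ L : IntermediateField ℚ (AlgebraicClosure ℚ), FiniteDimensional ℚ L ∧
      ∀ σ : Γ, (∀ x ∈ L, σ x = x) → tautFun J σ = 1 := by
  obtain ⟨hloc, ρ, hρ, hA, -, hc, -⟩ := h
  haveI := hloc
  haveI := hA.isArtinian
  obtain ⟨L, hL, h1⟩ := Fermat.Agent.S53.LegitLattice.exists_level_eq_one ρ hc
  exact ⟨L, hL, fun σ hσ => by rw [← hρ]; exact h1 σ hσ⟩

end legit

/-! ### The universal matrices over the limit ring -/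

section rep

variable {I : ℕ → Ideal (P 𝒪)} (L : LimData I)

/-- the universal matrices. -/
noncomputable def matR (g : Γ) : M2 L.R :=
  Matrix.of fun a b => L.ι (MvPolynomial.X (g, a, b))

theorem matR_map_π (n : ℕ) (g : Γ) :
    (matR L g).map ((L.π n : L.R →ₐ[𝒪] P 𝒪 ⧸ I n) : L.R →+* P 𝒪 ⧸ I n) = tautFun (I n) g := by
  ext a b
  rw [Matrix.map_apply]
  exact L.π_ι n _

theorem mat_ext {M N : M2 L.R}
    (h : ∀ n, M.map ((L.π n : L.R →ₐ[𝒪] P 𝒪 ⧸ I n) : L.R →+* P 𝒪 ⧸ I n) =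
      N.map ((L.π n : L.R →ₐ[𝒪] P 𝒪 ⧸ I n) : L.R →+* P 𝒪 ⧸ I n)) : M = N := by
  ext a b
  exact L.ext _ _ fun n => congrFun (congrFun (h n) a) b

/-- the universal representation. -/
noncomputable def rhoR (hI : ∀ n, Legit S 𝒟 (I n)) : Γ →* M2 L.R where
  toFun := matR L
  map_one' := mat_ext L fun n => by
    rw [matR_map_π, legit_taut_one S 𝒟 (hI n), Matrix.map_one _ (map_zero _) (map_one _)]
  map_mul' g g' := mat_ext L fun n => by
    rw [matR_map_π, Matrix.map_mul, matR_map_π, matR_map_π, legit_taut_mul S 𝒟 (hI n)]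

theorem rhoR_apply (hI : ∀ n, Legit S 𝒟 (I n)) (g : Γ) (a b : Fin 2) :
    rhoR S 𝒟 L hI g a b = L.ι (MvPolynomial.X (g, a, b)) := rfl

theorem isNLift_rhoR (hI : ∀ n, Legit S 𝒟 (I n)) (h0 : NN S ≤ I 0) :
    IsNLift S L.R (rhoR S 𝒟 L hI) := by
  refine ⟨fun g a b => ?_, ?_, ?_, ?_⟩
  · have h1 : rhoR S 𝒟 L hI g a b - algebraMap 𝒪 L.R (S.rt g a b) =
        L.ι (MvPolynomial.X (g, a, b) - algebraMap 𝒪 (P 𝒪) (S.rt g a b)) := by
      rw [map_sub, AlgHom.commutes, rhoR_apply]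
    have h2 := (Fermat.Agent.S53.LimLift.ι_mem_pow_iff L 0
      (MvPolynomial.X (g, a, b) - algebraMap 𝒪 (P 𝒪) (S.rt g a b))).mpr
      (h0 (Fermat.Agent.S53.LegitLattice.X_sub_mem_NN S g a b))
    rw [zero_add, pow_one] at h2
    rw [h1]
    exact h2
  · refine L.ext _ _ fun n => ?_
    rw [rhoR_apply, L.π_ι, map_zero]
    exact legit_col0 S 𝒟 (hI n)
  · refine L.ext _ _ fun n => ?_
    rw [rhoR_apply, L.π_ι, map_one]
    exact legit_col1 S 𝒟 (hI n)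
  · refine L.ext _ _ fun n => ?_
    rw [rhoR_apply, L.π_ι, AlgHom.commutes]
    exact legit_entry S 𝒟 (hI n)

theorem isContMat_rhoR (hI : ∀ n, Legit S 𝒟 (I n)) : IsContMat L.R (rhoR S 𝒟 L hI) := by
  intro n
  obtain ⟨L', hL', h1⟩ := legit_level S 𝒟 (hI n)
  refine ⟨L', hL', fun σ hσ i j => ?_⟩
  have h2 : (rhoR S 𝒟 L hI σ - 1) i j ∈ IsLocalRing.maximalIdeal L.R ^ (n + 1) := by
    rw [← Fermat.Agent.S53.LimLift.π_eq_zero_iff L n, Matrix.sub_apply, map_sub, rhoR_apply,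
      L.π_ι, Matrix.one_apply]
    have h3 : Ideal.Quotient.mk (I n) (MvPolynomial.X (σ, i, j)) = tautFun (I n) σ i j := rfl
    rw [h3, h1 σ hσ, Matrix.one_apply]
    split_ifs <;> simp
  exact Ideal.pow_le_pow_right (Nat.le_succ n) h2

theorem mapRep_π_rhoR (hI : ∀ n, Legit S 𝒟 (I n)) (n : ℕ) (g : Γ) :
    mapRep ((L.π n : L.R →ₐ[𝒪] P 𝒪 ⧸ I n) : L.R →+* P 𝒪 ⧸ I n) (rhoR S 𝒟 L hI) g =
      tautFun (I n) g := by
  rw [mapRep_apply]
  exact matR_map_π L n g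

theorem isOfType_rhoR (h𝒟 : GaloisRep.IsDeformationCondition 𝒪 𝒟)
    (hI : ∀ n, Legit S 𝒟 (I n)) (hc : IsContMat L.R (rhoR S 𝒟 L hI)) :
    𝒟 (ofMat (rhoR S 𝒟 L hI) hc) := by
  refine (h𝒟.iff_forall_surjective (inferInstance : IsLocalHom (algebraMap 𝒪 L.R))
    L.residue_surjective _).mpr ?_
  intro B _ _ _ hB q hq _
  haveI := hB.isArtinian
  obtain ⟨n, hn⟩ := Fermat.Agent.S53.RigidBasic.exists_maximalIdeal_pow_eq_bot B
  have hkill : ∀ r ∈ IsLocalRing.maximalIdeal L.R ^ (n + 1), q r = 0 := by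
    intro r hr
    have h1 := Fermat.Agent.Lib.DefMat.map_maximalIdeal_pow_le (q : L.R →+* B) hq (n + 1)
      (Ideal.mem_map_of_mem _ hr)
    have h2 := Ideal.pow_le_pow_right (Nat.le_succ n) h1
    rw [hn] at h2
    exact h2
  obtain ⟨qbar, hqbar⟩ := Fermat.Agent.S53.LimLift.exists_factor L q n hkill
  obtain ⟨hloc, ρ, hρ, hA, hND⟩ := hI n
  haveI := hloc
  obtain ⟨-, hcB, hDB⟩ := Fermat.Agent.S53.RigidBasic.IsND.map S 𝒟 h𝒟 hA hB qbar hND
  refine Fermat.Agent.S53.LegitLattice.D_baseChange_of_eq 𝒟 h𝒟 hB (q : L.R →+* B) hq _ hc _ hcB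
    ?_ hDB
  ext g : 1
  rw [mapRep_apply, mapRep_apply]
  ext a b
  rw [Matrix.map_apply, Matrix.map_apply, hρ g]
  show q (L.ι (MvPolynomial.X (g, a, b))) = qbar (Ideal.Quotient.mk (I n) (MvPolynomial.X (g, a, b)))
  rw [hqbar, L.π_ι]

end rep

/-- residual equivalence for a normalised lift. -/
theorem residual_of_isNLift {A : Type} [CommRing A] [IsLocalRing A] [Algebra 𝒪 A]
    [IsLocalHom (algebraMap 𝒪 A)] (ρ : Γ →* M2 A) (hc : IsContMat A ρ) (hN : IsNLift S A ρ) :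
    (ofMat ρ hc).residual.IsEquiv
      (ρbar.baseChangeAlong (IsLocalRing.ResidueField.map (algebraMap 𝒪 A))) := by
  refine Fermat.Agent.Lib.DefMat.ofMat_residual_isEquiv ρ hc ρbar S.D.b _ fun σ i j => ?_
  have h1 := hN.res σ i j
  rw [← IsLocalRing.residue_eq_zero_iff, map_sub, sub_eq_zero] at h1
  rw [h1, ← IsLocalRing.ResidueField.map_residue, S.hrt]
  rfl

/-! ### The universal property -/

section univ

variable {I : ℕ → Ideal (P 𝒪)} (L : LimData I)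

theorem universal_exists (h𝒟 : GaloisRep.IsDeformationCondition 𝒪 𝒟)
    (hI : ∀ n, Legit S 𝒟 (I n))
    (hmin : ∀ n J, Legit S 𝒟 J → NN S ^ (n + 1) ≤ J → I n ≤ J)
    (hc : IsContMat L.R (rhoR S 𝒟 L hI))
    {A : Type} [CommRing A] [IsLocalRing A] [IsNoetherianRing A]
    [IsAdicComplete (IsLocalRing.maximalIdeal A) A] [Algebra 𝒪 A] [IsLocalHom (algebraMap 𝒪 A)]
    (hres : Function.Surjective (IsLocalRing.residue A ∘ algebraMap 𝒪 A))
    (ρA : GaloisRepAdic A) (hDA : 𝒟 ρA)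
    (he : ρA.residual.IsEquiv
      (ρbar.baseChangeAlong (IsLocalRing.ResidueField.map (algebraMap 𝒪 A)))) :
    ∃ φ : L.R →ₐ[𝒪] A, ∃ hφ : IsLocalHom (φ : L.R →+* A),
      ((ofMat (rhoR S 𝒟 L hI) hc).baseChangeAlong (φ : L.R →+* A) hφ).IsEquiv ρA := by
  obtain ⟨ρm, hcm, hNm, hEq⟩ := Fermat.Agent.S53.RigidBasic.exists_isNLift S ρA he
  have hψ : ∀ n, ∀ x ∈ I n, ev (𝒪 := 𝒪) (fun g => ρm g) x ∈
      IsLocalRing.maximalIdeal A ^ (n + 1) := by
    intro n x hx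
    haveI hlocB : IsLocalRing (A ⧸ IsLocalRing.maximalIdeal A ^ (n + 1)) :=
      isLocalRing_quot (pow_succ_ne_top n)
    have hB : IsArtinianTestAlgebra 𝒪 (A ⧸ IsLocalRing.maximalIdeal A ^ (n + 1)) :=
      testAlg_quot inferInstance hres n
    let q : A →ₐ[𝒪] A ⧸ IsLocalRing.maximalIdeal A ^ (n + 1) := Ideal.Quotient.mkₐ 𝒪 _
    have hq : IsLocalHom (q : A →+* A ⧸ IsLocalRing.maximalIdeal A ^ (n + 1)) :=
      ⟨fun a ha => isUnit_of_isUnit_mk (pow_succ_ne_top n) ha⟩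
    have hqsurj : Function.Surjective q := Ideal.Quotient.mkₐ_surjective 𝒪 _
    have hcn : IsContMat _ (mapRep (q : A →+* A ⧸ IsLocalRing.maximalIdeal A ^ (n + 1)) ρm) :=
      Fermat.Agent.Lib.DefMat.isContMat_mapRep _ hq hcm
    have hNn : IsNLift S _ (mapRep (q : A →+* A ⧸ IsLocalRing.maximalIdeal A ^ (n + 1)) ρm) :=
      Fermat.Agent.S53.RigidBasic.IsNLift.map S q hq hNm
    have hDn : 𝒟 (ofMat (mapRep (q : A →+* A ⧸ IsLocalRing.maximalIdeal A ^ (n + 1)) ρm) hcn) := by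
      have h1 := (h𝒟.iff_forall_surjective (inferInstance : IsLocalHom (algebraMap 𝒪 A)) hres
        ρA).mp hDA hB q hq hqsurj
      obtain ⟨e⟩ := hEq
      obtain ⟨e''⟩ := Fermat.Agent.Lib.DefMat.ofMat_baseChangeAlong
        (q : A →+* A ⧸ IsLocalRing.maximalIdeal A ^ (n + 1)) hq ρm hcm hcn
      exact h𝒟.of_isEquiv hB
        ⟨(GaloisRepAdic.Equiv.baseChangeAlong
          (q : A →+* A ⧸ IsLocalRing.maximalIdeal A ^ (n + 1)) hq e).trans e''⟩ h1
    have hleg := Fermat.Agent.S53.LegitKer.legit_ker_ev S 𝒟 h𝒟 hB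
      (mapRep (q : A →+* A ⧸ IsLocalRing.maximalIdeal A ^ (n + 1)) ρm) ⟨hNn, hcn, hDn⟩
    have hpow := Fermat.Agent.S53.LegitKer.pow_le_ker_ev S hB
      (mapRep (q : A →+* A ⧸ IsLocalRing.maximalIdeal A ^ (n + 1)) ρm) hNn (n + 1)
      (maximalIdeal_quot_pow n)
    have hx' := hmin n _ hleg hpow hx
    have hev : ev (𝒪 := 𝒪)
        (fun g => mapRep (q : A →+* A ⧸ IsLocalRing.maximalIdeal A ^ (n + 1)) ρm g) =
        q.comp (ev (𝒪 := 𝒪) (fun g => ρm g)) := by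
      apply MvPolynomial.algHom_ext
      rintro ⟨g, a, b⟩
      rw [ev_X, AlgHom.comp_apply, ev_X, mapRep_apply, Matrix.map_apply]
      rfl
    rw [RingHom.mem_ker, hev, AlgHom.comp_apply] at hx'
    exact Ideal.Quotient.eq_zero_iff_mem.mp hx'
  obtain ⟨Φ, hΦ⟩ := Fermat.Agent.S53.LimLift.exists_lift L (ev (𝒪 := 𝒪) (fun g => ρm g)) hψ
  have hΦloc : IsLocalHom (Φ : L.R →+* A) := isLocalHom_of_algHom hres Φ
  have hmap : mapRep (Φ : L.R →+* A) (rhoR S 𝒟 L hI) = ρm := by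
    ext g : 1
    rw [mapRep_apply]
    ext a b
    rw [Matrix.map_apply]
    show Φ (L.ι (MvPolynomial.X (g, a, b))) = ρm g a b
    rw [hΦ, ev_X]
  refine ⟨Φ, hΦloc, ?_⟩
  subst hmap
  obtain ⟨e1⟩ := Fermat.Agent.Lib.DefMat.ofMat_baseChangeAlong (Φ : L.R →+* A) hΦloc
    (rhoR S 𝒟 L hI) hc hcm
  obtain ⟨e2⟩ := hEq
  exact ⟨e1.trans e2.symm⟩

end univ

/-- **R5** (backup implementation): the limit of the minimal legit ideals carries a universal
deformation. -/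
theorem final (habs : ρbar.IsAbsolutelyIrreducible)
    (h𝒟 : GaloisRep.IsDeformationCondition 𝒪 𝒟)
    (I : ℕ → Ideal (P 𝒪))
    (hI : ∀ n, Legit S 𝒟 (I n) ∧ NN S ^ (n + 1) ≤ I n)
    (hmin : ∀ n J, Legit S 𝒟 J → NN S ^ (n + 1) ≤ J → I n ≤ J)
    (L : LimData I) : Nonempty (GaloisRep.DeformationRingData 𝒪 ρbar 𝒟) := by
  have hI' : ∀ n, Legit S 𝒟 (I n) := fun n => (hI n).1
  have h0 : NN S ≤ I 0 := by
    have := (hI 0).2
    rwa [zero_add, pow_one] at this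
  have hN : IsNLift S L.R (rhoR S 𝒟 L hI') := isNLift_rhoR S 𝒟 L hI' h0
  have hc : IsContMat L.R (rhoR S 𝒟 L hI') := isContMat_rhoR S 𝒟 L hI'
  exact ⟨{ R := L.R
           residue_surjective := L.residue_surjective
           absIrr := habs
           ρ := ofMat (rhoR S 𝒟 L hI') hc
           isOfType := isOfType_rhoR S 𝒟 L h𝒟 hI' hc
           residual_isEquiv := residual_of_isNLift S (rhoR S 𝒟 L hI') hc hN
           universal := by
             intro A _ _ _ _ _ _ hres ρA hDA he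
             obtain ⟨φ, hφ, hEq⟩ := universal_exists S 𝒟 L h𝒟 hI' hmin hc hres ρA hDA he
             refine ⟨φ, ⟨hφ, hEq⟩, ?_⟩
             rintro ψ ⟨hψ, hEqψ⟩
             obtain ⟨e1⟩ := hEq
             obtain ⟨e2⟩ := hEqψ
             exact Fermat.Agent.Lib.DefRigidUniv.univ_unique S habs L (rhoR S 𝒟 L hI')
               (fun g a b => rfl) hN hc inferInstance hres ψ φ hψ hφ ⟨e2.trans e1.symm⟩ }⟩

end Fermat.Agent.S53.FinalB
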