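import Fermat.Agent.S53.Defs

/-!
# S53, work package WP3: gluing along fibre products

`glue` : the concrete deformation predicate `ConcIsDef` is compatible with fibre products of
Artinian test algebras (exact statement of the S53 skeleton).  The file is self-contained on top
of `Fermat.Agent.S53.Defs`: the one translation lemma it needs (`baseChangeAlong_ofMat_isEquiv`)
is proved here in this namespace.
-/

set_option autoImplicit false

open GaloisRep Fermat.Agent.S53.Defs
open scoped TensorProduct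

namespace Fermat.Agent.S53.Glue

/-- The maximal ideal of an Artinian local ring is nilpotent. -/
theorem isNilpotent_maximalIdeal (R : Type) [CommRing R] [IsLocalRing R] [IsArtinianRing R] :
    IsNilpotent (IsLocalRing.maximalIdeal R) := by
  have := IsArtinianRing.isNilpotent_jacobson_bot (R := R)
  rwa [IsLocalRing.jacobson_eq_maximalIdeal ⊥ bot_ne_top] at this

/-- A ring hom from an Artinian local ring to a nontrivial ring is local. -/
theorem isLocalHom_of_isArtinianRing {R S : Type} [CommRing R] [IsLocalRing R] [IsArtinianRing R]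
    [CommRing S] [Nontrivial S] (φ : R →+* S) : IsLocalHom φ := by
  refine ⟨fun x hx => ?_⟩
  by_contra hx'
  have hmem : x ∈ IsLocalRing.maximalIdeal R := (IsLocalRing.mem_maximalIdeal x).mpr hx'
  obtain ⟨n, hn⟩ := isNilpotent_maximalIdeal R
  have hxn : x ^ n = 0 := by
    have : x ^ n ∈ IsLocalRing.maximalIdeal R ^ n := Ideal.pow_mem_pow hmem n
    rw [hn] at this
    simpa using this
  have : IsUnit (φ x ^ n) := hx.pow n
  rw [← map_pow, hxn, map_zero] at this
  exact not_isUnit_zero this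

/-- Over an Artinian local ring a continuous matrix representation is trivial on an open
subgroup. -/
theorem exists_level_eq_one {A : Type} [CommRing A] [IsLocalRing A] [IsArtinianRing A]
    (ρ : Γ →* M2 A) (hc : IsContMat A ρ) :
    ∃ L : IntermediateField ℚ (AlgebraicClosure ℚ), FiniteDimensional ℚ L ∧
      ∀ σ : Γ, (∀ x ∈ L, σ x = x) → ρ σ = 1 := by
  obtain ⟨n, hn⟩ := isNilpotent_maximalIdeal A
  obtain ⟨L, hL, h1⟩ := hc n
  refine ⟨L, hL, fun σ hσ => ?_⟩
  ext i j
  have := h1 σ hσ i j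
  rw [hn] at this
  have h0 : (ρ σ - 1) i j = 0 := by simpa using this
  rw [Matrix.sub_apply, sub_eq_zero] at h0
  exact h0

/-- Conversely, a matrix representation that is trivial on an open subgroup is continuous. -/
theorem isContMat_of_level_eq_one {A : Type} [CommRing A] [IsLocalRing A] (ρ : Γ →* M2 A)
    (h : ∃ L : IntermediateField ℚ (AlgebraicClosure ℚ), FiniteDimensional ℚ L ∧
      ∀ σ : Γ, (∀ x ∈ L, σ x = x) → ρ σ = 1) : IsContMat A ρ := by
  obtain ⟨L, hL, h1⟩ := h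
  intro n
  refine ⟨L, hL, fun σ hσ i j => ?_⟩
  rw [h1 σ hσ, sub_self]
  exact Ideal.zero_mem _

/-- The identification `B ⊗[A] (Fin 2 → A) ≃ (Fin 2 → B)` intertwines the base change of the
linear map of a matrix with the linear map of the base-changed matrix. -/
theorem piScalarRight_baseChange {A B : Type} [CommRing A] [CommRing B] [Algebra A B]
    (M : Matrix (Fin 2) (Fin 2) A) (x : B ⊗[A] (Fin 2 → A)) :
    TensorProduct.piScalarRight A B B (Fin 2) ((Matrix.toLin' M).baseChange B x) =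
      (M.map (algebraMap A B)).mulVec (TensorProduct.piScalarRight A B B (Fin 2) x) := by
  induction x using TensorProduct.induction_on with
  | zero => simp only [map_zero, Matrix.mulVec_zero]
  | tmul b v =>
    rw [LinearMap.baseChange_tmul, TensorProduct.piScalarRight_apply,
      TensorProduct.piScalarRight_apply]
    ext i
    simp only [TensorProduct.piScalarRightHom_tmul, Matrix.toLin'_apply, Matrix.mulVec, dotProduct,
      Matrix.map_apply, Algebra.smul_def, map_sum, map_mul, Finset.sum_mul]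
    refine Finset.sum_congr rfl fun j _ => ?_
    ring
  | add x y hx hy => simp only [map_add, hx, hy, Matrix.mulVec_add]

/-- Base change of `ofMat ρ` is `ofMat` of the pushed-forward matrix representation
(same statement as WP1 `baseChangeAlong_ofMat_isEquiv`, proved here to keep this file
independent). -/
theorem baseChangeAlong_ofMat_isEquiv {A : Type} [CommRing A] [IsLocalRing A]
    {B : Type} [CommRing B] [IsLocalRing B] (φ : A →+* B)
    (hφ : IsLocalHom φ) (ρ : Γ →* M2 A) (hc : IsContMat A ρ) (hc' : IsContMat B (mapRep φ ρ)) :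
    ((ofMat ρ hc).baseChangeAlong φ hφ).IsEquiv (ofMat (mapRep φ ρ) hc') := by
  letI : Algebra A B := φ.toAlgebra
  exact ⟨⟨(TensorProduct.piScalarRight A B B (Fin 2) : B ⊗[A] (Fin 2 → A) ≃ₗ[B] (Fin 2 → B)),
    fun σ x => piScalarRight_baseChange (ρ σ) x⟩⟩

/-- `𝒟 (ofMat ρ hc)` does not depend on the continuity proof and transports along equalities. -/
theorem of_eq {𝒪 : Type} [CommRing 𝒪]
    (𝒟 : ∀ ⦃A : Type⦄ [CommRing A] [IsLocalRing A] [Algebra 𝒪 A], GaloisRepAdic A → Prop)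
    {A : Type} [CommRing A] [IsLocalRing A] [Algebra 𝒪 A] {ρ ρ' : Γ →* M2 A} (hρ : ρ' = ρ)
    (hc : IsContMat A ρ) (hc' : IsContMat A ρ') (d : 𝒟 (ofMat ρ hc)) : 𝒟 (ofMat ρ' hc') := by
  subst hρ
  exact d

section

variable (𝒪 : Type) [CommRing 𝒪] [IsDomain 𝒪] [IsDiscreteValuationRing 𝒪]
  [IsAdicComplete (IsLocalRing.maximalIdeal 𝒪) 𝒪] [Finite (IsLocalRing.ResidueField 𝒪)]
  (ρbar : ResidualGaloisRep (IsLocalRing.ResidueField 𝒪))
  (𝒟 : ∀ ⦃A : Type⦄ [CommRing A] [IsLocalRing A] [Algebra 𝒪 A], GaloisRepAdic A → Prop)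

set_option linter.unusedSectionVars false in
set_option linter.unusedVariables false in
/-- WP3 -/
theorem glue (h𝒟 : GaloisRep.IsDeformationCondition 𝒪 𝒟)
    {A B C : Type} [CommRing A] [IsLocalRing A] [Algebra 𝒪 A]
    [CommRing B] [IsLocalRing B] [Algebra 𝒪 B] [CommRing C] [IsLocalRing C] [Algebra 𝒪 C]
    (f : A →ₐ[𝒪] C) (g : B →ₐ[𝒪] C) [IsLocalRing ↥(FP f g)]
    (hA : IsArtinianTestAlgebra 𝒪 A) (hB : IsArtinianTestAlgebra 𝒪 B)
    (hC : IsArtinianTestAlgebra 𝒪 C) (hP : IsArtinianTestAlgebra 𝒪 ↥(FP f g))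
    (hg : Function.Surjective g)
    (ρA : Γ →* M2 A) (ρB : Γ →* M2 B)
    (h : mapRep (f : A →+* C) ρA = mapRep (g : B →+* C) ρB)
    (dA : ConcIsDef 𝒪 𝒟 (rtilde ρbar) A ρA) (dB : ConcIsDef 𝒪 𝒟 (rtilde ρbar) B ρB) :
    ConcIsDef 𝒪 𝒟 (rtilde ρbar) ↥(FP f g) (pairRep f g ρA ρB h) := by
  obtain ⟨lA, hcA, dA'⟩ := dA
  obtain ⟨lB, hcB, dB'⟩ := dB
  have iA := hA.isArtinian
  have iB := hB.isArtinian
  have iP := hP.isArtinian
  have hpA : IsLocalHom ((FP.fst f g : ↥(FP f g) →ₐ[𝒪] A) : ↥(FP f g) →+* A) :=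
    isLocalHom_of_isArtinianRing _
  have hpB : IsLocalHom ((FP.snd f g : ↥(FP f g) →ₐ[𝒪] B) : ↥(FP f g) →+* B) :=
    isLocalHom_of_isArtinianRing _
  have hmapA : mapRep ((FP.fst f g : ↥(FP f g) →ₐ[𝒪] A) : ↥(FP f g) →+* A)
      (pairRep f g ρA ρB h) = ρA := by
    ext σ i j
    rfl
  have hmapB : mapRep ((FP.snd f g : ↥(FP f g) →ₐ[𝒪] B) : ↥(FP f g) →+* B)
      (pairRep f g ρA ρB h) = ρB := by
    ext σ i j
    rfl
  -- continuity
  have hc : IsContMat ↥(FP f g) (pairRep f g ρA ρB h) := by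
    obtain ⟨LA, hLA, h1A⟩ := exists_level_eq_one ρA hcA
    obtain ⟨LB, hLB, h1B⟩ := exists_level_eq_one ρB hcB
    refine isContMat_of_level_eq_one _
      ⟨LA ⊔ LB, IntermediateField.finiteDimensional_sup LA LB, fun σ hσ => ?_⟩
    have hA1 : ρA σ = 1 := h1A σ fun x hx => hσ x ((le_sup_left : LA ≤ LA ⊔ LB) hx)
    have hB1 : ρB σ = 1 := h1B σ fun x hx => hσ x ((le_sup_right : LB ≤ LA ⊔ LB) hx)
    ext k l
    · show ρA σ k l = ((1 : M2 ↥(FP f g)) k l : A × B).1
      rw [hA1]
      by_cases hkl : k = l <;> simp [Matrix.one_apply, hkl]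
    · show ρB σ k l = ((1 : M2 ↥(FP f g)) k l : A × B).2
      rw [hB1]
      by_cases hkl : k = l <;> simp [Matrix.one_apply, hkl]
  refine ⟨fun σ i j => ?_, hc, ?_⟩
  · -- lifting condition
    rw [IsLocalRing.mem_maximalIdeal, mem_nonunits_iff]
    intro hu
    have hu' : IsUnit ((FP.fst f g) (pairRep f g ρA ρB h σ i j -
        algebraMap 𝒪 ↥(FP f g) (rtilde ρbar σ i j))) := hu.map (FP.fst f g)
    have hval : (FP.fst f g) (pairRep f g ρA ρB h σ i j -
        algebraMap 𝒪 ↥(FP f g) (rtilde ρbar σ i j)) =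
        ρA σ i j - algebraMap 𝒪 A (rtilde ρbar σ i j) := by
      rw [map_sub, AlgHom.commutes]
      rfl
    rw [hval] at hu'
    exact (IsLocalRing.mem_maximalIdeal _).mp (lA σ i j) hu'
  · -- the deformation condition
    refine h𝒟.of_fibreProduct hA hB hC hP f g (FP.fst f g) (FP.snd f g) hpA hpB ?_ ?_ ?_ ?_ ?_
    · ext x
      exact x.2
    · intro x y hxy
      exact Subtype.ext (Prod.ext (congrArg Prod.fst hxy) (congrArg Prod.snd hxy))
    · intro a b hab
      exact ⟨⟨(a, b), hab⟩, rfl, rfl⟩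
    · have hcA' : IsContMat A (mapRep ((FP.fst f g : ↥(FP f g) →ₐ[𝒪] A) : ↥(FP f g) →+* A)
          (pairRep f g ρA ρB h)) := by rw [hmapA]; exact hcA
      obtain ⟨e⟩ := baseChangeAlong_ofMat_isEquiv _ hpA (pairRep f g ρA ρB h) hc hcA'
      exact h𝒟.of_isEquiv hA ⟨e.symm⟩ (of_eq 𝒟 hmapA hcA hcA' dA')
    · have hcB' : IsContMat B (mapRep ((FP.snd f g : ↥(FP f g) →ₐ[𝒪] B) : ↥(FP f g) →+* B)
          (pairRep f g ρA ρB h)) := by rw [hmapB]; exact hcB
      obtain ⟨e⟩ := baseChangeAlong_ofMat_isEquiv _ hpB (pairRep f g ρA ρB h) hc hcB'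
      exact h𝒟.of_isEquiv hB ⟨e.symm⟩ (of_eq 𝒟 hmapB hcB hcB' dB')

end

end Fermat.Agent.S53.Glue
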