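import Mathlib
import Fermat.Prelude.Thm_IsLocalRing_isAdicComplete_of_module_finite
import Fermat.Agent.Lib.CompleteLocal
import Fermat.Agent.S53.AbstractRep

set_option autoImplicit false

namespace Fermat.Agent.S53.LimitRing

open IsLocalRing

section Abstract

variable {𝒪 : Type} [CommRing 𝒪]
variable {L : Type} [CommRing L] [IsLocalRing L] [IsNoetherianRing L]
  [IsAdicComplete (maximalIdeal L) L] [Algebra 𝒪 L]
variable {P : Type*} [CommRing P] [Algebra 𝒪 P]

/-- **Limit ring from compatible surjections.** Given a complete Noetherian local `𝒪`-algebra `L`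
and compatible surjections `e n : L → P ⧸ I n` onto an adic chain of quotients, the quotient of
`L` by the intersection of the kernels is a complete Noetherian local ring `R` with
`R ⧸ 𝔪_R ^ (n + 1) = P ⧸ I n`. -/
theorem exists_of_surjections
    (hloc : IsLocalHom (algebraMap 𝒪 L))
    (hres : Function.Surjective (residue L ∘ algebraMap 𝒪 L))
    (NN : Ideal P) [hNN : NN.IsMaximal]
    (I : ℕ → Ideal P) (hI0 : I 0 = NN) (hpow : ∀ n, NN ^ (n + 1) ≤ I n) (hanti : Antitone I)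
    (hchain : ∀ n N, n ≤ N → I n = I N ⊔ NN ^ (n + 1))
    (e : ∀ n, L →ₐ[𝒪] P ⧸ I n) (he : ∀ n, Function.Surjective (e n))
    (hcompat : ∀ n N (h : n ≤ N) (f : L), Ideal.Quotient.factor (hanti h) (e N f) = e n f) :
    ∃ (R : Type) (_ : CommRing R) (_ : IsLocalRing R) (_ : IsNoetherianRing R)
      (_ : IsAdicComplete (maximalIdeal R) R) (_ : Algebra 𝒪 R)
      (_ : IsLocalHom (algebraMap 𝒪 R))
      (ι : P →ₐ[𝒪] R) (π : ∀ n, R →ₐ[𝒪] P ⧸ I n),
      Function.Surjective (residue R ∘ algebraMap 𝒪 R) ∧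
      (∀ n, Function.Surjective (π n)) ∧
      (∀ n p, π n (ι p) = Ideal.Quotient.mk (I n) p) ∧
      (∀ n, RingHom.ker (π n : R →+* P ⧸ I n) = maximalIdeal R ^ (n + 1)) ∧
      (∀ r r' : R, (∀ n, π n r = π n r') → r = r') := by
  classical
  have hIle : ∀ n, I n ≤ NN := fun n => hI0 ▸ hanti (Nat.zero_le n)
  -- the maximal ideal of `P ⧸ I n`
  have h𝔫max : ∀ n, (NN.map (Ideal.Quotient.mk (I n))).IsMaximal := fun n =>
    Ideal.IsMaximal.map_of_surjective_of_ker_le Ideal.Quotient.mk_surjective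
      (by rw [Ideal.mk_ker]; exact hIle n)
  have h𝔫pow : ∀ n, NN.map (Ideal.Quotient.mk (I n)) ^ (n + 1) = ⊥ := fun n => by
    rw [← Ideal.map_pow]; exact Ideal.map_mk_eq_bot_of_le (hpow n)
  have hcomap : ∀ n, (NN.map (Ideal.Quotient.mk (I n))).comap (e n : L →+* P ⧸ I n) =
      maximalIdeal L := fun n =>
    haveI := h𝔫max n
    IsLocalRing.eq_maximalIdeal (Ideal.comap_isMaximal_of_surjective _ (he n))
  have hmap : ∀ n, (maximalIdeal L).map (e n : L →+* P ⧸ I n) =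
      NN.map (Ideal.Quotient.mk (I n)) := fun n => by
    rw [← hcomap n]; exact Ideal.map_comap_of_surjective _ (he n) _
  -- the kernels
  let J : ℕ → Ideal L := fun n => RingHom.ker (e n : L →+* P ⧸ I n)
  have hJmem : ∀ n f, f ∈ J n ↔ e n f = 0 := fun n f => Iff.rfl
  have hJanti : ∀ n N, n ≤ N → J N ≤ J n := by
    intro n N h f hf
    rw [hJmem] at hf ⊢
    rw [← hcompat n N h f, hf, map_zero]
  have hJpow : ∀ n, maximalIdeal L ^ (n + 1) ≤ J n := by
    intro n f hf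
    have h1 : (e n : L →+* P ⧸ I n) f ∈
        (maximalIdeal L ^ (n + 1)).map (e n : L →+* P ⧸ I n) := Ideal.mem_map_of_mem _ hf
    rw [Ideal.map_pow, hmap, h𝔫pow, Ideal.mem_bot] at h1
    exact h1
  have hJchain : ∀ n N, n ≤ N → J n ≤ J N ⊔ maximalIdeal L ^ (n + 1) := by
    intro n N h f hf
    rw [hJmem] at hf
    have h1 : e N f ∈ (I n).map (Ideal.Quotient.mk (I N)) := by
      have h0 : Ideal.Quotient.factor (hanti h) (e N f) = 0 := by rw [hcompat n N h f]; exact hf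
      obtain ⟨p, hp⟩ := Ideal.Quotient.mk_surjective (e N f)
      rw [← hp] at h0 ⊢
      rw [Ideal.Quotient.factor_mk, Ideal.Quotient.eq_zero_iff_mem] at h0
      exact Ideal.mem_map_of_mem _ h0
    rw [hchain n N h, Ideal.map_sup, Ideal.map_mk_eq_bot_of_le le_rfl, bot_sup_eq,
      Ideal.map_pow] at h1
    have h2 : (e N : L →+* P ⧸ I N) f ∈
        (maximalIdeal L ^ (n + 1)).map (e N : L →+* P ⧸ I N) := by
      rw [Ideal.map_pow, hmap]; exact h1
    obtain ⟨g, hg, hge⟩ := (Ideal.mem_map_iff_of_surjective _ (he N)).mp h2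
    have h3 : f - g ∈ J N := by
      rw [hJmem, map_sub, sub_eq_zero]; exact hge.symm
    have h4 : f = (f - g) + g := by ring
    rw [h4]
    exact Submodule.add_mem_sup h3 hg
  have hJ0 : J 0 ≠ ⊤ := by
    intro h
    have h1 : (1 : L) ∈ J 0 := h ▸ Submodule.mem_top
    rw [hJmem, map_one] at h1
    have h2 : (1 : P) ∈ I 0 := Ideal.Quotient.eq_zero_iff_mem.mp (by rw [map_one]; exact h1)
    exact hNN.ne_top ((Ideal.eq_top_iff_one _).mpr (hI0 ▸ h2))
  set Jinf : Ideal L := ⨅ n, J n with hJinf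
  have hJinf_le : ∀ n, Jinf ≤ J n := fun n => iInf_le J n
  -- Chevalley: the chain of kernels is adic modulo `Jinf`
  have hJeq : ∀ n, J n = Jinf ⊔ maximalIdeal L ^ (n + 1) := by
    intro n
    apply le_antisymm
    · obtain ⟨K, ⟨N, rfl⟩, hK, -⟩ := Fermat.Agent.Lib.CompleteLocal.chevalley (Set.range J)
        ⟨J 0, 0, rfl⟩ (by
          rintro _ ⟨a, rfl⟩ _ ⟨b, rfl⟩
          exact ⟨J (max a b), ⟨_, rfl⟩, le_inf (hJanti a _ (le_max_left a b))
            (hJanti b _ (le_max_right a b))⟩) (n + 1)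
      rw [sInf_range] at hK
      rcases le_total n N with h | h
      · exact (hJchain n N h).trans (sup_le hK le_sup_right)
      · exact (hJanti N n h).trans hK
    · exact sup_le (hJinf_le n) (hJpow n)
  have hJinf_ne : Jinf ≠ ⊤ := fun h => hJ0 (top_le_iff.mp (h ▸ hJinf_le 0))
  have : Nontrivial (L ⧸ Jinf) := Ideal.Quotient.nontrivial_iff.mpr hJinf_ne
  have hlocR : IsLocalRing (L ⧸ Jinf) :=
    IsLocalRing.of_surjective' (Ideal.Quotient.mk Jinf) Ideal.Quotient.mk_surjective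
  have hmkloc : IsLocalHom (Ideal.Quotient.mk Jinf) :=
    IsLocalHom.of_surjective _ Ideal.Quotient.mk_surjective
  have : IsLocalHom (algebraMap L (L ⧸ Jinf)) := hmkloc
  have hcompl : IsAdicComplete (maximalIdeal (L ⧸ Jinf)) (L ⧸ Jinf) :=
    IsLocalRing.isAdicComplete_of_module_finite (𝒪 := L)
  have := hloc
  have hlocO : IsLocalHom (algebraMap 𝒪 (L ⧸ Jinf)) := by
    rw [IsScalarTower.algebraMap_eq 𝒪 L (L ⧸ Jinf)]
    exact RingHom.isLocalHom_comp _ _
  have hmR : maximalIdeal (L ⧸ Jinf) = (maximalIdeal L).map (Ideal.Quotient.mk Jinf) :=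
    (IsLocalRing.map_maximalIdeal_of_surjective _ Ideal.Quotient.mk_surjective).symm
  -- projections
  let π : ∀ n, L ⧸ Jinf →ₐ[𝒪] P ⧸ I n := fun n =>
    Ideal.Quotient.liftₐ Jinf (e n) (fun a ha => hJinf_le n ha)
  have hπmk : ∀ n f, π n (Ideal.Quotient.mk Jinf f) = e n f := fun n f => rfl
  have hπsurj : ∀ n, Function.Surjective (π n) := fun n y => by
    obtain ⟨f, rfl⟩ := he n y
    exact ⟨Ideal.Quotient.mk Jinf f, hπmk n f⟩
  have hπker : ∀ n, RingHom.ker (π n : L ⧸ Jinf →+* P ⧸ I n) =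
      maximalIdeal (L ⧸ Jinf) ^ (n + 1) := by
    intro n
    ext r
    obtain ⟨f, rfl⟩ := Ideal.Quotient.mk_surjective r
    rw [RingHom.mem_ker, hmR, ← Ideal.map_pow]
    constructor
    · intro h
      have hf : f ∈ J n := h
      rw [hJeq n] at hf
      obtain ⟨a, ha, b, hb, rfl⟩ := Submodule.mem_sup.mp hf
      rw [map_add, Ideal.Quotient.eq_zero_iff_mem.mpr ha, zero_add]
      exact Ideal.mem_map_of_mem _ hb
    · intro h
      obtain ⟨g, hg, hge⟩ := (Ideal.mem_map_iff_of_surjective _ Ideal.Quotient.mk_surjective).mp h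
      rw [← hge]
      exact hJpow n hg
  have hext : ∀ r r' : L ⧸ Jinf, (∀ n, π n r = π n r') → r = r' := by
    intro r r' h
    obtain ⟨f, rfl⟩ := Ideal.Quotient.mk_surjective r
    obtain ⟨f', rfl⟩ := Ideal.Quotient.mk_surjective r'
    rw [Ideal.Quotient.eq, hJinf, Ideal.mem_iInf]
    intro n
    have h1 := h n
    rw [hπmk, hπmk] at h1
    rw [hJmem, map_sub, h1, sub_self]
  -- limits
  have hex : ∀ p : P, ∃ r : L ⧸ Jinf, ∀ n, π n r = Ideal.Quotient.mk (I n) p := by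
    intro p
    choose g hg using fun n => he n (Ideal.Quotient.mk (I n) p)
    have hprec := hcompl.toIsPrecomplete.prec' (fun n => Ideal.Quotient.mk Jinf (g n)) (by
      intro m n hmn
      rw [SModEq.sub_mem, smul_eq_mul, Ideal.mul_top]
      rcases Nat.eq_zero_or_pos m with rfl | hm
      · simp
      · obtain ⟨m', rfl⟩ := Nat.exists_eq_succ_of_ne_zero hm.ne'
        rw [← hπker m', RingHom.mem_ker, map_sub, sub_eq_zero]
        show e m' (g (m' + 1)) = e m' (g n)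
        rw [← hcompat m' (m' + 1) (Nat.le_succ m'), ← hcompat m' n (Nat.le_of_succ_le hmn),
          hg, hg, Ideal.Quotient.factor_mk, Ideal.Quotient.factor_mk])
    obtain ⟨r, hr⟩ := hprec
    refine ⟨r, fun n => ?_⟩
    have h1 := hr (n + 1)
    rw [SModEq.sub_mem, smul_eq_mul, Ideal.mul_top, ← hπker n, RingHom.mem_ker, map_sub,
      sub_eq_zero] at h1
    have h2 : π n (Ideal.Quotient.mk Jinf (g (n + 1))) = π n r := h1
    rw [← h2]
    show e n (g (n + 1)) = _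
    rw [← hcompat n (n + 1) (Nat.le_succ n), hg, Ideal.Quotient.factor_mk]
  choose ιf hιf using hex
  let ι : P →ₐ[𝒪] L ⧸ Jinf :=
    { toFun := ιf
      map_one' := hext _ _ fun n => by rw [hιf, map_one, map_one]
      map_mul' := fun p q => hext _ _ fun n => by rw [hιf, map_mul, map_mul, hιf, hιf]
      map_zero' := hext _ _ fun n => by rw [hιf, map_zero, map_zero]
      map_add' := fun p q => hext _ _ fun n => by rw [hιf, map_add, map_add, hιf, hιf]
      commutes' := fun c => hext _ _ fun n => by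
        rw [hιf, AlgHom.commutes]; rfl }
  refine ⟨L ⧸ Jinf, inferInstance, hlocR, inferInstance, hcompl, inferInstance, hlocO, ι, π, ?_,
    hπsurj, fun n p => hιf p n, hπker, hext⟩
  -- residue surjectivity
  intro y
  obtain ⟨r, rfl⟩ := IsLocalRing.residue_surjective y
  obtain ⟨f, rfl⟩ := Ideal.Quotient.mk_surjective r
  obtain ⟨c, hc⟩ := hres (residue L f)
  refine ⟨c, ?_⟩
  show residue (L ⧸ Jinf) (algebraMap 𝒪 (L ⧸ Jinf) c) =
    residue (L ⧸ Jinf) (Ideal.Quotient.mk Jinf f)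
  have h1 : algebraMap 𝒪 (L ⧸ Jinf) c = Ideal.Quotient.mk Jinf (algebraMap 𝒪 L c) := rfl
  rw [h1, ← IsLocalRing.ResidueField.map_residue (Ideal.Quotient.mk Jinf),
    ← IsLocalRing.ResidueField.map_residue (Ideal.Quotient.mk Jinf)]
  exact congrArg _ hc

end Abstract

section Generators

variable {𝒪 : Type*} [CommRing 𝒪] [IsLocalRing 𝒪]
variable {P : Type*} [CommRing P] [Algebra 𝒪 P]

/-- If `𝒪 → P ⧸ NN` is surjective and `𝔪_𝒪 P ≤ NN ≠ ⊤`, then `NN` is a maximal ideal. -/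
theorem isMaximal_of_surj (NN : Ideal P) (hNN : NN ≠ ⊤)
    (hsurj : ∀ x : P, ∃ c : 𝒪, x - algebraMap 𝒪 P c ∈ NN)
    (h𝔪 : (maximalIdeal 𝒪).map (algebraMap 𝒪 P) ≤ NN) : NN.IsMaximal := by
  rw [Ideal.isMaximal_iff]
  refine ⟨fun h => hNN ((Ideal.eq_top_iff_one _).mpr h), fun J x hJ hx hxJ => ?_⟩
  obtain ⟨c, hc⟩ := hsurj x
  have hcu : IsUnit c := by
    by_contra hcu
    have h1 : algebraMap 𝒪 P c ∈ NN :=
      h𝔪 (Ideal.mem_map_of_mem _ ((IsLocalRing.mem_maximalIdeal c).mpr hcu))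
    have h2 := NN.add_mem hc h1
    rw [sub_add_cancel] at h2
    exact hx h2
  have h1 : algebraMap 𝒪 P c ∈ J := by
    have h2 := J.sub_mem hxJ (hJ hc)
    rwa [sub_sub_cancel] at h2
  exact (Ideal.eq_top_iff_one _).mp (Ideal.eq_top_of_isUnit_mem _ h1 (hcu.map _))

/-- Generators of `NN` modulo `I ⊔ NN ^ 2 ⊔ 𝔪_𝒪 P` generate `P ⧸ I` as an `𝒪`-algebra, for
every `I` containing a power of `NN`. -/
theorem aeval_surjective (NN : Ideal P)
    (hsurj : ∀ x : P, ∃ c : 𝒪, x - algebraMap 𝒪 P c ∈ NN)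
    (h𝔪 : (maximalIdeal 𝒪).map (algebraMap 𝒪 P) ≤ NN)
    (I : Ideal P) (n : ℕ) (hI : NN ^ n ≤ I)
    {d : ℕ} (t : Fin d → P) (htNN : ∀ i, t i ∈ NN)
    (ht : ∀ x ∈ NN, ∃ i, x - t i ∈ I ⊔ NN ^ 2 ⊔ (maximalIdeal 𝒪).map (algebraMap 𝒪 P)) :
    Function.Surjective
      (MvPolynomial.aeval (fun i => Ideal.Quotient.mk I (t i)) :
        MvPolynomial (Fin d) 𝒪 →ₐ[𝒪] P ⧸ I) := by
  classical
  set 𝔪P : Ideal P := (IsLocalRing.maximalIdeal 𝒪).map (algebraMap 𝒪 P) with h𝔪P
  set φ : MvPolynomial (Fin d) 𝒪 →ₐ[𝒪] P ⧸ I :=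
    MvPolynomial.aeval (fun i => Ideal.Quotient.mk I (t i)) with hφ
  set 𝔫 : Ideal (P ⧸ I) := NN.map (Ideal.Quotient.mk I) with h𝔫
  have h𝔫pow : 𝔫 ^ n = ⊥ := by
    rw [h𝔫, ← Ideal.map_pow]
    exact Ideal.map_mk_eq_bot_of_le hI
  have halg : ∀ c : 𝒪, algebraMap 𝒪 (P ⧸ I) c = Ideal.Quotient.mk I (algebraMap 𝒪 P c) :=
    fun c => rfl
  have halg𝔫 : ∀ c ∈ IsLocalRing.maximalIdeal 𝒪, algebraMap 𝒪 (P ⧸ I) c ∈ 𝔫 := by
    intro c hc
    rw [halg]
    exact Ideal.mem_map_of_mem _ (h𝔪 (Ideal.mem_map_of_mem _ hc))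
  have hB : φ.range = ⊤ := by
    refine Fermat.Agent.S53.AbstractRep.subalgebra_eq_top_of_nilpotent φ.range 𝔫 n h𝔫pow ?_ ?_
    · intro y
      obtain ⟨x, rfl⟩ := Ideal.Quotient.mk_surjective y
      obtain ⟨c, hc⟩ := hsurj x
      refine ⟨algebraMap 𝒪 (P ⧸ I) c, Subalgebra.algebraMap_mem _ c, ?_⟩
      rw [halg, ← map_sub]
      exact Ideal.mem_map_of_mem _ hc
    · have h2a : ∀ c ∈ 𝔪P, ∃ b ∈ φ.range, b ∈ 𝔫 ∧ Ideal.Quotient.mk I c - b ∈ 𝔫 ^ 2 := by
        intro c hc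
        rw [h𝔪P, Ideal.map] at hc
        refine Submodule.span_induction ?_ ?_ ?_ ?_ hc
        · rintro _ ⟨m, hm, rfl⟩
          exact ⟨algebraMap 𝒪 (P ⧸ I) m, Subalgebra.algebraMap_mem _ m, halg𝔫 m hm,
            by rw [halg, sub_self]; exact Ideal.zero_mem _⟩
        · exact ⟨0, Subalgebra.zero_mem _, Ideal.zero_mem _, by simp⟩
        · rintro x y _ _ ⟨bx, hbx, hbx', hzx⟩ ⟨b_y, hby, hby', hzy⟩
          refine ⟨bx + b_y, Subalgebra.add_mem _ hbx hby, Ideal.add_mem _ hbx' hby', ?_⟩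
          have e : Ideal.Quotient.mk I (x + y) - (bx + b_y) =
              (Ideal.Quotient.mk I x - bx) + (Ideal.Quotient.mk I y - b_y) := by
            rw [map_add]; ring
          rw [e]; exact Ideal.add_mem _ hzx hzy
        · rintro p x _ ⟨bx, hbx, hbx', hzx⟩
          obtain ⟨c, hc⟩ := hsurj p
          refine ⟨algebraMap 𝒪 (P ⧸ I) c * bx,
            Subalgebra.mul_mem _ (Subalgebra.algebraMap_mem _ c) hbx,
            Ideal.mul_mem_left _ _ hbx', ?_⟩
          have hpc : Ideal.Quotient.mk I p - algebraMap 𝒪 (P ⧸ I) c ∈ 𝔫 := by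
            rw [halg, ← map_sub]; exact Ideal.mem_map_of_mem _ hc
          have e : Ideal.Quotient.mk I (p • x) - algebraMap 𝒪 (P ⧸ I) c * bx =
              Ideal.Quotient.mk I p * (Ideal.Quotient.mk I x - bx) +
                (Ideal.Quotient.mk I p - algebraMap 𝒪 (P ⧸ I) c) * bx := by
            rw [smul_eq_mul, map_mul]; ring
          rw [e]
          refine Ideal.add_mem _ (Ideal.mul_mem_left _ _ hzx) ?_
          rw [pow_two]; exact Ideal.mul_mem_mul hpc hbx'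
      intro y hy
      rw [h𝔫] at hy
      obtain ⟨x, hx, rfl⟩ :=
        (Ideal.mem_map_iff_of_surjective _ Ideal.Quotient.mk_surjective).mp hy
      obtain ⟨i, hmem⟩ := ht x hx
      obtain ⟨ab, hab, c, hc, habc⟩ := Submodule.mem_sup.mp hmem
      obtain ⟨a, ha, b, hb, hab'⟩ := Submodule.mem_sup.mp hab
      obtain ⟨bc, hbc, hbc', hzc⟩ := h2a c hc
      refine ⟨Ideal.Quotient.mk I (t i) + bc, Subalgebra.add_mem _ ⟨MvPolynomial.X i, ?_⟩ hbc,
        Ideal.add_mem _ (Ideal.mem_map_of_mem _ (htNN _)) hbc', ?_⟩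
      · exact MvPolynomial.aeval_X _ i
      · have e : Ideal.Quotient.mk I x - (Ideal.Quotient.mk I (t i) + bc) =
            Ideal.Quotient.mk I b + (Ideal.Quotient.mk I c - bc) := by
          have h0 : Ideal.Quotient.mk I a = 0 := Ideal.Quotient.eq_zero_iff_mem.mpr ha
          have h1 : Ideal.Quotient.mk I x - Ideal.Quotient.mk I (t i) =
              Ideal.Quotient.mk I a + Ideal.Quotient.mk I b + Ideal.Quotient.mk I c := by
            rw [← map_sub, ← habc, ← hab', map_add, map_add]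
          rw [h0, zero_add] at h1
          rw [sub_add_eq_sub_sub, h1]; ring
        rw [e]
        refine Ideal.add_mem _ ?_ hzc
        rw [h𝔫, ← Ideal.map_pow]
        exact Ideal.mem_map_of_mem _ hb
  intro y
  have : y ∈ φ.range := by rw [hB]; exact Algebra.mem_top
  exact this

end Generators

section Eval

variable {𝒪 : Type*} [CommRing 𝒪] {B : Type*} [CommRing B] [Algebra 𝒪 B] {d : ℕ}

/-- Polynomial evaluation at a tuple generating a nilpotent ideal kills high-degree terms. -/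
theorem aeval_eq_zero_of_mem (a : Fin d → B) (m : ℕ) (ha : Ideal.span (Set.range a) ^ m = ⊥)
    (q : MvPolynomial (Fin d) 𝒪) (hq : q ∈ MvPolynomial.idealOfVars (Fin d) 𝒪 ^ m) :
    (MvPolynomial.aeval a : MvPolynomial (Fin d) 𝒪 →ₐ[𝒪] B).toRingHom q = 0 := by
  have h1 : (MvPolynomial.idealOfVars (Fin d) 𝒪).map
      (MvPolynomial.aeval a : MvPolynomial (Fin d) 𝒪 →ₐ[𝒪] B).toRingHom ≤
        Ideal.span (Set.range a) := by
    rw [MvPolynomial.idealOfVars, Ideal.map_span, Ideal.span_le]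
    rintro _ ⟨_, ⟨i, rfl⟩, rfl⟩
    exact Ideal.subset_span ⟨i, (MvPolynomial.aeval_X a i).symm⟩
  have h2 : (MvPolynomial.aeval a : MvPolynomial (Fin d) 𝒪 →ₐ[𝒪] B).toRingHom q ∈
      ((MvPolynomial.idealOfVars (Fin d) 𝒪) ^ m).map
        (MvPolynomial.aeval a : MvPolynomial (Fin d) 𝒪 →ₐ[𝒪] B).toRingHom :=
    Ideal.mem_map_of_mem _ hq
  rw [Ideal.map_pow] at h2
  have h3 := Ideal.pow_right_mono h1 m h2
  rwa [ha, Ideal.mem_bot] at h3

/-- Evaluation of power series at a tuple generating a nilpotent ideal, as a ring hom. -/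
noncomputable def evalRingHom (a : Fin d → B) (m : ℕ)
    (ha : Ideal.span (Set.range a) ^ m = ⊥) : MvPowerSeries (Fin d) 𝒪 →+* B :=
  (Ideal.Quotient.lift (MvPolynomial.idealOfVars (Fin d) 𝒪 ^ m)
      (MvPolynomial.aeval a : MvPolynomial (Fin d) 𝒪 →ₐ[𝒪] B).toRingHom
      (aeval_eq_zero_of_mem a m ha)).comp
    (MvPowerSeries.truncTotalAlgHom (Fin d) 𝒪 m).toRingHom

theorem evalRingHom_apply (a : Fin d → B) (m : ℕ) (ha : Ideal.span (Set.range a) ^ m = ⊥)
    (f : MvPowerSeries (Fin d) 𝒪) :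
    evalRingHom a m ha f = MvPolynomial.aeval a (MvPowerSeries.truncTotal m f) := rfl

theorem evalRingHom_coe (a : Fin d → B) (m : ℕ) (ha : Ideal.span (Set.range a) ^ m = ⊥)
    (p : MvPolynomial (Fin d) 𝒪) :
    evalRingHom a m ha (p : MvPowerSeries (Fin d) 𝒪) = MvPolynomial.aeval a p := by
  rw [evalRingHom_apply]
  have h1 : MvPowerSeries.truncTotal m (p : MvPowerSeries (Fin d) 𝒪) - p ∈
      MvPolynomial.idealOfVars (Fin d) 𝒪 ^ m := by
    rw [MvPolynomial.mem_pow_idealOfVars_iff']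
    intro x hx
    rw [MvPolynomial.coeff_sub, MvPowerSeries.coeff_truncTotal _ hx, MvPolynomial.coeff_coe,
      sub_self]
  have h := aeval_eq_zero_of_mem a m ha _ h1
  rw [map_sub, sub_eq_zero] at h
  exact h

/-- Evaluation of power series at a tuple generating a nilpotent ideal, as an algebra hom. -/
noncomputable def evalNil (a : Fin d → B) (m : ℕ)
    (ha : Ideal.span (Set.range a) ^ m = ⊥) : MvPowerSeries (Fin d) 𝒪 →ₐ[𝒪] B :=
  { evalRingHom a m ha with
    commutes' := fun c => by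
      have h1 : algebraMap 𝒪 (MvPowerSeries (Fin d) 𝒪) c =
          ((MvPolynomial.C c : MvPolynomial (Fin d) 𝒪) : MvPowerSeries (Fin d) 𝒪) := by
        rw [MvPolynomial.coe_C, MvPowerSeries.algebraMap_apply]; rfl
      show evalRingHom a m ha _ = _
      rw [h1, evalRingHom_coe, MvPolynomial.aeval_C] }

theorem evalNil_apply (a : Fin d → B) (m : ℕ) (ha : Ideal.span (Set.range a) ^ m = ⊥)
    (f : MvPowerSeries (Fin d) 𝒪) :
    evalNil a m ha f = MvPolynomial.aeval a (MvPowerSeries.truncTotal m f) := rfl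

theorem evalNil_coe (a : Fin d → B) (m : ℕ) (ha : Ideal.span (Set.range a) ^ m = ⊥)
    (p : MvPolynomial (Fin d) 𝒪) :
    evalNil a m ha (p : MvPowerSeries (Fin d) 𝒪) = MvPolynomial.aeval a p :=
  evalRingHom_coe a m ha p

theorem aeval_truncTotal_of_le (a : Fin d → B) (m m' : ℕ)
    (ha : Ideal.span (Set.range a) ^ m = ⊥) (h : m ≤ m') (f : MvPowerSeries (Fin d) 𝒪) :
    MvPolynomial.aeval a (MvPowerSeries.truncTotal m' f) =
      MvPolynomial.aeval a (MvPowerSeries.truncTotal m f) := by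
  have h1 := aeval_eq_zero_of_mem a m ha _
    (MvPowerSeries.truncTotal_sub_truncTotal_mem_pow_idealOfVars h le_rfl f)
  rw [map_sub, sub_eq_zero] at h1
  exact h1

end Eval

section Main

variable {𝒪 : Type} [CommRing 𝒪] [IsLocalRing 𝒪] [IsNoetherianRing 𝒪]
  [IsAdicComplete (maximalIdeal 𝒪) 𝒪]
variable {P : Type*} [CommRing P] [Algebra 𝒪 P]

/-- **Limit ring.** From an adic chain of ideals `I n` of an `𝒪`-algebra `P` with finite
quotients (as produced by `AbstractRep.exists_min_chain`), construct a complete Noetherian local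
`𝒪`-algebra `R` with `R ⧸ 𝔪_R ^ (n + 1) = P ⧸ I n`. -/
theorem exists_limit_ring (NN : Ideal P) (hNN : NN ≠ ⊤)
    (hsurj : ∀ x : P, ∃ c : 𝒪, x - algebraMap 𝒪 P c ∈ NN)
    (h𝔪 : (maximalIdeal 𝒪).map (algebraMap 𝒪 P) ≤ NN)
    (I : ℕ → Ideal P) (hI0 : I 0 = NN) (hfin : ∀ n, Finite (P ⧸ I n))
    (hpow : ∀ n, NN ^ (n + 1) ≤ I n) (hanti : Antitone I)
    (hchain : ∀ n N, n ≤ N → I n = I N ⊔ NN ^ (n + 1)) :
    ∃ (R : Type) (_ : CommRing R) (_ : IsLocalRing R) (_ : IsNoetherianRing R)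
      (_ : IsAdicComplete (maximalIdeal R) R) (_ : Algebra 𝒪 R)
      (_ : IsLocalHom (algebraMap 𝒪 R))
      (ι : P →ₐ[𝒪] R) (π : ∀ n, R →ₐ[𝒪] P ⧸ I n),
      Function.Surjective (residue R ∘ algebraMap 𝒪 R) ∧
      (∀ n, Function.Surjective (π n)) ∧
      (∀ n p, π n (ι p) = Ideal.Quotient.mk (I n) p) ∧
      (∀ n, RingHom.ker (π n : R →+* P ⧸ I n) = maximalIdeal R ^ (n + 1)) ∧
      (∀ r r' : R, (∀ n, π n r = π n r') → r = r') := by
  classical
  have hmax : NN.IsMaximal := isMaximal_of_surj NN hNN hsurj h𝔪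
  set 𝔪P : Ideal P := (maximalIdeal 𝒪).map (algebraMap 𝒪 P) with h𝔪P
  set Jt : Ideal P := I 1 ⊔ 𝔪P with hJt
  have hfin1 : Finite (P ⧸ I 1) := hfin 1
  have hfinJ : Finite (P ⧸ Jt) :=
    Finite.of_surjective _ (Ideal.Quotient.factor_surjective (le_sup_left : I 1 ≤ Jt))
  obtain ⟨d, ⟨eq⟩⟩ := Finite.exists_equiv_fin (P ⧸ Jt)
  -- representatives in `NN`
  have hs : ∀ c : P ⧸ Jt, ∃ x : P, x ∈ NN ∧ ((∃ x' ∈ NN, Ideal.Quotient.mk Jt x' = c) →
      Ideal.Quotient.mk Jt x = c) := by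
    intro c
    by_cases h : ∃ x' ∈ NN, Ideal.Quotient.mk Jt x' = c
    · obtain ⟨x', hx', hx'c⟩ := h
      exact ⟨x', hx', fun _ => hx'c⟩
    · exact ⟨0, NN.zero_mem, fun h' => absurd h' h⟩
  choose s hsNN hsmk using hs
  let t : Fin d → P := fun i => s (eq.symm i)
  have htNN : ∀ i, t i ∈ NN := fun i => hsNN _
  have ht : ∀ x ∈ NN, ∃ i, x - t i ∈ Jt := by
    intro x hx
    refine ⟨eq (Ideal.Quotient.mk Jt x), ?_⟩
    have h1 := hsmk (eq.symm (eq (Ideal.Quotient.mk Jt x)))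
      ⟨x, hx, (eq.symm_apply_apply _).symm⟩
    rw [← Ideal.Quotient.eq_zero_iff_mem, map_sub, h1, eq.symm_apply_apply, sub_self]
  have hJtle : ∀ n, Jt ≤ I n ⊔ NN ^ 2 ⊔ 𝔪P := by
    intro n
    refine sup_le (le_sup_of_le_left ?_) le_sup_right
    rcases Nat.eq_zero_or_pos n with rfl | hn
    · exact le_sup_of_le_left (hanti (Nat.zero_le 1))
    · rw [hchain 1 n hn]
  -- the evaluation points
  let a : ∀ n, Fin d → P ⧸ I n := fun n i => Ideal.Quotient.mk (I n) (t i)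
  have ha : ∀ n, Ideal.span (Set.range (a n)) ^ (n + 1) = ⊥ := by
    intro n
    have h1 : Ideal.span (Set.range (a n)) ≤ NN.map (Ideal.Quotient.mk (I n)) := by
      rw [Ideal.span_le]
      rintro _ ⟨i, rfl⟩
      exact Ideal.mem_map_of_mem _ (htNN i)
    have h2 := Ideal.pow_right_mono h1 (n + 1)
    rw [← Ideal.map_pow, Ideal.map_mk_eq_bot_of_le (hpow n)] at h2
    exact le_bot_iff.mp h2
  let e : ∀ n, MvPowerSeries (Fin d) 𝒪 →ₐ[𝒪] P ⧸ I n := fun n =>
    evalNil (a n) (n + 1) (ha n)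
  have he : ∀ n, Function.Surjective (e n) := by
    intro n y
    obtain ⟨q, rfl⟩ := aeval_surjective NN hsurj h𝔪 (I n) (n + 1) (hpow n) t htNN
      (fun x hx => (ht x hx).imp fun i hi => hJtle n hi) y
    exact ⟨(q : MvPowerSeries (Fin d) 𝒪), evalNil_coe _ _ _ q⟩
  have hcompat : ∀ n N (h : n ≤ N) (f : MvPowerSeries (Fin d) 𝒪),
      Ideal.Quotient.factor (hanti h) (e N f) = e n f := by
    intro n N h f
    have h1 : (Ideal.Quotient.factorₐ 𝒪 (hanti h)).comp (MvPolynomial.aeval (a N)) =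
        MvPolynomial.aeval (a n) := by
      apply MvPolynomial.algHom_ext
      intro i
      rw [AlgHom.comp_apply, MvPolynomial.aeval_X, MvPolynomial.aeval_X]
      rfl
    have h2 := DFunLike.congr_fun h1 (MvPowerSeries.truncTotal (N + 1) f)
    rw [AlgHom.comp_apply] at h2
    show Ideal.Quotient.factor (hanti h)
      (MvPolynomial.aeval (a N) (MvPowerSeries.truncTotal (N + 1) f)) =
        MvPolynomial.aeval (a n) (MvPowerSeries.truncTotal (n + 1) f)
    rw [← aeval_truncTotal_of_le (a n) (n + 1) (N + 1) (ha n) (Nat.succ_le_succ h) f, ← h2]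
    rfl
  have := Fermat.Agent.Lib.CompleteLocal.isAdicComplete_mvPowerSeries_fin 𝒪 d
  have hloc : IsLocalHom (algebraMap 𝒪 (MvPowerSeries (Fin d) 𝒪)) := ⟨fun c hc => by
    rw [MvPowerSeries.algebraMap_apply, MvPowerSeries.isUnit_iff_constantCoeff,
      MvPowerSeries.constantCoeff_C] at hc
    exact hc⟩
  have hres : Function.Surjective (residue (MvPowerSeries (Fin d) 𝒪) ∘
      algebraMap 𝒪 (MvPowerSeries (Fin d) 𝒪)) := by
    intro y
    obtain ⟨f, rfl⟩ := IsLocalRing.residue_surjective y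
    refine ⟨MvPowerSeries.constantCoeff f, ?_⟩
    show residue _ (algebraMap 𝒪 _ (MvPowerSeries.constantCoeff f)) = residue _ f
    rw [← sub_eq_zero, ← map_sub, IsLocalRing.residue_eq_zero_iff, IsLocalRing.mem_maximalIdeal,
      mem_nonunits_iff, MvPowerSeries.isUnit_iff_constantCoeff, map_sub,
      MvPowerSeries.algebraMap_apply, MvPowerSeries.constantCoeff_C]
    simp
  exact exists_of_surjections hloc hres NN I hI0 hpow hanti hchain e he hcompat

end Main

end Fermat.Agent.S53.LimitRing
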