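import Fermat.Agent.S53.Defs

set_option autoImplicit false
open GaloisRep Fermat.Agent.S53.Defs
open scoped TensorProduct

namespace Fermat.Agent.S53.Schur

section commutant

variable {𝒪 : Type} [CommRing 𝒪] [IsLocalRing 𝒪]
  (ρbar : ResidualGaloisRep (IsLocalRing.ResidueField 𝒪))

/-- A `2 × 2` matrix is scalar as soon as its off-diagonal entries vanish and the diagonal
entries agree. -/
theorem eq_scalar_of_entries {R : Type} [CommRing R] (X : M2 R) (h01 : X 0 1 = 0)
    (h10 : X 1 0 = 0) (h11 : X 1 1 = X 0 0) : X = Matrix.scalar (Fin 2) (X 0 0) := by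
  ext i j
  fin_cases i <;> fin_cases j <;> simp [h01, h10, h11]

theorem rbar_commutant (habs : ρbar.IsAbsolutelyIrreducible)
    (X : M2 (IsLocalRing.ResidueField 𝒪))
    (hX : ∀ σ, X * rbarMat ρbar σ = rbarMat ρbar σ * X) :
    ∃ c : IsLocalRing.ResidueField 𝒪, X = Matrix.scalar (Fin 2) c := by
  classical
  let k := IsLocalRing.ResidueField 𝒪
  let K := AlgebraicClosure k
  let b := rbarBasis ρbar
  -- the endomorphism
  let T : ρbar.V →ₗ[k] ρbar.V := Matrix.toLin b b X
  have hTcomm : ∀ σ, T ∘ₗ ρbar.ρ σ = ρbar.ρ σ ∘ₗ T := by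
    intro σ
    have h := congrArg (Matrix.toLin b b) (hX σ)
    rw [Matrix.toLin_mul b b b, Matrix.toLin_mul b b b, rbarMat_apply, Matrix.toLin_toMatrix] at h
    exact h
  let T' : K ⊗[k] ρbar.V →ₗ[K] K ⊗[k] ρbar.V := T.baseChange K
  have hT'comm : ∀ σ, T' ∘ₗ (ρbar.ρ σ).baseChange K = (ρbar.ρ σ).baseChange K ∘ₗ T' := by
    intro σ
    rw [← LinearMap.baseChange_comp, ← LinearMap.baseChange_comp, hTcomm]
  have hfr : Module.finrank K (K ⊗[k] ρbar.V) = 2 := by
    rw [Module.finrank_baseChange, ρbar.finrank_eq]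
  have : Nontrivial (K ⊗[k] ρbar.V) :=
    Module.nontrivial_of_finrank_pos (R := K) (by rw [hfr]; norm_num)
  obtain ⟨μ, hμ⟩ := Module.End.exists_eigenvalue T'
  have hW : Module.End.eigenspace T' μ = ⊤ := by
    have h := habs (Module.End.eigenspace T' μ) (by
      intro σ x hx
      rw [Module.End.mem_eigenspace_iff] at hx ⊢
      have h1 := LinearMap.congr_fun (hT'comm σ) x
      simp only [LinearMap.comp_apply] at h1
      show T' ((ρbar.ρ σ).baseChange K x) = μ • (ρbar.ρ σ).baseChange K x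
      rw [h1, hx, map_smul])
    rcases h with h | h
    · exact absurd h hμ
    · exact h
  have hT' : ∀ x, T' x = μ • x := fun x => by
    have : x ∈ Module.End.eigenspace T' μ := hW ▸ Submodule.mem_top
    exact Module.End.mem_eigenspace_iff.mp this
  have hmat : X.map (algebraMap k K) = Matrix.scalar (Fin 2) μ := by
    have h1 := LinearMap.toMatrix_baseChange (A := K) T b b
    rw [LinearMap.toMatrix_toLin] at h1
    rw [← h1]
    ext i j
    rw [LinearMap.toMatrix_apply, hT', map_smul, Module.Basis.repr_self]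
    simp [Matrix.diagonal_apply, Finsupp.single_apply, eq_comm]
  have hinj : Function.Injective (algebraMap k K) := (algebraMap k K).injective
  have e := fun i j => congrFun (congrFun hmat i) j
  refine ⟨X 0 0, eq_scalar_of_entries X (hinj ?_) (hinj ?_) (hinj ?_)⟩
  · have := e 0 1
    simpa using this
  · have := e 1 0
    simpa using this
  · have h1 := e 1 1
    have h0 := e 0 0
    simp at h1 h0
    rw [h1, h0]

end commutant

section residue

variable {𝒪 : Type} [CommRing 𝒪] [IsLocalRing 𝒪]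
  (ρbar : ResidualGaloisRep (IsLocalRing.ResidueField 𝒪))
variable {A : Type} [CommRing A] [IsLocalRing A] [Algebra 𝒪 A]

/-- Commutant of the reduction of a lift of `rtilde`: only scalars. -/
theorem commutant_residue (habs : ρbar.IsAbsolutelyIrreducible)
    (hloc : IsLocalHom (algebraMap 𝒪 A))
    (hres : Function.Surjective (IsLocalRing.residue A ∘ algebraMap 𝒪 A))
    (ρ : Γ → M2 A)
    (hl : ∀ σ i j, ρ σ i j - algebraMap 𝒪 A (rtilde ρbar σ i j) ∈ IsLocalRing.maximalIdeal A)
    (W : M2 (IsLocalRing.ResidueField A))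
    (hW : ∀ σ, W * (ρ σ).map (IsLocalRing.residue A) = (ρ σ).map (IsLocalRing.residue A) * W) :
    ∃ c : IsLocalRing.ResidueField A, W = Matrix.scalar (Fin 2) c := by
  have := hloc
  let ψ : IsLocalRing.ResidueField 𝒪 →+* IsLocalRing.ResidueField A :=
    IsLocalRing.ResidueField.map (algebraMap 𝒪 A)
  have hψ : ∀ x : 𝒪, ψ (IsLocalRing.residue 𝒪 x) = IsLocalRing.residue A (algebraMap 𝒪 A x) :=
    fun x => IsLocalRing.ResidueField.map_residue (algebraMap 𝒪 A) x
  have hψinj : Function.Injective ψ := ψ.injective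
  -- lift `W` to a matrix over the residue field of `𝒪`
  choose y hy using fun i j => hres (W i j)
  let Y : M2 (IsLocalRing.ResidueField 𝒪) := Matrix.of fun i j => IsLocalRing.residue 𝒪 (y i j)
  have hY : Y.map ψ = W := by
    ext i j
    simp only [Matrix.map_apply, Y, Matrix.of_apply, hψ]
    exact hy i j
  have hρ : ∀ σ, (rbarMat ρbar σ).map ψ = (ρ σ).map (IsLocalRing.residue A) := by
    intro σ
    ext i j
    simp only [Matrix.map_apply]
    rw [← residue_rtilde, hψ]
    symm
    rw [← sub_eq_zero, ← map_sub, IsLocalRing.residue_eq_zero_iff]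
    exact hl σ i j
  have hcomm : ∀ σ, Y * rbarMat ρbar σ = rbarMat ρbar σ * Y := by
    intro σ
    apply Matrix.map_injective hψinj
    show (Y * rbarMat ρbar σ).map ψ = (rbarMat ρbar σ * Y).map ψ
    rw [Matrix.map_mul, Matrix.map_mul, hY, hρ, hW]
  obtain ⟨c, hc⟩ := rbar_commutant ρbar habs Y hcomm
  refine ⟨ψ c, ?_⟩
  rw [← hY, hc]
  ext i j
  fin_cases i <;> fin_cases j <;> simp

/-- conjugate lifts of `rtilde` are strictly equivalent (any local `𝒪`-algebra with local
structure map and residue field generated by `𝒪`) -/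
theorem seq_of_conj (habs : ρbar.IsAbsolutelyIrreducible) (hloc : IsLocalHom (algebraMap 𝒪 A))
    (hres : Function.Surjective (IsLocalRing.residue A ∘ algebraMap 𝒪 A))
    (ρ₁ ρ₂ : Γ →* M2 A)
    (h₁ : ∀ σ i j, ρ₁ σ i j - algebraMap 𝒪 A (rtilde ρbar σ i j) ∈ IsLocalRing.maximalIdeal A)
    (h₂ : ∀ σ i j, ρ₂ σ i j - algebraMap 𝒪 A (rtilde ρbar σ i j) ∈ IsLocalRing.maximalIdeal A)
    (X : M2 A) (hX : IsUnit X) (hc : ∀ σ, X * ρ₁ σ = ρ₂ σ * X) : SEq A ρ₁ ρ₂ := by
  let res := IsLocalRing.residue A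
  let W : M2 (IsLocalRing.ResidueField A) := X.map res
  have h12 : ∀ σ, (ρ₂ σ).map res = (ρ₁ σ).map res := by
    intro σ
    ext i j
    simp only [Matrix.map_apply]
    rw [← sub_eq_zero, ← map_sub, IsLocalRing.residue_eq_zero_iff]
    have := Ideal.sub_mem _ (h₂ σ i j) (h₁ σ i j)
    simpa using this
  have hWc : ∀ σ, W * (ρ₁ σ).map res = (ρ₁ σ).map res * W := by
    intro σ
    show X.map res * (ρ₁ σ).map res = (ρ₁ σ).map res * X.map res
    rw [← Matrix.map_mul, hc σ, Matrix.map_mul, h12]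
  obtain ⟨c, hWs⟩ := commutant_residue ρbar habs hloc hres (fun σ => ρ₁ σ) h₁ W hWc
  have hWunit : IsUnit W := hX.map (RingHom.mapMatrix res)
  have hc0 : c ≠ 0 := by
    rintro rfl
    rw [hWs, map_zero] at hWunit
    exact not_isUnit_zero hWunit
  have e := fun i j => congrFun (congrFun hWs i) j
  have e00 : res (X 0 0) = c := by simpa [W] using e 0 0
  have e01 : res (X 0 1) = 0 := by simpa [W] using e 0 1
  have e10 : res (X 1 0) = 0 := by simpa [W] using e 1 0
  have e11 : res (X 1 1) = c := by simpa [W] using e 1 1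
  have hu : IsUnit (X 0 0) := by
    rw [← IsLocalRing.residue_ne_zero_iff_isUnit]
    show res (X 0 0) ≠ 0
    rw [e00]; exact hc0
  obtain ⟨u, hu⟩ := hu
  refine ⟨(↑u⁻¹ : A) • X, ?_, ?_⟩
  · intro i j
    rw [← IsLocalRing.residue_eq_zero_iff]
    show res (((↑u⁻¹ : A) • X - 1) i j) = 0
    have hru : res (↑u : A) = c := by rw [hu]; exact e00
    fin_cases i <;> fin_cases j <;>
      simp [Matrix.sub_apply, Matrix.smul_apply, e00, e01, e10, e11, hru, hc0]
  · intro σ
    rw [Matrix.smul_mul, hc σ, Matrix.mul_smul]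

end residue

section centraliser

/-- Vector-valued Schur lemma: a `2 × 2` matrix with entries in a vector space `V` commuting
with a family of matrices whose commutant is the scalars has scalar shape. -/
theorem vec_commutant {K : Type} [Field K] {ι : Type} (R : ι → M2 K)
    (hR : ∀ W : M2 K, (∀ σ, W * R σ = R σ * W) → ∃ c : K, W = Matrix.scalar (Fin 2) c)
    {V : Type} [AddCommGroup V] [Module K V] (z : Fin 2 → Fin 2 → V)
    (hz : ∀ σ i j, ∑ l, R σ l j • z i l = ∑ l, R σ i l • z l j) :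
    z 0 1 = 0 ∧ z 1 0 = 0 ∧ z 1 1 = z 0 0 := by
  have key : ∀ φ : Module.Dual K V, φ (z 0 1) = 0 ∧ φ (z 1 0) = 0 ∧ φ (z 1 1) = φ (z 0 0) := by
    intro φ
    obtain ⟨c, hc⟩ := hR (Matrix.of fun i j => φ (z i j)) (by
      intro σ
      ext i j
      have := congrArg φ (hz σ i j)
      simp only [map_sum, map_smul, smul_eq_mul] at this
      simp only [Matrix.mul_apply, Matrix.of_apply]
      rw [← this]
      exact Finset.sum_congr rfl fun l _ => mul_comm _ _)
    have e := fun i j => congrFun (congrFun hc i) j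
    refine ⟨?_, ?_, ?_⟩
    · simpa using e 0 1
    · simpa using e 1 0
    · have h1 := e 1 1
      have h0 := e 0 0
      simp at h1 h0
      rw [h1, h0]
  refine ⟨?_, ?_, ?_⟩
  · exact (Module.forall_dual_apply_eq_zero_iff K _).mp fun φ => (key φ).1
  · exact (Module.forall_dual_apply_eq_zero_iff K _).mp fun φ => (key φ).2.1
  · rw [← sub_eq_zero]
    exact (Module.forall_dual_apply_eq_zero_iff K _).mp fun φ => by
      rw [map_sub, (key φ).2.2, sub_self]

/-- The quotient `I / 𝔪 I` of an ideal of a local ring. -/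
abbrev GrV {A : Type} [CommRing A] [IsLocalRing A] (I : Ideal A) : Type :=
  ↥I ⧸ (IsLocalRing.maximalIdeal A • ⊤ : Submodule A ↥I)

/-- `I / 𝔪 I` is a vector space over the residue field. -/
noncomputable abbrev grVModule {A : Type} [CommRing A] [IsLocalRing A] (I : Ideal A) :
    Module (IsLocalRing.ResidueField A) (GrV I) :=
  inferInstanceAs (Module (A ⧸ IsLocalRing.maximalIdeal A)
    (↥I ⧸ (IsLocalRing.maximalIdeal A • ⊤ : Submodule A ↥I)))

attribute [local instance] grVModule

theorem residue_smul_mk {A : Type} [CommRing A] [IsLocalRing A] (I : Ideal A) (a : A) (x : ↥I) :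
    IsLocalRing.residue A a • (Submodule.Quotient.mk x : GrV I)
      = (Submodule.Quotient.mk (a • x) : GrV I) := rfl

/-- One step of the `𝔪`-adic approximation: a matrix with entries in an ideal `I` commuting
with a family whose reduction has scalar commutant is scalar modulo `𝔪 * I`. -/
theorem step {A : Type} [CommRing A] [IsLocalRing A] {ι : Type} (R : ι → M2 A)
    (hR : ∀ W : M2 (IsLocalRing.ResidueField A),
      (∀ σ, W * (R σ).map (IsLocalRing.residue A) = (R σ).map (IsLocalRing.residue A) * W) →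
        ∃ c : IsLocalRing.ResidueField A, W = Matrix.scalar (Fin 2) c)
    (I : Ideal A) (Z : M2 A) (hZ : ∀ i j, Z i j ∈ I) (hc : ∀ σ, Z * R σ = R σ * Z) :
    Z 0 1 ∈ IsLocalRing.maximalIdeal A * I ∧ Z 1 0 ∈ IsLocalRing.maximalIdeal A * I ∧
      Z 1 1 - Z 0 0 ∈ IsLocalRing.maximalIdeal A * I := by
  have hz : ∀ σ i j, ∑ l, (R σ).map (IsLocalRing.residue A) l j •
        (Submodule.Quotient.mk (⟨Z i l, hZ i l⟩ : ↥I) : GrV I)
      = ∑ l, (R σ).map (IsLocalRing.residue A) i l •
        (Submodule.Quotient.mk (⟨Z l j, hZ l j⟩ : ↥I) : GrV I) := by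
    intro σ i j
    have h1 : (∑ l, R σ l j • (⟨Z i l, hZ i l⟩ : ↥I)) = ∑ l, R σ i l • (⟨Z l j, hZ l j⟩ : ↥I) := by
      apply Subtype.ext
      have := congrFun (congrFun (hc σ) i) j
      simp only [Matrix.mul_apply] at this
      simp only [Submodule.coe_sum, Submodule.coe_smul, smul_eq_mul]
      rw [← this]
      exact Finset.sum_congr rfl fun l _ => mul_comm _ _
    have h2 := congrArg (Submodule.mkQ (IsLocalRing.maximalIdeal A • ⊤ : Submodule A ↥I)) h1
    simp only [map_sum] at h2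
    simp only [Matrix.map_apply, residue_smul_mk]
    exact h2
  obtain ⟨h01, h10, h11⟩ := vec_commutant (fun σ => (R σ).map (IsLocalRing.residue A)) hR
    (fun i j => (Submodule.Quotient.mk (⟨Z i j, hZ i j⟩ : ↥I) : GrV I)) hz
  have conv : ∀ x : ↥I, (Submodule.Quotient.mk x : GrV I) = 0 →
      (x : A) ∈ IsLocalRing.maximalIdeal A * I := by
    intro x hx
    rw [Submodule.Quotient.mk_eq_zero, Submodule.mem_smul_top_iff] at hx
    simpa using hx
  refine ⟨conv _ h01, conv _ h10, ?_⟩
  have h : (Submodule.Quotient.mk (⟨Z 1 1, hZ 1 1⟩ - ⟨Z 0 0, hZ 0 0⟩ : ↥I) : GrV I) = 0 := by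
    rw [Submodule.Quotient.mk_sub]
    exact sub_eq_zero.mpr h11
  exact conv _ h

variable {𝒪 : Type} [CommRing 𝒪] [IsLocalRing 𝒪]
  (ρbar : ResidualGaloisRep (IsLocalRing.ResidueField 𝒪))
variable {A : Type} [CommRing A] [IsLocalRing A] [Algebra 𝒪 A]

/-- centraliser of a lift over an Artinian test algebra is the scalars -/
theorem cent [Finite (IsLocalRing.ResidueField 𝒪)] (habs : ρbar.IsAbsolutelyIrreducible)
    (hA : IsArtinianTestAlgebra 𝒪 A) (ρ : Γ →* M2 A)
    (hl : ∀ σ i j, ρ σ i j - algebraMap 𝒪 A (rtilde ρbar σ i j) ∈ IsLocalRing.maximalIdeal A)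
    (X : M2 A) (hX : ∀ σ, X * ρ σ = ρ σ * X) : ∃ c : A, X = Matrix.scalar (Fin 2) c := by
  have := hA.isArtinian
  let 𝔪 := IsLocalRing.maximalIdeal A
  have hR := commutant_residue ρbar habs hA.isLocalHom hA.residue_surjective (fun σ => ρ σ) hl
  have key : ∀ n : ℕ, ∃ c : A, ∀ i j, (X - Matrix.scalar (Fin 2) c) i j ∈ 𝔪 ^ n := by
    intro n
    induction n with
    | zero => exact ⟨0, fun i j => by simp⟩
    | succ n ih =>
      obtain ⟨c, hc⟩ := ih
      let Z : M2 A := X - Matrix.scalar (Fin 2) c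
      have hZc : ∀ σ, Z * ρ σ = ρ σ * Z := by
        intro σ
        show (X - Matrix.scalar (Fin 2) c) * ρ σ = ρ σ * (X - Matrix.scalar (Fin 2) c)
        rw [sub_mul, mul_sub, hX σ, (Matrix.scalar_commute c (fun r => Commute.all _ _) (ρ σ)).eq]
      obtain ⟨h01, h10, h11⟩ := step (fun σ => ρ σ) hR (𝔪 ^ n) Z hc hZc
      rw [← pow_succ'] at h01 h10 h11
      refine ⟨c + Z 0 0, fun i j => ?_⟩
      have hXZ : X - Matrix.scalar (Fin 2) (c + Z 0 0) = Z - Matrix.scalar (Fin 2) (Z 0 0) := by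
        show X - Matrix.scalar (Fin 2) (c + Z 0 0)
          = X - Matrix.scalar (Fin 2) c - Matrix.scalar (Fin 2) (Z 0 0)
        rw [map_add]; abel
      rw [hXZ]
      fin_cases i <;> fin_cases j
      · simp
      · simpa using h01
      · simpa using h10
      · simpa using h11
  obtain ⟨n, hn⟩ : ∃ n : ℕ, 𝔪 ^ n = ⊥ := by
    have h := IsArtinianRing.isNilpotent_jacobson_bot (R := A)
    rw [IsLocalRing.jacobson_eq_maximalIdeal ⊥ bot_ne_top] at h
    obtain ⟨n, hn⟩ := h
    exact ⟨n, hn⟩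
  obtain ⟨c, hc⟩ := key n
  refine ⟨c, ?_⟩
  rw [hn] at hc
  rw [← sub_eq_zero]
  ext i j
  simpa using hc i j

end centraliser

end Fermat.Agent.S53.Schur
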