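import Mathlib
import Fermat.Agent.S53.Defs
import Fermat.Agent.Lib.DefMat
import Fermat.Agent.Lib.DefNormRep

set_option autoImplicit false

namespace Fermat.Agent.S53.Translate

open GaloisRep Fermat.Agent.S53.Defs

variable {A : Type} [CommRing A] [IsLocalRing A]

theorem exists_ofMat_isEquiv (ρ : GaloisRepAdic A) :
    ∃ (ρm : Γ →* M2 A) (hc : IsContMat A ρm), ρ.IsEquiv (ofMat ρm hc) := by
  obtain ⟨r, hc, he, -⟩ := Fermat.Agent.Lib.DefMat.exists_ofMat ρ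
    (Module.finBasisOfFinrankEq A ρ.V ρ.finrank_eq)
  exact ⟨r, hc, he⟩

theorem ofMat_isEquiv_iff (ρ₁ ρ₂ : Γ →* M2 A) (h₁ : IsContMat A ρ₁) (h₂ : IsContMat A ρ₂) :
    (ofMat ρ₁ h₁).IsEquiv (ofMat ρ₂ h₂) ↔
      ∃ X : M2 A, IsUnit X ∧ ∀ σ, X * ρ₁ σ = ρ₂ σ * X := by
  rw [Fermat.Agent.Lib.DefMat.ofMat_isEquiv_iff]
  constructor
  · rintro ⟨X, hX, h⟩
    exact ⟨X, (Matrix.isUnit_iff_isUnit_det X).mpr hX, h⟩
  · rintro ⟨X, hX, h⟩
    exact ⟨X, (Matrix.isUnit_iff_isUnit_det X).mp hX, h⟩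

theorem isContMat_mapRep {B : Type} [CommRing B] [IsLocalRing B] (φ : A →+* B)
    (hφ : IsLocalHom φ) (ρ : Γ →* M2 A) (hc : IsContMat A ρ) : IsContMat B (mapRep φ ρ) :=
  Fermat.Agent.Lib.DefMat.isContMat_mapRep φ hφ hc

theorem baseChangeAlong_ofMat_isEquiv {B : Type} [CommRing B] [IsLocalRing B] (φ : A →+* B)
    (hφ : IsLocalHom φ) (ρ : Γ →* M2 A) (hc : IsContMat A ρ) (hc' : IsContMat B (mapRep φ ρ)) :
    ((ofMat ρ hc).baseChangeAlong φ hφ).IsEquiv (ofMat (mapRep φ ρ) hc') :=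
  Fermat.Agent.Lib.DefMat.ofMat_baseChangeAlong φ hφ ρ hc hc'

variable {𝒪 : Type} [CommRing 𝒪] [IsLocalRing 𝒪]

theorem residual_ofMat_isEquiv (ρbar : ResidualGaloisRep (IsLocalRing.ResidueField 𝒪))
    (ψ : IsLocalRing.ResidueField 𝒪 →+* IsLocalRing.ResidueField A)
    (ρ : Γ →* M2 A) (hc : IsContMat A ρ)
    (h : ∀ σ i j, IsLocalRing.residue A (ρ σ i j) = ψ (rbarMat ρbar σ i j)) :
    (ofMat ρ hc).residual.IsEquiv (ρbar.baseChangeAlong ψ) :=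
  Fermat.Agent.Lib.DefMat.ofMat_residual_isEquiv ρ hc ρbar (rbarBasis ρbar) ψ h

theorem exists_lift_of_residual_isEquiv [Algebra 𝒪 A] [IsLocalHom (algebraMap 𝒪 A)]
    (hres : Function.Surjective (IsLocalRing.residue A ∘ algebraMap 𝒪 A))
    (ρbar : ResidualGaloisRep (IsLocalRing.ResidueField 𝒪)) (ρA : GaloisRepAdic A)
    (h : ρA.residual.IsEquiv
      (ρbar.baseChangeAlong (IsLocalRing.ResidueField.map (algebraMap 𝒪 A)))) :
    ∃ (ρm : Γ →* M2 A) (hc : IsContMat A ρm), ρA.IsEquiv (ofMat ρm hc) ∧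
      ∀ σ i j, ρm σ i j - algebraMap 𝒪 A (rtilde ρbar σ i j) ∈ IsLocalRing.maximalIdeal A := by
  obtain ⟨b, hb⟩ := Fermat.Agent.Lib.DefNormRep.exists_basis_of_residual_isEquiv
    (rbarBasis ρbar) (IsLocalRing.ResidueField.map (algebraMap 𝒪 A)) ρA h
  obtain ⟨r, hc, he, hr⟩ := Fermat.Agent.Lib.DefMat.exists_ofMat ρA b
  refine ⟨r, hc, he, fun σ i j => ?_⟩
  rw [← IsLocalRing.residue_eq_zero_iff, map_sub, sub_eq_zero, hr]
  have h1 := congrFun (congrFun (hb σ) i) j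
  rw [RingHom.mapMatrix_apply, RingHom.mapMatrix_apply, Matrix.map_apply, Matrix.map_apply] at h1
  rw [h1, ← IsLocalRing.ResidueField.map_residue, residue_rtilde, rbarMat_apply]

end Fermat.Agent.S53.Translate
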